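import Fermat.Agent.MazurPrinciple.Horizontal
import Fermat.Agent.LevelP.Inst.Affine
import Fermat.Agent.FunctionFieldRR.PlaceExists

/-!
# A fixed function with divisor `n D` is an `n`-th power at every horizontal valuation

A horizontal valuation of the field of rationality extends to a place, and a fixed function has
any prescribed order of the stable divisor at that place.
-/

set_option autoImplicit false
set_option linter.unusedSectionVars false

noncomputable section

open AlgebraicCurve Fermat.Agent.FunctionFieldRR Fermat.Agent.SemistableRed Fermat.Agent.LevelP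

namespace Fermat.Agent.MazurPrinciple

variable {L : Type*} [Field L] [IsAlgClosed L] [CharZero L] [Algebra.IsAlgebraic ℚ L]
  {A : ValuationSubring L} {k : Type*} [Field k] [IsAlgClosed k] {π : A →+* k}
  {F : Type*} [Field F] [Algebra L F] [IsFunctionField L F]
  {G : Type*} [Field G] [Algebra k G] [IsFunctionField k G] {S : SplitModel A π F G} {p : ℕ} (Δ : Descent S p)

include Δ in
/-- An element of a stable Riemann–Roch space with exact order, fixed. -/
theorem exists_fixed_exact (E : Divisor L F) (hst : Stable Δ.act (riemannRochSpace E))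
    (hE : S.rrBound + 1 ≤ Divisor.degree E) (hE0 : S.gF + 1 ≤ Divisor.degree E)
    (P : Place L F) : ∃ f ∈ Δ.F₀, f ≠ 0 ∧ P.ord f = -E P := by
  classical
  have hdeg : Divisor.degree (E - Finsupp.single P 1) = Divisor.degree E - 1 := by
    rw [map_sub, Divisor.degree_single, deg_eq_one, Nat.cast_one, mul_one]
  have h1 := S.rrF E (by omega)
  have h2 := S.rrF (E - Finsupp.single P 1) (by omega)
  have hV : FiniteDimensional L (riemannRochSpace E) :=
    Module.finite_of_finrank_pos (by omega)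
  have hnle : ¬ riemannRochSpace E ≤ riemannRochSpace (E - Finsupp.single P 1) := fun hle => by
    have := Module.finite_of_finrank_pos
      (show 0 < Module.finrank L (riemannRochSpace (E - Finsupp.single P 1)) by omega)
    have := Submodule.finrank_mono hle
    omega
  obtain ⟨f, ⟨hf, hfix⟩, hf'⟩ : ∃ f, (f ∈ riemannRochSpace E ∧ f ∈ fixedSubfield Δ.act) ∧
      f ∉ riemannRochSpace (E - Finsupp.single P 1) := by
    by_contra hcon
    push Not at hcon
    exact hnle ((Δ.stable_span _ hV hst).trans (Submodule.span_le.mpr fun x hx => hcon x hx))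
  have hf0 : f ≠ 0 := fun h => hf' (h ▸ Submodule.zero_mem _)
  have hb := (mem_rrs_iff.mp hf).resolve_left hf0
  refine ⟨f, hfix, hf0, le_antisymm ?_ (hb P)⟩
  by_contra hlt
  refine hf' (mem_rrs_iff.mpr (Or.inr fun Q => ?_))
  have := hb Q
  rcases eq_or_ne P Q with rfl | hPQ
  · simp only [Finsupp.sub_apply, Finsupp.single_eq_same]; omega
  · simpa [Finsupp.single_eq_of_ne' hPQ] using this

include Δ in
/-- A fixed function has any order prescribed by a stable divisor. -/
theorem exists_fixed_ord (D : Divisor L F)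
    (hD : ∀ m : ℕ, Stable Δ.act (riemannRochSpace ((m : ℤ) • S.H - D))) (P : Place L F) :
    ∃ f ∈ Δ.F₀, f ≠ 0 ∧ P.ord f = D P := by
  have hH : 0 < Divisor.degree S.H := by
    rw [S.degree_H]; have := S.degree_C_pos; omega
  set m : ℕ := (|S.rrBound| + |(S.gF : ℤ)| + |Divisor.degree D| + 1).toNat
  have hm : |S.rrBound| + |(S.gF : ℤ)| + |Divisor.degree D| + 1 ≤ (m : ℤ) * Divisor.degree S.H := by
    have h := Int.self_le_toNat (|S.rrBound| + |(S.gF : ℤ)| + |Divisor.degree D| + 1)
    have : (m : ℤ) ≤ (m : ℤ) * Divisor.degree S.H := le_mul_of_one_le_right (by positivity) hH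
    omega
  have a1 := le_abs_self S.rrBound
  have a2 := le_abs_self (S.gF : ℤ)
  have a3 := le_abs_self (Divisor.degree D)
  have a4 := abs_nonneg (Divisor.degree D)
  have a5 := abs_nonneg S.rrBound
  have a6 := abs_nonneg (S.gF : ℤ)
  obtain ⟨f, hf, hf0, hfo⟩ := exists_fixed_exact Δ _ (hD m)
    (by rw [map_sub, map_zsmul, smul_eq_mul]; omega)
    (by rw [map_sub, map_zsmul, smul_eq_mul]; omega) P
  obtain ⟨g, hg, hg0, hgo⟩ := exists_fixed_exact Δ _ (Δ.stable_rr m)
    (by rw [map_zsmul, smul_eq_mul]; omega) (by rw [map_zsmul, smul_eq_mul]; omega) P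
  refine ⟨f / g, div_mem hf hg, div_ne_zero hf0 hg0, ?_⟩
  rw [ord_div P hf0 hg0, hfo, hgo, Finsupp.sub_apply]
  ring

/-- **Horizontal powers.** -/
theorem horizPow_of_div {R : Subring Δ.F₀} (hR : Δ.W ≤ R) {n : ℕ} {u : Δ.F₀} (hu : u ≠ 0)
    (D : Divisor L F) (hdiv : ∀ P : Place L F, P.ord (u : F) = (n : ℤ) * D P)
    (hD : ∀ m : ℕ, Stable Δ.act (riemannRochSpace ((m : ℤ) • S.H - D))) :
    HorizPow R p n u := by
  intro O hRO hinv
  have hp0 : (p : L) ≠ 0 := Δ.natCast_ne
  -- fixed constants lie in `O`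
  have hconst : ∀ (c : L) (hc : algebraMap L F c ∈ Δ.F₀),
      (⟨algebraMap L F c, hc⟩ : Δ.F₀) ∈ O := by
    intro c hc
    rcases eq_or_ne c 0 with rfl | hc0
    · convert O.zero_mem
      exact map_zero _
    obtain ⟨m, hm, -⟩ := Δ.const_value c hc hc0
    have hfix : algebraMap L F (c * (p : L) ^ m) ∈ Δ.F₀ := by
      rw [map_mul, map_zpow₀, map_natCast]
      exact mul_mem hc (zpow_mem (natCast_mem _ p) m)
    have hW : (⟨_, hfix⟩ : Δ.F₀) ∈ O := hRO _ (hR (Δ.W_mem hm hfix))
    have hpO : ∀ j : ℤ, (p : Δ.F₀) ^ j ∈ O := fun j => by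
      obtain ⟨i, rfl | rfl⟩ := j.eq_nat_or_neg
      · rw [zpow_natCast]; exact pow_mem (natCast_mem _ p) _
      · rw [zpow_neg, zpow_natCast, ← inv_pow]; exact pow_mem hinv _
    convert O.mul_mem _ _ hW (hpO (-m)) using 1
    refine Subtype.ext ?_
    show algebraMap L F c = algebraMap L F (c * (p : L) ^ m) * (((p : Δ.F₀) ^ (-m) : Δ.F₀) : F)
    rw [map_mul, map_zpow₀, map_natCast,
      show ((((p : Δ.F₀) ^ (-m) : Δ.F₀)) : F) = (p : F) ^ (-m) by
        rw [show ∀ z : Δ.F₀, (z : F) = Δ.F₀.subtype z from fun _ => rfl, map_zpow₀, map_natCast],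
      mul_assoc, ← zpow_add₀ (by
      rw [← map_natCast (algebraMap L F)]; exact (map_ne_zero _).mpr hp0), add_neg_cancel,
      zpow_zero, mul_one]
  -- a valuation ring of `F` dominating `O`
  obtain ⟨B, hle, hloc⟩ :=
    LocalSubring.exists_le_valuationSubring (LocalSubring.range (Δ.F₀.subtype.comp O.subtype))
  have hBmem : ∀ x : Δ.F₀, x ∈ O → (x : F) ∈ B := fun x hx => hle ⟨⟨x, hx⟩, rfl⟩
  have hdom : ∀ x : Δ.F₀, (x : F) ∈ B → (x : F)⁻¹ ∈ B → x ∈ O := by
    intro x hx hx'
    refine (O.mem_or_inv_mem x).elim id fun hinvO => ?_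
    rcases eq_or_ne x 0 with rfl | hx0
    · exact O.zero_mem
    have hxF : (x : F) ≠ 0 := fun e => hx0 (Subtype.ext e)
    set a : (LocalSubring.range (Δ.F₀.subtype.comp O.subtype)).toSubring :=
      ⟨(x : F)⁻¹, ⟨⟨x⁻¹, hinvO⟩, by simp⟩⟩
    have hua : IsUnit a := by
      refine hloc.map_nonunit a ?_
      refine IsUnit.of_mul_eq_one ⟨(x : F), hx⟩ (Subtype.ext ?_)
      exact inv_mul_cancel₀ hxF
    obtain ⟨b, hb⟩ := hua.exists_right_inv
    obtain ⟨⟨y, hy⟩, hy'⟩ := b.2
    have h1 : (x : F)⁻¹ * (b : F) = 1 := congrArg Subtype.val hb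
    rw [inv_mul_eq_one₀ hxF, ← hy'] at h1
    have h2 : x = y := Subtype.ext h1
    exact h2 ▸ hy
  have hL : ∀ c : L, algebraMap L F c ∈ B := by
    intro c
    obtain ⟨y, d, hd, hyd⟩ : ∃ (y : L) (d : ℤ), d ≠ 0 ∧ IsIntegral ℤ y ∧ y = c * d := by
      have : Algebra.IsAlgebraic ℤ L :=
        (IsFractionRing.comap_isAlgebraic_iff (A := ℤ) (K := ℚ) (C := L)).mpr ‹_›
      obtain ⟨d, hd, hint⟩ := (Algebra.IsAlgebraic.isAlgebraic (R := ℤ) c).exists_integral_multiple
      exact ⟨c * d, d, hd, by rw [zsmul_eq_mul, mul_comm] at hint; exact hint, rfl⟩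
    have hyB : algebraMap L F y ∈ B := by
      have hint : IsIntegral B (algebraMap L F y) :=
        (hyd.1.map (algebraMap L F).toIntAlgHom).tower_top
      obtain ⟨z, hz⟩ := IsIntegrallyClosed.isIntegral_iff.mp hint
      exact hz ▸ z.2
    have hdfix : algebraMap L F ((d : L)⁻¹) ∈ Δ.F₀ := by
      rw [map_inv₀, map_intCast]; exact inv_mem (intCast_mem _ d)
    have hdB := hBmem _ (hconst _ hdfix)
    have := B.mul_mem _ _ hyB hdB
    rw [show ((⟨algebraMap L F ((d : L)⁻¹), hdfix⟩ : Δ.F₀) : F) =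
      algebraMap L F ((d : L)⁻¹) from rfl, ← map_mul, hyd.2, mul_assoc,
      mul_inv_cancel₀ (Int.cast_ne_zero.mpr hd), mul_one] at this
    exact this
  have huF : (u : F) ≠ 0 := fun e => hu (Subtype.ext e)
  by_cases htop : B = ⊤
  · have hall : ∀ x : F, x ∈ B := fun x => htop ▸ ValuationSubring.mem_top x
    exact ⟨1, one_ne_zero, hdom _ (hall _) (hall _), hdom _ (hall _) (hall _)⟩
  set P := placeOfValuationSubring B hL htop with hP
  obtain ⟨f, hf, hf0, hfo⟩ := exists_fixed_ord Δ D hD P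
  have hzero : P.ord (f ^ n * (u : F)⁻¹) = 0 := by
    rw [P.ord_mul (pow_ne_zero _ hf0) (inv_ne_zero huF), ord_pow, P.ord_inv, hfo, hdiv]; ring
  have hmem : ∀ x : F, P.ord x = 0 → x ∈ B := fun x hx => (ord_nonneg_iff P x).mp hx.ge
  refine ⟨⟨f, hf⟩, fun e => hf0 (congrArg Subtype.val e), hdom _ ?_ ?_, hdom _ ?_ ?_⟩ <;>
    refine hmem _ ?_ <;> push_cast
  · exact hzero
  · rw [P.ord_inv, hzero, neg_zero]
  · rw [← neg_eq_zero, ← P.ord_inv, mul_inv, inv_inv, mul_comm]; exact hzero
  · rw [mul_inv, inv_inv, mul_comm]; exact hzero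

end Fermat.Agent.MazurPrinciple

end
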