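import Fermat.Agent.MazurPrinciple.NodeLaw

/-!
# The local laws at pairs and at smooth points

At a pair the order of the reduction is proportional, modulo `n`, to the difference of the two
valuations, with the factor read off from the modular unit `w`; at a smooth point it is divisible
by `n`.
-/

set_option autoImplicit false

noncomputable section

namespace Fermat.Agent.MazurPrinciple

open Fermat.Agent.LevelP

variable {p : ℕ} [Fact p.Prime] {F : Type*} [Field F] {k G : Type*} [Field k] [Field G]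
  [Algebra k G] {D : GlueData p F k G} {W : Subring F}

section Pair

variable {P Q : DVPoint k G} {w : F} {kw : ℕ} (S : PairData D W P Q w kw)

/-- The order of the reduced unit times the exponent is the weight of the unit. -/
theorem weight_eq (hp : (p : F) ≠ 0) (hw : w ≠ 0) :
    (S.e : ℤ) * go D P 0 w = gv D 1 w - gv D 0 w := by
  set x := (S.e : ℤ) * go D P 0 w - (gv D 1 w - gv D 0 w)
  set n := S.e * (x.natAbs + 1) + 1 with hn
  have hcop : n.Coprime S.e := by
    rw [hn, Nat.coprime_iff_gcd_eq_one, Nat.gcd_comm, Nat.add_comm, Nat.gcd_add_mul_left_right,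
      Nat.gcd_one_right]
  obtain ⟨⟨c, hc⟩, -⟩ := node_law S hp (Nat.succ_pos _) hcop hw
    (HorizPow.of_unit S.w_mem S.w_dual_mem hp)
  change x = (n : ℤ) * c at hc
  have hlt : x.natAbs < n := by
    have : 1 * (x.natAbs + 1) ≤ S.e * (x.natAbs + 1) := Nat.mul_le_mul_right _ S.e_pos
    omega
  have hx : x.natAbs = n * c.natAbs := by rw [hc, Int.natAbs_mul, Int.natAbs_natCast]
  rcases Nat.eq_zero_or_pos c.natAbs with h0 | h0
  · have : x = 0 := Int.natAbs_eq_zero.mp (by rw [hx, h0, mul_zero])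
    simpa [x, sub_eq_zero] using this
  · exact absurd hlt (not_lt.mpr (by rw [hx]; exact Nat.le_mul_of_pos_right n h0))

/-- The exponent divides the weight of the unit. -/
theorem e_dvd_weight (hp : (p : F) ≠ 0) (hw : w ≠ 0) (hkw : gv D 1 w - gv D 0 w = kw) :
    S.e ∣ kw := by
  have hw' := weight_eq S hp hw
  rw [hkw] at hw'
  exact Int.natCast_dvd_natCast.mp ⟨_, hw'.symm⟩

end Pair

section Smooth

variable {i : Fin 2} {P : DVPoint k G} (S : SmoothData D W i P)

/-- The local ring as a subring. -/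
abbrev smoothR : Subring F := S.A

/-- `p` in the local ring. -/
def pR : smoothR S := (p : smoothR S)

theorem isUnit_smooth {x : smoothR S} (h : P.evF (D.redF i (x : F)) ≠ 0) : IsUnit x := by
  have hx0 : (x : F) ≠ 0 := fun h0 => h (by rw [h0, D.redF_zero, P.evF_zero])
  exact IsUnit.of_mul_eq_one ⟨_, S.inv_mem x x.2 h⟩ (Subtype.ext (mul_inv_cancel₀ hx0))

theorem mem_nonunits_smooth {x : smoothR S} :
    x ∈ nonunits (smoothR S) ↔ P.evF (D.redF i (x : F)) = 0 := by
  refine ⟨fun h => ?_, fun h hu => ?_⟩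
  · by_contra h0
    exact h (isUnit_smooth S h0)
  · obtain ⟨y, hy⟩ := hu.exists_right_inv
    have h1 := congrArg (fun z : smoothR S => P.evF (D.redF i (z : F))) hy
    simp only [Subring.coe_mul, Subring.coe_one] at h1
    rw [D.redF_mul (S.le x.2) (S.le y.2), D.redF_one,
      P.evF_mul (S.red_mem _ x.2) (S.red_mem _ y.2), h, zero_mul, P.evF_one] at h1
    exact zero_ne_one h1

theorem isLocalRing_smooth : IsLocalRing (smoothR S) := by
  refine IsLocalRing.of_nonunits_add fun {a b} ha hb => ?_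
  rw [mem_nonunits_smooth] at ha hb ⊢
  rw [Subring.coe_add, D.redF_add (S.le a.2) (S.le b.2),
    P.evF_add (S.red_mem _ a.2) (S.red_mem _ b.2), ha, hb, add_zero]

/-- The law at a smooth point. -/
theorem smooth_law (hp : (p : F) ≠ 0) {n : ℕ} (hn : 0 < n) {u : F} (hu : u ≠ 0)
    (hpow : HorizPow S.A p n u) : (n : ℤ) ∣ go D P i u := by
  have : IsNoetherianRing (smoothR S) := S.noetherian
  have := isLocalRing_smooth S
  obtain ⟨T, hT, hTr⟩ := S.surj P.unif P.unif_mem
  let t : smoothR S := ⟨T, hT⟩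
  have hTu : P.IsUnif (D.redF i T) := hTr ▸ P.isUnif_unif
  have hred0 : ∀ x : smoothR S, D.redF i ((pR S * x : smoothR S) : F) = 0 := fun x => by
    simp only [pR, Subring.coe_mul]
    push_cast
    rw [D.redF_mul (natCast_mem _ p) (S.le x.2), redF_natCast, zero_mul]
  have hm : IsLocalRing.maximalIdeal (smoothR S) = Ideal.span {pR S, t} := by
    refine le_antisymm (fun x hx => ?_) ?_
    · have h0 := (mem_nonunits_smooth S).mp hx
      obtain ⟨z, hz, hz'⟩ := hTu.exists_div (S.red_mem _ x.2) h0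
      obtain ⟨g, hg, hg'⟩ := S.surj z hz
      have hsub : D.redF i ((x : F) - T * g) = 0 := by
        have h := D.redF_add (S.le (sub_mem x.2 (mul_mem hT hg))) (S.le (mul_mem hT hg))
        rw [sub_add_cancel, D.redF_mul (S.le hT) (S.le hg), hz', hg'] at h
        linear_combination -h
      obtain ⟨y, hy, hy'⟩ := S.ker _ (sub_mem x.2 (mul_mem hT hg)) hsub
      rw [Ideal.mem_span_pair]
      exact ⟨⟨y, hy⟩, ⟨g, hg⟩, Subtype.ext (by simp [pR, t]; linear_combination -hy')⟩
    · rw [Ideal.span_le]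
      rintro x (rfl | rfl) <;> rw [SetLike.mem_coe, IsLocalRing.mem_maximalIdeal,
        mem_nonunits_smooth]
      · rw [← mul_one (pR S), hred0, P.evF_zero]
      · exact hTu.evF_eq_zero
  have hTr0 : D.redF i T ≠ 0 := hTu.ne_zero
  have hT0 : T ≠ 0 := fun h0 => hTr0 (by rw [h0, D.redF_zero])
  have hnil : ∀ N : ℕ, t ^ N ∉ Ideal.span {pR S} := fun N hN => by
    rw [Ideal.mem_span_singleton] at hN
    obtain ⟨r, hr⟩ := hN
    have h1 := congrArg (fun z : smoothR S => D.redF i (z : F)) hr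
    simp only [hred0, SubmonoidClass.coe_pow] at h1
    have h2 := gv_of_red_ne D hp (S.le hT) hTr0
    have h3 := (gred_spec D (i := i) (pow_ne_zero N hT0)).2
    rw [(gv_pow D hp hT0 N).2, h2.2] at h3
    have h4 : D.redF i (T ^ N) = D.redF i T ^ N := by
      rw [← h2.2, ← (gv_pow D hp hT0 N).2, gred, (gv_pow D hp hT0 N).1, h2.1, mul_zero, neg_zero,
        zpow_zero, mul_one]
    exact h3 (h4 ▸ h1)
  have hp0 : pR S ≠ 0 := fun h0 => hp (by simpa [pR] using congrArg Subtype.val h0)
  -- invariants of members of the local ring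
  have hmem : ∀ x : smoothR S, (x : F) ≠ 0 → IsIntegral S.A (x : F) := fun x _ =>
    isIntegral_algebraMap (x := (⟨(x : F), x.2⟩ : S.A))
  have htirr : Irreducible t := by
    refine ⟨(mem_nonunits_smooth S).mpr hTu.evF_eq_zero, fun x y hxy => ?_⟩
    have he : T = (x : F) * y := congrArg Subtype.val hxy
    have h1 : P.ord (D.redF i T) = 1 := hTu.ord_eq_one
    rw [he, D.redF_mul (S.le x.2) (S.le y.2)] at h1
    have hx0 : D.redF i (x : F) ≠ 0 := fun h0 => hTr0 (by
      rw [he, D.redF_mul (S.le x.2) (S.le y.2), h0, zero_mul])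
    have hy0 : D.redF i (y : F) ≠ 0 := fun h0 => hTr0 (by
      rw [he, D.redF_mul (S.le x.2) (S.le y.2), h0, mul_zero])
    rw [P.ord_mul hx0 hy0] at h1
    have a1 := (P.mem_iff hx0).mp (S.red_mem _ x.2)
    have a2 := (P.mem_iff hy0).mp (S.red_mem _ y.2)
    rcases (show P.ord (D.redF i (x : F)) = 0 ∨ P.ord (D.redF i (y : F)) = 0 by omega) with h | h
    · exact Or.inl (isUnit_smooth S (DVPoint.isUnitAt_iff.mpr ⟨hx0, h⟩).2)
    · exact Or.inr (isUnit_smooth S (DVPoint.isUnitAt_iff.mpr ⟨hy0, h⟩).2)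
  have hfr : ∀ x : F, ∃ g h : smoothR S, h ≠ 0 ∧ x * (h : F) = g := fun x => by
    obtain ⟨a, ha, b, hb, hb0, e⟩ := S.fraction x
    exact ⟨⟨a, ha⟩, ⟨b, hb⟩, fun h => hb0 (congrArg Subtype.val h), e⟩
  obtain ⟨x, hx, y, hy, hy0, hxy⟩ := S.fraction u
  have hzA : x * y ^ (n - 1) ∈ S.A := mul_mem hx (pow_mem hy _)
  have hz : ((⟨_, hzA⟩ : smoothR S) : F) = RingHom.id F (u * y ^ n) := by
    show x * y ^ (n - 1) = u * y ^ n
    rw [← hxy]
    conv_rhs => rw [← Nat.sub_add_cancel hn, pow_succ]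
    ring
  have hs : Prime (pR S) := (Ideal.span_singleton_prime hp0).mp
    (LevelP.isPrime_and_pid_of_not_nilpotent hm hnil).1
  obtain ⟨a, b, H, U, hzf, hb⟩ := exists_factorisation (RingHom.id F) hm hnil hp0 htirr hfr
    (fun f hf => hf) hn (fun ϖ hϖ h1 _ hd =>
      h1 (hϖ.irreducible.associated_of_dvd hs.irreducible hd)) hu hy0 hpow hz
  obtain ⟨c, hc⟩ := hb fun hd => hnil 1 (by
    rw [pow_one, Ideal.mem_span_singleton]
    exact (htirr.associated_of_dvd hs.irreducible hd).symm.dvd)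
  have hzF := congrArg Subtype.val hzf
  rw [hz, RingHom.id_apply] at hzF
  simp only [Subring.coe_mul, SubmonoidClass.coe_pow] at hzF
  have hl : u * y ^ n ≠ 0 := mul_ne_zero hu (pow_ne_zero _ hy0)
  have hR := hzF ▸ hl
  have n1 := left_ne_zero_of_mul (left_ne_zero_of_mul (left_ne_zero_of_mul hR))
  have n2 := right_ne_zero_of_mul (left_ne_zero_of_mul (left_ne_zero_of_mul hR))
  have n3 := right_ne_zero_of_mul (left_ne_zero_of_mul hR)
  have n4 := right_ne_zero_of_mul hR
  have n3' : (H : F) ≠ 0 := fun h0 => n3 (by rw [h0, zero_pow hn.ne'])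
  have hgo := congrArg (go D P i) hzF
  have hp' : ((pR S : smoothR S) : F) = (p : F) := by simp [pR]
  have hU : go D P i ((U : smoothR S) : F) = 0 := by
    have hne : P.evF (D.redF i ((U : smoothR S) : F)) ≠ 0 := fun h0 =>
      ((mem_nonunits_smooth S).mpr h0) U.isUnit
    have hu' : P.IsUnitAt (D.redF i ((U : smoothR S) : F)) := ⟨S.red_mem _ U.1.2, hne⟩
    obtain ⟨-, e2⟩ := gv_of_red_ne D hp (S.le U.1.2) hu'.ne_zero
    rw [go, e2]
    exact (DVPoint.isUnitAt_iff.mp hu').2
  have hT1 : go D P i T = 1 := by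
    rw [go, (gv_of_red_ne D hp (S.le hT) hTr0).2]; exact hTu.ord_eq_one
  rw [hp', go_mul D hp P hu (pow_ne_zero _ hy0), go_pow D hp P hy0,
    go_mul D hp P (mul_ne_zero (mul_ne_zero (hp' ▸ n1) n2) n3) n4,
    go_mul D hp P (mul_ne_zero (hp' ▸ n1) n2) n3, go_mul D hp P (hp' ▸ n1) n2,
    go_pow D hp P hp, go_natCast D hp P i, go_pow D hp P n3', hU,
    show ((t : smoothR S) : F) = T from rfl, go_pow D hp P hT0, hT1, hc] at hgo
  exact ⟨c + go D P i (H : F) - go D P i y, by push_cast at hgo; linear_combination hgo⟩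

end Smooth

end Fermat.Agent.MazurPrinciple

end
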