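import Fermat.Agent.MazurPrinciple.Eisenstein
import Fermat.Agent.MazurPrinciple.HorizFixed
import Fermat.Agent.MazurPrinciple.LocalLaw
import Fermat.Agent.LevelP.Inst.Concrete
import Fermat.Agent.LevelP.Inst.PairRing

/-!
# The reduction of a fixed function with divisor `n D` on the component at `∞`

Modulo `n` its divisor is a multiple of the divisor `Σ (12 / e) P` of the reduced unit at the
glued places, `e` the exponents of the local equations.
-/

set_option autoImplicit false
set_option linter.unusedSectionVars false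

noncomputable section

open IsLocalRing ModularCurve AlgebraicCurve Fermat.Agent.Reduction Fermat.Agent.SemistableRed
  Fermat.Agent.FunctionFieldRR Fermat.Agent.LevelP

namespace Fermat.Agent.MazurPrinciple

local notation "Qbar" => AlgebraicClosure ℚ

attribute [local instance] HeckeJ0.hasPrincipalDivisors_bar

variable {A : ValuationSubring Qbar} {M q : ℕ} [NeZero M] [NeZero q] [Fact q.Prime]
  [CharP (ResidueField A) q] [IsAlgClosed (ResidueField A)] {S : Setting A M q}
  [IsFunctionField (ResidueField A) (modularFunctionFieldFullC (ResidueField A) M)]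
  [HasPrincipalDivisors (ResidueField A) (modularFunctionFieldFullC (ResidueField A) M)]
  [CharP (modularFunctionFieldFullC (ResidueField A) M) q]

local notation "gal" => arithmeticGalois (modularFunctionFieldFull (M * q))

/-- A function killed by inertia lies in the field of rationality. -/
theorem mem_F₀_of_galois {f : modularFunctionFieldBar (M * q)}
    (h : ∀ σ ∈ A.inertiaSubgroupIn ℚ, gal σ • f = f) : f ∈ (descent S).F₀ := by
  show f ∈ fixedSubfield (inertiaAct A M q)
  rintro _ ⟨σ, hσ, rfl⟩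
  exact h σ hσ

theorem galois_eq_of_mem_F₀ {f : modularFunctionFieldBar (M * q)} (hf : f ∈ (descent S).F₀)
    {σ : Qbar ≃ₐ[ℚ] Qbar} (hσ : σ ∈ A.inertiaSubgroupIn ℚ) : gal σ • f = f :=
  hf _ ⟨σ, hσ, rfl⟩

/-- The spaces attached to the divisor of a fixed function are stable. -/
theorem stable_of_fixed {n : ℕ} (hn : n ≠ 0) {u : modularFunctionFieldBar (M * q)}
    (hu : u ∈ (descent S).F₀) (D : Divisor Qbar (modularFunctionFieldBar (M * q)))
    (hdiv : ∀ P : Place Qbar (modularFunctionFieldBar (M * q)), P.ord u = (n : ℤ) * D P) (m : ℕ) :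
    Stable (descent S).act (riemannRochSpace ((m : ℤ) • S.splitModel.H - D)) := by
  rintro _ ⟨σ, hσ, rfl⟩ f hf
  show gal σ • f ∈ _
  rw [SemistableRed.mem_rrs_iff] at hf ⊢
  refine hf.imp (fun e => by rw [e, smul_zero]) fun h P => ?_
  obtain ⟨P', rfl⟩ := MulAction.surjective (gal σ) P
  have hD : D (gal σ • P') = D P' := by
    have h1 := SemilinearAut.ord_smul (gal σ) P' u
    rw [galois_eq_of_mem_F₀ hu hσ, hdiv, hdiv] at h1
    exact mul_left_cancel₀ (Int.natCast_ne_zero.mpr hn) h1
  rw [SemilinearAut.ord_smul]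
  have := h P'
  simp only [Finsupp.sub_apply, Finsupp.smul_apply, smul_eq_mul] at this ⊢
  show -((m : ℤ) * S.polesH (gal σ • P') - D (gal σ • P')) ≤ _
  rw [S.polesH_galois, hD]
  exact this

variable (U : LevelUnit S)

/-- The unit in the field of rationality. -/
def unitW : (descent S).F₀ := ⟨U.w, mem_F₀_of_galois fun σ _ => U.galois σ⟩

theorem natCast_F₀_ne : ((q : ℕ) : (descent S).F₀) ≠ 0 := fun h => by
  have h1 := congrArg (fun z : (descent S).F₀ => (z : modularFunctionFieldBar (M * q))) h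
  simp only [ZeroMemClass.coe_zero] at h1
  push_cast at h1
  exact NeZero.ne q (Nat.cast_eq_zero.mp h1)

theorem unitW_ne : unitW U ≠ 0 := fun h => U.ne_zero (congrArg Subtype.val h)

theorem inLat_unitW : (descent S).InLat U.m (unitW U : modularFunctionFieldBar (M * q)) :=
  ⟨(unitW U).2, U.int, U.mem⟩

theorem inLat_dual :
    (descent S).InLat U.m ((q : modularFunctionFieldBar (M * q)) ^ 12 *
      (unitW U : modularFunctionFieldBar (M * q))⁻¹) :=
  ⟨mul_mem (pow_mem (natCast_mem _ q) _) (inv_mem (unitW U).2), U.int_dual, U.mem_dual⟩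

theorem unitW_div : unitW U * ((q : (descent S).F₀) ^ 12)⁻¹ ∈ (descent S).glueData.Int 1 ∧
    (descent S).glueData.redF 1 (unitW U * ((q : (descent S).F₀) ^ 12)⁻¹) ≠ 0 := by
  have e : ((unitW U * ((q : (descent S).F₀) ^ 12)⁻¹ : (descent S).F₀) :
      modularFunctionFieldBar (M * q)) =
      U.w * ((q : modularFunctionFieldBar (M * q)) ^ 12)⁻¹ := by push_cast; rfl
  have h : S.splitModel.Int 1 ((unitW U * ((q : (descent S).F₀) ^ 12)⁻¹ : (descent S).F₀) :
      modularFunctionFieldBar (M * q)) := by rw [e]; exact U.int1_div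
  refine ⟨h, ?_⟩
  rw [(descent S).glueData_redF h, e]
  exact U.red1_div_ne

theorem nonempty_pair {x} (hx : x ∈ S.splitModel.pairs) :
    Nonempty (PairData (descent S).glueData (descent S).W (DVPoint.ofPlace x.1)
      (DVPoint.ofPlace x.2) (unitW U) 12) :=
  (descent S).nonempty_pairData hx (by norm_num) (inLat_unitW U) (inLat_dual U) U.red0_ne
    (unitW_div U)

/-- The chosen local data at a pair. -/
def pairAt {x} (hx : x ∈ S.splitModel.pairs) :
    PairData (descent S).glueData (descent S).W (DVPoint.ofPlace x.1) (DVPoint.ofPlace x.2)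
      (unitW U) 12 := (nonempty_pair U hx).some

theorem unitW_zero : unitW U ∈ (descent S).glueData.Int 0 ∧
    (descent S).glueData.redF 0 (unitW U) = S.splitModel.red 0 U.w :=
  ⟨U.int 0, (descent S).glueData_redF (U.int 0)⟩

theorem gv_unitW : gv (descent S).glueData 0 (unitW U) = 0 ∧
    gv (descent S).glueData 1 (unitW U) = 12 ∧
    gred (descent S).glueData 0 (unitW U) = S.splitModel.red 0 U.w := by
  obtain ⟨h0, h0'⟩ := unitW_zero U
  obtain ⟨e1, e2⟩ := gv_of_red_ne (descent S).glueData natCast_F₀_ne h0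
    (h0' ▸ U.red0_ne)
  obtain ⟨g1, g2⟩ := unitW_div U
  obtain ⟨f1, -⟩ := gv_eq (descent S).glueData natCast_F₀_ne (f := unitW U) g1 g2 (m := 12) (by
    rw [show ((q : (descent S).F₀) ^ (12 : ℤ)) = (q : (descent S).F₀) ^ (12 : ℕ) from
      zpow_natCast _ 12, mul_assoc, inv_mul_cancel₀ (pow_ne_zero _ natCast_F₀_ne), mul_one])
  exact ⟨e1, f1, e2.trans h0'⟩

theorem gv_sub_unitW : gv (descent S).glueData 1 (unitW U) - gv (descent S).glueData 0 (unitW U) =
    ((12 : ℕ) : ℤ) := by
  obtain ⟨h0, h1, -⟩ := gv_unitW U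
  rw [h0, h1]; rfl

/-- The exponent at a pair divides twelve. -/
theorem pair_e_dvd {x} (hx : x ∈ S.splitModel.pairs) : (pairAt U hx).e ∣ 12 :=
  e_dvd_weight (pairAt U hx) natCast_F₀_ne (unitW_ne U) (gv_sub_unitW U)

theorem ord_unit_pair {x} (hx : x ∈ S.splitModel.pairs) :
    ((pairAt U hx).e : ℤ) * x.1.ord (S.splitModel.red 0 U.w) = 12 := by
  have h := weight_eq (pairAt U hx) natCast_F₀_ne (unitW_ne U)
  rw [gv_sub_unitW, go, (gv_unitW U).2.2, ofPlace_ord] at h
  exact h

/-- Away from the pairs the reduced unit has no zero on the affine part. -/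
theorem ord_unit_smooth {P} (hP : P ∉ Descent.pairPoints S.splitModel 0) (hC : S.splitModel.C P = 0) :
    P.ord (S.splitModel.red 0 U.w) = 0 := by
  let T := (descent S).smoothData hP
  have hex : (descent S).Exact 0 P U.m 1 := by
    refine ⟨(descent S).one_inLat.mono (Nat.zero_le _), by rw [S.splitModel.red_one]; exact one_ne_zero, ?_⟩
    rw [hC, S.splitModel.red_one, mul_zero, neg_zero]
    exact Place.ord_one P
  have hmem : ∀ f : (descent S).F₀, (descent S).InLat U.m (f : modularFunctionFieldBar (M * q)) →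
      f ∈ T.A := fun f hf => Descent.mem_localRing.mpr ⟨U.m, _, 1, hf, hex, mul_one _⟩
  have hpow : ∀ n : ℕ, HorizPow T.A q n (unitW U) := fun n => by
    refine HorizPow.of_unit (kw := 12) (hmem _ (inLat_unitW U)) (hmem _ ?_) natCast_F₀_ne
    have := inLat_dual U
    push_cast
    exact this
  set x := P.ord (S.splitModel.red 0 U.w) with hx
  have h : ((x.natAbs + 1 : ℕ) : ℤ) ∣ x := by
    have h1 := smooth_law T natCast_F₀_ne (Nat.succ_pos x.natAbs) (unitW_ne U) (hpow _)
    rwa [go, (gv_unitW U).2.2, ofPlace_ord] at h1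
  obtain ⟨c, hc⟩ := h
  have h2 : x.natAbs = (x.natAbs + 1) * c.natAbs := by
    conv_lhs => rw [hc, Int.natAbs_mul, Int.natAbs_natCast]
  rcases Nat.eq_zero_or_pos c.natAbs with h0 | h0
  · rw [Int.natAbs_eq_zero] at h0; rw [hc, h0, mul_zero]
  · have := Nat.le_mul_of_pos_right (x.natAbs + 1) h0
    omega

/-- A normalisation of the reduction of a fixed function. -/
theorem exists_scale_gred {u : (descent S).F₀} (hu : u ≠ 0) :
    ∃ c : Qbar, c ≠ 0 ∧ S.splitModel.Int 0 (c • (u : modularFunctionFieldBar (M * q))) ∧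
      S.splitModel.red 0 (c • (u : modularFunctionFieldBar (M * q))) =
        gred (descent S).glueData 0 u := by
  obtain ⟨h1, -⟩ := gred_spec (descent S).glueData (i := 0) hu
  set j := -gv (descent S).glueData 0 u
  have e : ((u * (q : (descent S).F₀) ^ j : (descent S).F₀) : modularFunctionFieldBar (M * q)) =
      ((q : Qbar) ^ j) • (u : modularFunctionFieldBar (M * q)) := by
    rw [Descent.zpow_natCast_smul, mul_comm ((q : modularFunctionFieldBar (M * q)) ^ j)]
    exact (map_mul (descent S).F₀.subtype u _).trans (by rw [map_zpow₀, map_natCast]; rfl)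
  have hi : S.splitModel.Int 0 (((q : Qbar) ^ j) • (u : modularFunctionFieldBar (M * q))) :=
    e ▸ h1
  refine ⟨(q : Qbar) ^ j, zpow_ne_zero _ (Nat.cast_ne_zero.mpr (NeZero.ne q)), hi, ?_⟩
  rw [gred, (descent S).glueData_redF h1, e]

/-- **The decomposition of the divisor of the reduction.** -/
theorem exists_decomp {n : ℕ} (hn : n ≠ 0)
    (hcop : ∀ x (hx : x ∈ S.splitModel.pairs), n.Coprime (pairAt U hx).e)
    {u : (descent S).F₀} (hu : u ≠ 0) (D : Divisor Qbar (modularFunctionFieldBar (M * q)))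
    (hdiv : ∀ P : Place Qbar (modularFunctionFieldBar (M * q)),
      P.ord (u : modularFunctionFieldBar (M * q)) = (n : ℤ) * D P) :
    ∃ (E V : Divisor (ResidueField A) (modularFunctionFieldFullC (ResidueField A) M)) (s d : ℤ),
      d ≠ 0 ∧ d • V = unitZ U ∧
      dvs (K := ResidueField A) (gred (descent S).glueData 0 u) = (n : ℤ) • E + s • V := by
  classical
  have : Algebra.IsAlgebraic ℚ Qbar := AlgebraicClosure.isAlgebraic ℚ
  set L : ℕ := S.splitModel.pairs.attach.lcm fun x => (pairAt U x.2).e with hL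
  have hL12 : L ∣ 12 := Finset.lcm_dvd fun x _ => pair_e_dvd U x.2
  obtain ⟨d, hd⟩ := hL12
  have hLe : ∀ x (hx : x ∈ S.splitModel.pairs), (pairAt U hx).e ∣ L := fun x hx =>
    Finset.dvd_lcm (s := S.splitModel.pairs.attach) (f := fun x => (pairAt U x.2).e)
      (Finset.mem_attach _ ⟨x, hx⟩)
  have hLcop : n.Coprime L := Nat.Coprime.coprime_dvd_right
    (Finset.lcm_dvd fun x hx => Finset.dvd_prod_of_mem _ hx)
    (Nat.Coprime.prod_right fun x _ => hcop x.1 x.2)
  have hd0 : d ≠ 0 := fun h => by rw [h, mul_zero] at hd; omega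
  have hd0' : (d : ℤ) ≠ 0 := Int.natCast_ne_zero.mpr hd0
  obtain ⟨a', b', hab⟩ : IsCoprime (n : ℤ) (L : ℤ) := Nat.isCoprime_iff_coprime.mpr hLcop
  set a := S.splitModel.red 0 U.w with ha
  set δ := gv (descent S).glueData 1 u - gv (descent S).glueData 0 u
  set s := δ * b'
  set z := gred (descent S).glueData 0 u
  have hpow : ∀ {R : Subring (descent S).F₀}, (descent S).W ≤ R → HorizPow R q n u := fun hR =>
    horizPow_of_div (descent S) hR hu D hdiv (stable_of_fixed hn u.2 D hdiv)
  -- the reduced unit at a point of a pair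
  have hpair : ∀ x (hx : x ∈ S.splitModel.pairs), ∃ f : ℤ,
      unitZ U x.1 = (d : ℤ) * f ∧ (n : ℤ) ∣ x.1.ord z - s * f := by
    intro x hx
    obtain ⟨f, hf⟩ := hLe x hx
    have hC : S.splitModel.C x.1 = 0 := (S.splitModel.mem_pairs.mp hx).1
    have hj : ¬ x.1.ord (jbar (ResidueField A) M) < 0 := not_lt.mpr (S.ord_jbar_nonneg hC)
    have h12 := ord_unit_pair U hx
    have e12 : (12 : ℤ) = ((pairAt U hx).e : ℤ) * f * d := by
      have h := congrArg (fun m : ℕ => (m : ℤ)) hd
      simp only [hf] at h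
      push_cast at h
      linarith
    refine ⟨f, ?_, ?_⟩
    · rw [unitZ_apply, if_neg hj]
      refine mul_left_cancel₀ (Int.natCast_ne_zero.mpr (pairAt U hx).e_pos.ne') (h12.trans ?_)
      rw [← mul_assoc, show ((pairAt U hx).e : ℤ) * d * f = (pairAt U hx).e * f * d by ring, ← e12]
    · obtain ⟨⟨c, hc⟩, -⟩ := node_law (pairAt U hx) natCast_F₀_ne (Nat.pos_of_ne_zero hn)
        (hcop x hx) hu (hpow (pairAt U hx).W_le)
      rw [go, ofPlace_ord] at hc
      rw [hf] at hab
      push_cast at hab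
      exact ⟨b' * f * c + a' * x.1.ord z, by
        show x.1.ord z - δ * b' * f = _
        linear_combination (b' * (f : ℤ)) * hc + (-x.1.ord z) * hab⟩
  -- everywhere
  have hall : ∀ P, ∃ v : ℤ, unitZ U P = (d : ℤ) * v ∧ (n : ℤ) ∣ P.ord z - s * v := by
    intro P
    by_cases hP : P ∈ Descent.pairPoints S.splitModel 0
    · obtain ⟨x, hx, rfl⟩ := Finset.mem_image.mp hP
      simpa using hpair x hx
    refine ⟨0, ?_, ?_⟩
    · rw [mul_zero, unitZ_apply]
      split_ifs with hj
      · rfl
      refine ord_unit_smooth U hP ?_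
      show S.polesC P = 0
      rw [S.polesC_apply, max_eq_right (by omega), mul_zero]
    · rw [mul_zero, sub_zero]
      have h := smooth_law ((descent S).smoothData hP) natCast_F₀_ne (Nat.pos_of_ne_zero hn) hu
        (hpow ((descent S).smoothData hP).W_le)
      rwa [go, ofPlace_ord] at h
  choose v hv hv' using hall
  let V : Divisor (ResidueField A) (modularFunctionFieldFullC (ResidueField A) M) :=
    (unitZ U).mapRange (· / (d : ℤ)) (Int.zero_ediv _)
  have hV : ∀ P, V P = v P := fun P => by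
    show unitZ U P / (d : ℤ) = v P
    rw [hv, Int.mul_ediv_cancel_left _ hd0']
  let E : Divisor (ResidueField A) (modularFunctionFieldFullC (ResidueField A) M) :=
    (dvs (K := ResidueField A) z - s • V).mapRange (· / (n : ℤ)) (Int.zero_ediv _)
  refine ⟨E, V, s, d, hd0', Finsupp.ext fun P => ?_, Finsupp.ext fun P => ?_⟩
  · rw [Finsupp.smul_apply, smul_eq_mul, hV, hv]
  · obtain ⟨c, hc⟩ := hv' P
    rw [Finsupp.add_apply, Finsupp.smul_apply, Finsupp.smul_apply, smul_eq_mul, smul_eq_mul,
      dvs_apply]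
    show _ = (n : ℤ) * (((dvs (K := ResidueField A) z - s • V) P) / (n : ℤ)) + _
    rw [Finsupp.sub_apply, Finsupp.smul_apply, dvs_apply, smul_eq_mul, hV, hc,
      Int.mul_ediv_cancel_left _ (Int.natCast_ne_zero.mpr hn)]
    linarith

end Fermat.Agent.MazurPrinciple

end
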