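import Fermat.Agent.MazurPrinciple.HeckeRed
import Fermat.Agent.SemistableRed.Components
import Fermat.Agent.LevelP.Inst.SplitAux

/-!
# `T_ℓ` on divisors, and lifts of divisors of the special fibre
-/

set_option autoImplicit false
set_option linter.unusedSectionVars false

noncomputable section

open IsLocalRing ModularCurve AlgebraicCurve Fermat.Agent.Reduction Fermat.Agent.SemistableRed
  Fermat.Agent.FunctionFieldRR

namespace Fermat.Agent.MazurPrinciple

local notation "Qbar" => AlgebraicClosure ℚ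

attribute [local instance] HeckeJ0.hasPrincipalDivisors_bar

/-- The correspondence `T_ℓ` on divisors of level `N`. -/
def Tdiv (N ℓ : ℕ) [NeZero N] [NeZero ℓ] :
    Divisor Qbar (modularFunctionFieldBar N) →+ Divisor Qbar (modularFunctionFieldBar N) :=
  haveI := HeckeJ0.hasPrincipalDivisors_bar (N * ℓ)
  heckeDivBar (HeckeJ0.alphaIntegral N ℓ) (HeckeJ0.betaIntegral N ℓ)

variable {N ℓ : ℕ} [NeZero N] [NeZero ℓ]

theorem Tdiv_dvs {f : modularFunctionFieldBar N} (hf : f ≠ 0) :
    Tdiv N ℓ (dvs f) = dvs (Tfun N ℓ f) :=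
  haveI := HeckeJ0.hasPrincipalDivisors_bar (N * ℓ)
  heckeDivBar_dvs (HeckeJ0.alphaIntegral N ℓ) (HeckeJ0.betaIntegral N ℓ)
    (HeckeJ0.alphaFinite N ℓ) (HeckeJ0.alphaNormFormula N ℓ) hf

theorem Tdiv_nonneg {D : Divisor Qbar (modularFunctionFieldBar N)} (hD : ∀ P, 0 ≤ D P)
    (P : Place Qbar (modularFunctionFieldBar N)) : 0 ≤ Tdiv N ℓ D P :=
  haveI := HeckeJ0.hasPrincipalDivisors_bar (N * ℓ)
  Congruence.correspondence_nonneg _ _ (HeckeJ0.betaIntegral N ℓ) (HeckeJ0.alphaIntegral N ℓ) hD P

theorem degree_Tdiv (hℓ : ℓ.Prime) (hℓN : ¬ ℓ ∣ N)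
    (D : Divisor Qbar (modularFunctionFieldBar N)) :
    Divisor.degree (Tdiv N ℓ D) = (ℓ + 1 : ℤ) * Divisor.degree D := by
  have := HeckeJ0.hasPrincipalDivisors_bar (N * ℓ)
  have h := Divisor.degree_correspondence _ _ (HeckeJ0.betaIntegral N ℓ)
    (HeckeJ0.alphaIntegral N ℓ) (HeckeJ0.betaFundamental N ℓ) D
  rw [finrankAlong_beta hℓ hℓN] at h
  push_cast at h
  exact h

variable {A : ValuationSubring Qbar} {M q : ℕ} [NeZero M] [NeZero q] [Fact q.Prime]
  [CharP (ResidueField A) q] [IsAlgClosed (ResidueField A)] (S : Setting A M q)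
  [IsFunctionField (ResidueField A) (modularFunctionFieldFullC (ResidueField A) M)]
  [HasPrincipalDivisors (ResidueField A) (modularFunctionFieldFullC (ResidueField A) M)]

include S in
/-- The Riemann–Roch data of the good model of level `M`. -/
theorem exists_rrData : ∃ g c : ℤ, GoodModel.RRData (A := A) (F := modularFunctionFieldBar M)
    (Fk := modularFunctionFieldFullC (ResidueField A) M) g c := by
  obtain ⟨g, hF⟩ := S.facts
  obtain ⟨c, hc⟩ := hF.genus_le
  exact ⟨g, c, hF.char0.riemann, hc⟩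

include S in
/-- Reduction maps exist. -/
theorem exists_redMap : Nonempty S.model.ReductionMap := by
  obtain ⟨g, hF⟩ := S.facts
  obtain ⟨c, hc⟩ := hF.genus_le
  exact S.model.exists_reductionMap ⟨hF.char0.riemann, hF.charL.riemann, hc⟩

variable {S}

/-- Reduction commutes with `T_ℓ`. -/
theorem red_Tdiv_congr (R : S.model.ReductionMap) (hℓ : ℓ.Prime) (hℓM : ¬ ℓ ∣ M)
    {D D' : Divisor Qbar (modularFunctionFieldBar M)}
    (h : Finsupp.mapDomain R.toFun D = Finsupp.mapDomain R.toFun D') :
    Finsupp.mapDomain R.toFun (Tdiv M ℓ D) = Finsupp.mapDomain R.toFun (Tdiv M ℓ D') := by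
  have := HeckeJ0.hasPrincipalDivisors_bar (M * ℓ)
  obtain ⟨g, c, H⟩ := exists_rrData S
  have hd := congrArg Divisor.degree h
  rw [GoodModel.ReductionMap.degree_map, GoodModel.ReductionMap.degree_map] at hd
  have h0 := map_hecke_eq_zero (HeckeJ0.alphaIntegral M ℓ) (HeckeJ0.betaIntegral M ℓ) R H hℓ hℓM
    (D := D - D') (by rw [map_sub, hd, sub_self]) (by rw [Finsupp.mapDomain_sub, h, sub_self])
  rw [map_sub, Finsupp.mapDomain_sub, sub_eq_zero] at h0
  exact h0

/-- The place map is surjective. -/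
theorem redMap_surjective (R : S.model.ReductionMap) : Function.Surjective R.toFun := by
  classical
  intro Q
  obtain ⟨g, c, H⟩ := exists_rrData S
  obtain ⟨B, hB⟩ := LevelP.exists_exact S.splitModel
  obtain ⟨P₀⟩ : Nonempty (Place Qbar (modularFunctionFieldBar M)) := by
    obtain ⟨x, hx, hfin⟩ :=
      IsFunctionField.exists_transcendental (K := Qbar) (F := modularFunctionFieldBar M)
    have := hfin
    by_contra h
    rw [not_nonempty_iff] at h
    have h1 := degree_polarDivisor (K := Qbar) hx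
    rw [show polarDivisor (K := Qbar) x = 0 from Finsupp.ext fun P => isEmptyElim P, map_zero] at h1
    exact Module.finrank_pos.ne' (by exact_mod_cast h1.symm)
  set d : ℕ := (max B c).toNat + 1
  rcases eq_or_ne (R.toFun P₀) Q with h | hne
  · exact ⟨P₀, h⟩
  set Dk : Divisor (ResidueField A) (modularFunctionFieldFullC (ResidueField A) M) :=
    Finsupp.single (R.toFun P₀) (d : ℤ) - Finsupp.single Q 1 with hDk
  have hmax := Int.self_le_toNat (max B c)
  have hd : max B c + 1 ≤ (d : ℤ) := by push_cast [d]; omega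
  obtain ⟨s, hs0, hs, -⟩ := hB Dk Q (by
    rw [hDk, map_sub, Divisor.degree_single, Divisor.degree_single, deg_eq_one, deg_eq_one]
    push_cast
    omega)
  have hs' : s ∈ riemannRochSpace (Finsupp.mapDomain R.toFun (Finsupp.single P₀ (d : ℤ))) := by
    rw [Finsupp.mapDomain_single]
    refine SemistableRed.rrs_mono (fun P => ?_) hs
    rw [hDk, Finsupp.sub_apply, Finsupp.single_apply (a := Q)]
    split_ifs <;> simp
  obtain ⟨x, hx, hxi, hxr⟩ := R.exists_lift H.low H.up (D := Finsupp.single P₀ (d : ℤ))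
    (by rw [Divisor.degree_single, deg_eq_one]; push_cast; omega) hs'
  set E := Finsupp.single P₀ (d : ℤ) + dvs (K := Qbar) x with hE
  have hQ : 0 < Finsupp.mapDomain R.toFun E Q := by
    rw [hE, Finsupp.mapDomain_add, Finsupp.mapDomain_single, R.spec x hxi (hxr ▸ hs0), hxr,
      Finsupp.add_apply, dvs_apply, Finsupp.single_eq_of_ne' hne, zero_add]
    have h1 := (SemistableRed.mem_rrs_iff.mp hs).resolve_left hs0 Q
    rw [hDk, Finsupp.sub_apply, Finsupp.single_eq_same, Finsupp.single_eq_of_ne' hne] at h1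
    omega
  by_contra hno
  push Not at hno
  exact hQ.ne' (Finsupp.mapDomain_of_notMem_range _ _ fun ⟨P, hP⟩ => hno P hP)

/-- Every divisor of the special fibre lifts. -/
theorem exists_lift_divisor (R : S.model.ReductionMap)
    (E : Divisor (ResidueField A) (modularFunctionFieldFullC (ResidueField A) M)) :
    ∃ D : Divisor Qbar (modularFunctionFieldBar M), Finsupp.mapDomain R.toFun D = E :=
  Finsupp.mapDomain_surjective (redMap_surjective R) E

end Fermat.Agent.MazurPrinciple

end
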