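import Fermat.Agent.MazurPrinciple.Classes
import Fermat.Agent.SemistableRed.NewformSystem
import Fermat.Agent.SemistableRed.AllFacts
import Fermat.Agent.HeckeEigen.CongruenceLift
import Fermat.Agent.EigenSystems.ModelIndependent

/-!
# Descent of a residual eigensystem

A mod `𝔪` eigensystem which vanishes on the annihilator of `J₀(M)[p]` in the Hecke polynomials
at the good primes is that of an eigenform of level `M`.
-/

set_option autoImplicit false

noncomputable section

namespace Fermat.Agent.MazurPrinciple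

open ModularCurve AlgebraicCurve Matrix Fermat.Agent.EigenRep Fermat.Agent.SemistableRed
  CongruenceSubgroup

local notation "Qbar" => AlgebraicClosure ℚ
local notation "Jtors" N:max n:max => Pic0.torsion (AlgebraicClosure ℚ) (modularFunctionFieldBar N) n

/-- The primes dividing `N`, as the exceptional set of the good Hecke polynomials. -/
abbrev badSet (N : ℕ) : Set ℕ := {r | r ∣ N}

/-- A good Hecke polynomial acts on `pⁿ`-torsion through its value at the Hecke matrices. -/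
theorem exists_evalT_mulVec {M N p : ℕ} [NeZero M] [Fact p.Prime] (m : TorsionHeckeModel M p)
    (P : GoodHecke N) (n : ℕ) : ∀ x : Jtors M (p ^ n),
      ∃ y : Jtors M (p ^ n),
        (y : JZero M) = (letI := heckeModuleBar M; toHecke P • (x : JZero M)) ∧
        m.e n y = (evalT m (badSet N) P : Matrix (Fin m.d) (Fin m.d) ℤ).map
          (Int.castRingHom (ZMod (p ^ n))) *ᵥ m.e n x := by
  let := heckeModuleBar M
  induction P using MvPolynomial.induction_on with
  | C a =>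
    intro x
    refine ⟨a • x, ?_, ?_⟩
    · rw [toHecke, MvPolynomial.rename_C, heckeModuleBar_C_smul]
      rfl
    · rw [evalT_C, map_zsmul, Subalgebra.coe_algebraMap, Matrix.algebraMap_eq_diagonal,
        Matrix.diagonal_map (map_zero _)]
      funext i
      simp [Matrix.mulVec_diagonal, zsmul_eq_mul]
  | add P Q hP hQ =>
    intro x
    obtain ⟨y, hy, hye⟩ := hP x
    obtain ⟨z, hz, hze⟩ := hQ x
    refine ⟨y + z, ?_, ?_⟩
    · rw [toHecke, map_add, add_smul]
      exact congrArg₂ (· + ·) hy hz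
    · rw [evalT_add, map_add, hye, hze, ← add_mulVec, Subalgebra.coe_add,
        Matrix.map_add _ (map_add _)]
  | mul_X P r hP =>
    intro x
    obtain ⟨y, hy, hye⟩ := hP (heckeTors (p ^ n) r.1 x)
    refine ⟨y, ?_, ?_⟩
    · have h : toHecke (P * MvPolynomial.X r) = toHecke P * heckeGen r.1 := by
        rw [toHecke, map_mul, MvPolynomial.rename_X]
        rfl
      rw [hy, h, mul_smul]
      congr 1
      exact (heckeModuleBar_heckeGen_smul (HeckeJ0.heckeOperatorsCommuteBar M) r.1 _).symm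
    · rw [hye, m.e_hecke n r.1 x (heckeTors (p ^ n) r.1 x) rfl, mulVec_mulVec, evalT_mul, evalT_X,
        Subalgebra.coe_mul, Matrix.map_mul]
      rfl

/-- An eigensystem mod `𝔪` vanishing on the annihilator of `J₀(M)[p]` descends to level `M`. -/
theorem isResiduallyModularOfLevel_of_vanishing {p : ℕ} [Fact p.Prime] {W : WeierstrassCurve ℤ}
    (hres : Engine.Residual W p) {M q : ℕ} [NeZero M] (hq : q.Prime)
    (f : CuspForm (Gamma0 (M * q)) 2) (𝔪 : Ideal (integralClosure ℤ ℂ))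
    (h𝔪 : 𝔪.IsMaximal) (hp𝔪 : (p : integralClosure ℤ ℂ) ∈ 𝔪)
    (hcongr : ∀ ℓ : ℕ, ℓ.Prime → W.IsGoodPrimeFor ℓ → ¬ ℓ ∣ M * q → ℓ ≠ p →
      ∃ b : integralClosure ℤ ℂ, (b : ℂ) = ModularFormClass.qCoeff f ℓ ∧
        b - ((W.apOfModel ℓ : ℤ) : integralClosure ℤ ℂ) ∈ 𝔪)
    (a : Nat.Primes → integralClosure ℤ ℂ)
    (ha : ∀ r, (a r : ℂ) = ModularFormClass.qCoeff f (r : ℕ))
    (hvan : ∀ P : GoodHecke (M * q * p),
      (∀ ξ : JZero M, p • ξ = 0 → (letI := heckeModuleBar M; toHecke P • ξ) = 0) →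
      MvPolynomial.eval₂ (Int.castRingHom _) (fun r => Ideal.Quotient.mk 𝔪 (a r.1)) P = 0) :
    W.IsResiduallyModularOfLevel p M := by
  classical
  have hp : p.Prime := Fact.out
  have hN : M * q * p ≠ 0 := mul_ne_zero (mul_ne_zero (NeZero.ne M) hq.ne_zero) hp.ne_zero
  let : Field (integralClosure ℤ ℂ ⧸ 𝔪) := Ideal.Quotient.field 𝔪
  let S : Set ℕ := badSet (M * q * p)
  let R := torsionInputs (allRelations M p)
  let := matAlgCommRing (T := matFamily R.model S) fun i j => R.model.comm i.1 j.1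
  let e' : GoodHecke (M * q * p) →+* matAlg (matFamily R.model S) :=
    (MvPolynomial.aeval fun ℓ => matGen (matFamily R.model S) ℓ).toRingHom
  let ψ : GoodHecke (M * q * p) →+* integralClosure ℤ ℂ ⧸ 𝔪 :=
    MvPolynomial.eval₂Hom (Int.castRingHom _) fun r => Ideal.Quotient.mk 𝔪 (a r.1)
  have hker : RingHom.ker e' ≤ RingHom.ker ψ := fun P hP => hvan P fun ξ hξ => by
    have hξ' : ξ ∈ Pic0.torsion Qbar (modularFunctionFieldBar M) (p ^ 1) := by
      rw [Pic0.mem_torsion, natCast_zsmul, pow_one, hξ]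
    obtain ⟨y, hy, hye⟩ := exists_evalT_mulVec R.model P 1 ⟨ξ, hξ'⟩
    have hP' : evalT R.model S P = 0 := hP
    rw [hP', ZeroMemClass.coe_zero, Matrix.map_zero _ (map_zero _), zero_mulVec] at hye
    rw [← hy, (R.model.e 1).injective (hye.trans (map_zero _).symm)]
    rfl
  have hsurj : Function.Surjective e' := by
    rintro ⟨m, hm⟩
    induction hm using Algebra.adjoin_induction with
    | mem m hm =>
      obtain ⟨i, rfl⟩ := hm
      exact ⟨MvPolynomial.X i, MvPolynomial.aeval_X _ i⟩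
    | algebraMap r => exact ⟨MvPolynomial.C r, MvPolynomial.aeval_C _ r⟩
    | add x y _ _ hx hy =>
      obtain ⟨u, hu⟩ := hx
      obtain ⟨v, hv⟩ := hy
      exact ⟨u + v, by rw [map_add, hu, hv]; rfl⟩
    | mul x y _ _ hx hy =>
      obtain ⟨u, hu⟩ := hx
      obtain ⟨v, hv⟩ := hy
      exact ⟨u * v, by rw [map_mul, hu, hv]; rfl⟩
  let ψ' : matAlg (matFamily R.model S) →+* integralClosure ℤ ℂ ⧸ 𝔪 :=
    e'.liftOfSurjective hsurj ⟨ψ, hker⟩
  have hψ' : ∀ P, ψ' (e' P) = ψ P := fun P => RingHom.liftOfRightInverse_comp_apply _ _ _ _ P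
  have : Module.Finite ℤ (matAlg (matFamily R.model S)) :=
    Module.Finite.of_injective (matAlg (matFamily R.model S)).val.toLinearMap Subtype.val_injective
  have : IsAddTorsionFree (Matrix (Fin R.model.d) (Fin R.model.d) ℤ) :=
    inferInstanceAs (IsAddTorsionFree (Fin R.model.d → Fin R.model.d → ℤ))
  have : IsAddTorsionFree (matAlg (matFamily R.model S)) :=
    Function.Injective.isAddTorsionFree (matAlg (matFamily R.model S)).val.toAddMonoidHom
      Subtype.val_injective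
  have hpψ : (p : matAlg (matFamily R.model S)) ∈ RingHom.ker ψ' := by
    rw [RingHom.mem_ker, map_natCast, ← map_natCast (Ideal.Quotient.mk 𝔪)]
    exact Ideal.Quotient.eq_zero_iff_mem.mpr hp𝔪
  have hmax : (RingHom.ker ψ').IsMaximal := by
    have := RingHom.ker_isPrime ψ'
    refine Ideal.isMaximal_of_isIntegral_of_isMaximal_comap (R := ℤ) _ ?_
    have h2 : Ideal.span {(p : ℤ)} ≤
        (RingHom.ker ψ').comap (algebraMap ℤ (matAlg (matFamily R.model S))) := by
      rw [Ideal.span_le, Set.singleton_subset_iff, SetLike.mem_coe, Ideal.mem_comap, map_natCast]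
      exact hpψ
    have h1 : (Ideal.span {(p : ℤ)}).IsMaximal :=
      PrincipalIdealRing.isMaximal_of_irreducible (Nat.prime_iff_prime_int.mp hp).irreducible
    exact h1.eq_of_le (Ideal.comap_ne_top _ (Ideal.IsPrime.ne_top ‹_›)) h2 ▸ h1
  obtain ⟨φ, hφ⟩ := HeckeEigen.exists_ringHom_complex_ker_le (RingHom.ker ψ')
  have hMS : ∀ r : ℕ, r.Prime → r ∣ M → r ∈ S := fun r _ h => (h.mul_right q).mul_right p
  obtain ⟨h, hh, hhr⟩ := exists_eigenform_of_matAlgHom S hMS (allRelations M p) φ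
  obtain ⟨φ', 𝔫, hφ', h𝔫, h𝔫ψ⟩ := HeckeEigen.exists_maximal_over φ (RingHom.ker ψ') hφ
  have hp𝔫 : (p : integralClosure ℤ ℂ) ∈ 𝔫 := by simpa using h𝔫ψ _ hpψ
  have : (W.map (Int.castRingHom ℚ)).IsElliptic := by
    rw [WeierstrassCurve.isElliptic_iff, isUnit_iff_ne_zero, WeierstrassCurve.map_Δ,
      map_ne_zero_iff _ (Int.cast_injective (α := ℚ))]
    exact hres.delta_ne_zero
  have hW : W.IsIntegralModelOf (W.map (Int.castRingHom ℚ)) := ⟨1, one_smul _ _⟩
  refine ⟨h, 𝔫, hh, h𝔫, hp𝔫, EigenSystems.congr_everywhere hW hW hh hp𝔫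
    (W.Δ.natAbs * (M * q * p)).primeFactors fun r hr hrS => ?_⟩
  have hnd : ¬ r ∣ W.Δ.natAbs * (M * q * p) := fun hd => hrS (Nat.mem_primeFactors.mpr
    ⟨hr, hd, mul_ne_zero (Int.natAbs_ne_zero.mpr hres.delta_ne_zero) hN⟩)
  have hrS' : r ∉ S := fun hd => hnd (dvd_mul_of_dvd_right hd _)
  have hgood : W.IsGoodPrimeFor r := fun hd => hnd (dvd_mul_of_dvd_left (Int.natCast_dvd.mp hd) _)
  obtain ⟨b, hb, hbm⟩ := hcongr r hr hgood (fun hd => hrS' (hd.mul_right p))
    (fun e => hrS' (e ▸ dvd_mul_left p (M * q)))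
  obtain rfl : b = a ⟨r, hr⟩ := Subtype.ext (hb.trans (ha ⟨r, hr⟩).symm)
  refine ⟨φ' (matGen (matFamily R.model S) ⟨⟨r, hr⟩, hrS'⟩),
    by rw [hφ']; exact (hhr r hr hrS').symm, ?_⟩
  have hmem : matGen (matFamily R.model S) ⟨⟨r, hr⟩, hrS'⟩ -
      ((W.apOfModel r : ℤ) : matAlg (matFamily R.model S)) ∈ RingHom.ker ψ' := by
    rw [RingHom.mem_ker, map_sub, map_intCast,
      show matGen (matFamily R.model S) ⟨⟨r, hr⟩, hrS'⟩ =
        e' (MvPolynomial.X ⟨⟨r, hr⟩, hrS'⟩) from (MvPolynomial.aeval_X _ _).symm, hψ']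
    show MvPolynomial.eval₂ _ _ _ - _ = 0
    rw [MvPolynomial.eval₂_X, sub_eq_zero, ← map_intCast (Ideal.Quotient.mk 𝔪)]
    exact Ideal.Quotient.eq.mpr hbm
  simpa using h𝔫ψ _ hmem

end Fermat.Agent.MazurPrinciple

end
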