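import Fermat.Agent.MazurPrinciple.Eigen
import Fermat.Agent.MazurPrinciple.Descent
import Fermat.Agent.SquareOld.Eigen

/-!
# An unramified irreducible system of level `M q` occurs at level `M`

Otherwise some Hecke polynomial kills the lattice at level `M` and not the system, so a Frobenius at
`q` acts as `- q w_q` on a copy of the representation: a scalar of square `q` and of square `q ^ 2`.
-/

set_option autoImplicit false
set_option linter.unusedSectionVars false

noncomputable section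

open IsLocalRing ModularCurve AlgebraicCurve Matrix Fermat.Agent.EigenRep
  Fermat.Agent.SemistableRed Fermat.Agent.DefRing

namespace Fermat.Agent.MazurPrinciple

local notation "Qbar" => AlgebraicClosure ℚ
local notation "Jtors" N:max n:max => Pic0.torsion (AlgebraicClosure ℚ) (modularFunctionFieldBar N) n

/-- A row vanishing on the kernel over `ℤ_p` of a family of rows vanishes on their kernel in an
extension. -/
theorem dotProduct_eq_zero_of_rows {p : ℕ} [Fact p.Prime] {d : ℕ} (rows : Set (Fin d → ℤ_[p]))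
    (z : Fin d → ℤ_[p]) (h : ∀ x : Fin d → ℤ_[p], (∀ r ∈ rows, r ⬝ᵥ x = 0) → z ⬝ᵥ x = 0)
    {K : Type*} [Field K] [CharZero K] (ι : ℤ_[p] →+* K) {v : Fin d → K}
    (hv : ∀ r ∈ rows, (ι ∘ r) ⬝ᵥ v = 0) : (ι ∘ z) ⬝ᵥ v = 0 := by
  classical
  obtain ⟨g, hg⟩ := IsNoetherian.noetherian (Submodule.span ℤ_[p] rows)
  have hspan : ∀ r ∈ Submodule.span ℤ_[p] rows, (ι ∘ r) ⬝ᵥ v = 0 := fun r hr => by
    induction hr using Submodule.span_induction with
    | mem r hr => exact hv r hr
    | zero => simp [dotProduct]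
    | add r s _ _ h1 h2 =>
      rw [show ι ∘ (r + s) = ι ∘ r + ι ∘ s from funext fun i => map_add ι _ _, add_dotProduct,
        h1, h2, add_zero]
    | smul c r _ h1 =>
      rw [show ι ∘ (c • r) = ι c • (ι ∘ r) from funext fun i => map_mul ι _ _, smul_dotProduct,
        h1, smul_zero]
  let A : Matrix g (Fin d) ℤ_[p] := Matrix.of fun r j => (r : Fin d → ℤ_[p]) j
  let B : Matrix (Fin 1) (Fin d) ℤ_[p] := Matrix.of fun _ j => z j
  obtain ⟨s, X, hs, hX⟩ := Engine.Lifting.exists_smul_eq_mul A B fun x hx => by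
    refine funext fun _ => h x fun r hr => ?_
    have hr' : r ∈ Submodule.span ℤ_[p] (g : Set (Fin d → ℤ_[p])) :=
      hg.ge (Submodule.subset_span hr)
    clear hr
    induction hr' using Submodule.span_induction with
    | mem r hr => exact congrFun hx ⟨r, hr⟩
    | zero => simp [dotProduct]
    | add r s _ _ h1 h2 => rw [add_dotProduct, h1, h2, add_zero]
    | smul c r _ h1 => rw [smul_dotProduct, h1, smul_zero]
  have hA : A.map ι *ᵥ v = 0 :=
    funext fun r => hspan r.1 (hg.le (Submodule.subset_span r.2))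
  have h0 := congrFun (congrArg (fun Y => Y.map ι *ᵥ v) hX) 0
  simp only [Matrix.map_mul, ← mulVec_mulVec, hA, mulVec_zero, Pi.zero_apply] at h0
  have h1 : ((s • B).map ι *ᵥ v) 0 = ι s * ((ι ∘ z) ⬝ᵥ v) := by
    simp [B, Matrix.mulVec, dotProduct, Finset.mul_sum, mul_assoc]
  exact (mul_eq_zero.mp (h1.symm.trans h0)).resolve_left fun e =>
    hs (Engine.Lifting.padicInt_hom_injective ι (e.trans (map_zero ι).symm))

/-- Linear conditions on the fixed vectors over `ℤ_p` hold on the fixed vectors in an extension. -/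
theorem mulVec_eq_zero_of_fixed_padic {p : ℕ} [Fact p.Prime] {d : ℕ} {J : Type*}
    (Z : Matrix (Fin d) (Fin d) ℤ_[p]) (B : J → Matrix (Fin d) (Fin d) ℤ_[p])
    (hZ : ∀ x, (∀ i, B i *ᵥ x = x) → Z *ᵥ x = 0) {K : Type*} [Field K] [CharZero K]
    (ι : ℤ_[p] →+* K) {v : Fin d → K} (hv : ∀ i, (B i).map ι *ᵥ v = v) : Z.map ι *ᵥ v = 0 := by
  funext j
  refine dotProduct_eq_zero_of_rows {r | ∃ i l, r = (B i - 1) l} (Z j) (fun x hx => ?_) ι ?_
  · refine congrFun (hZ x fun i => funext fun l => ?_) j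
    have h := hx _ ⟨i, l, rfl⟩
    have h' : ((B i - 1) *ᵥ x) l = 0 := h
    rwa [sub_mulVec, one_mulVec, Pi.sub_apply, sub_eq_zero] at h'
  · rintro r ⟨i, l, rfl⟩
    have h' : (((B i - 1).map ι) *ᵥ v) l = 0 := by
      rw [Matrix.map_sub _ (map_sub ι), Matrix.map_one _ (map_zero ι) (map_one ι), sub_mulVec,
        one_mulVec, hv i, sub_self, Pi.zero_apply]
    exact h'

/-- A Hecke polynomial at the matrices acts on an eigenvector by its value. -/
theorem evalT_mulVec_eigen {N N' p : ℕ} [NeZero N] [Fact p.Prime] (m : TorsionHeckeModel N p)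
    {R : Type*} [CommRing R] {S : Set ℕ} (hS : ∀ r : Nat.Primes, ¬ (r : ℕ) ∣ N' → (r : ℕ) ∉ S)
    {a : Nat.Primes → R} {v : Fin m.d → R} (hv : v ∈ eigenSub m S a) (P : GoodHecke N') :
    (evalT m (badSet N') P : Matrix (Fin m.d) (Fin m.d) ℤ).map (Int.cast : ℤ → R) *ᵥ v =
      MvPolynomial.eval₂ (Int.castRingHom R) (fun r => a r.1) P • v := by
  induction P using MvPolynomial.induction_on with
  | C c =>
    rw [evalT_C, MvPolynomial.eval₂_C, Subalgebra.coe_algebraMap, Matrix.algebraMap_eq_diagonal,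
      Matrix.diagonal_map Int.cast_zero]
    funext i
    simp [mulVec_diagonal]
  | add P Q hP hQ =>
    rw [evalT_add, Subalgebra.coe_add, Matrix.map_add _ Int.cast_add, add_mulVec, hP, hQ,
      MvPolynomial.eval₂_add, add_smul]
  | mul_X P r hP =>
    rw [evalT_mul, evalT_X, Subalgebra.coe_mul, Matrix.map_mul_intCast, ← mulVec_mulVec,
      MvPolynomial.eval₂_mul, MvPolynomial.eval₂_X]
    show _ *ᵥ ((m.T r.1).map (Int.cast : ℤ → R) *ᵥ v) = _
    rw [(mem_eigenSub m).mp hv r.1 (hS r.1 r.2), mulVec_smul, hP, smul_smul, mul_comm]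

/-- A system which does not occur at level `M` is non-zero on some polynomial killing the lattice
there. -/
theorem exists_killing_poly {K : Type} [Field K] [CharZero K] {M N' p : ℕ} [NeZero M]
    [Fact p.Prime] {S : Finset ℕ} (hS : ∀ r : ℕ, r.Prime → r ∉ S → ¬ r ∣ N') (lam : ℕ → K)
    (hnot : ¬ Engine.Occurs K M 1 S lam) :
    ∃ P : GoodHecke N', evalT (Engine.TRep.levelInputs M p).model (badSet N') P = 0 ∧
      MvPolynomial.eval₂ (Int.castRingHom K) (fun r => lam (r.1 : ℕ)) P ≠ 0 := by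
  classical
  by_contra hcon
  push Not at hcon
  set m := (Engine.TRep.levelInputs M p).model
  let := matAlgCommRing (T := matFamily m (badSet N')) fun i j => m.comm i.1 j.1
  let e' : GoodHecke N' →+* matAlg (matFamily m (badSet N')) :=
    (MvPolynomial.aeval fun ℓ => matGen (matFamily m (badSet N')) ℓ).toRingHom
  let ψ : GoodHecke N' →+* K :=
    MvPolynomial.eval₂Hom (Int.castRingHom K) fun r => lam (r.1 : ℕ)
  have hsurj : Function.Surjective e' := by
    rintro ⟨x, hx⟩
    induction hx using Algebra.adjoin_induction with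
    | mem x hx =>
      obtain ⟨i, rfl⟩ := hx
      exact ⟨MvPolynomial.X i, MvPolynomial.aeval_X _ i⟩
    | algebraMap r => exact ⟨MvPolynomial.C r, MvPolynomial.aeval_C _ r⟩
    | add x y _ _ hx hy =>
      obtain ⟨u, hu⟩ := hx
      obtain ⟨v, hv⟩ := hy
      exact ⟨u + v, by rw [map_add, hu, hv]; rfl⟩
    | mul x y _ _ hx hy =>
      obtain ⟨u, hu⟩ := hx
      obtain ⟨v, hv⟩ := hy
      exact ⟨u * v, by rw [map_mul, hu, hv]; rfl⟩
  have hker : RingHom.ker e' ≤ RingHom.ker ψ := fun P hP => hcon P hP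
  let φ' : matAlg (matFamily m (badSet N')) →+* K := e'.liftOfSurjective hsurj ⟨ψ, hker⟩
  obtain ⟨v, hv0, hv⟩ := exists_common_eigenvector
    (fun i j : {ℓ : Nat.Primes // (ℓ : ℕ) ∉ badSet N'} => m.comm i.1 j.1) φ'
  refine hnot (EigenSystems.occurs_of_mulVec hv0 fun ℓ hℓ _ => ?_)
  have hℓ' : ¬ (ℓ : ℕ) ∣ N' := hS ℓ ℓ.2 hℓ
  have h1 := hv ⟨ℓ, hℓ'⟩
  have h2 : φ' (e' (MvPolynomial.X ⟨ℓ, hℓ'⟩)) = lam (ℓ : ℕ) :=
    (RingHom.liftOfRightInverse_comp_apply _ _ _ _ _).trans (MvPolynomial.eval₂Hom_X' _ _ _)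
  rw [show e' (MvPolynomial.X ⟨ℓ, hℓ'⟩) = matGen _ ⟨ℓ, hℓ'⟩ from MvPolynomial.aeval_X _ _] at h2
  rw [h2] at h1
  exact h1

/-- A renamed Hecke polynomial acts by the original one. -/
theorem evalT_rename {N N₁ N₂ : ℕ} [NeZero N] {p : ℕ} [Fact p.Prime] (m : TorsionHeckeModel N p)
    (h : N₁ ∣ N₂) (Q : GoodHecke N₂) :
    (evalT m (badSet N₁) (MvPolynomial.rename (fun r => ⟨r.1, fun h' => r.2 (h'.trans h)⟩) Q) :
      Matrix (Fin m.d) (Fin m.d) ℤ) = evalT m (badSet N₂) Q := by
  induction Q using MvPolynomial.induction_on with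
  | C c =>
    simp only [MvPolynomial.rename_C, evalT_C, Subalgebra.coe_algebraMap]
  | add Q Q' h h' =>
    simp only [map_add, evalT_add, Subalgebra.coe_add, h, h']
  | mul_X Q r h =>
    simp only [map_mul, MvPolynomial.rename_X, evalT_mul, evalT_X, Subalgebra.coe_mul, h]
    rfl

/-- A polynomial killing the lattice at level `M` kills the `p`-power torsion. -/
theorem toHecke_rename_smul_eq_zero {M N₁ N₂ : ℕ} [NeZero M] {p : ℕ} [Fact p.Prime] (h : N₁ ∣ N₂)
    (P₀ : GoodHecke N₂)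
    (hP₀ : evalT (Engine.TRep.levelInputs M p).model (badSet N₂) P₀ = 0) (n : ℕ) (ξ : JZero M)
    (hξ : p ^ n • ξ = 0) :
    (letI := heckeModuleBar M
     toHecke (MvPolynomial.rename (fun r => (⟨r.1, fun h' => r.2 (h'.trans h)⟩ :
      {r : Nat.Primes // ¬ (r : ℕ) ∣ N₁})) P₀) • ξ) = 0 := by
  have hξ' : ξ ∈ Pic0.torsion Qbar (modularFunctionFieldBar M) (p ^ n) := by
    rw [Pic0.mem_torsion, natCast_zsmul, hξ]
  obtain ⟨y, hy, hye⟩ :=
    exists_evalT_mulVec (Engine.TRep.levelInputs M p).model P₀ n ⟨ξ, hξ'⟩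
  rw [hP₀, ZeroMemClass.coe_zero, Matrix.map_zero _ (map_zero _), zero_mulVec] at hye
  rw [toHecke_rename h, ← hy,
    ((Engine.TRep.levelInputs M p).model.e n).injective (hye.trans (map_zero _).symm)]
  rfl

/-- The involution squares to one on the Tate lattice. -/
theorem mapPadic_wJ_mul_self {A : ValuationSubring Qbar} {M q p : ℕ} [NeZero M] [NeZero q]
    [Fact q.Prime] [Fact p.Prime] [CharP (ResidueField A) q] [IsAlgClosed (ResidueField A)]
    {S : Setting A M q} (I : RepInputs (M * q) p) :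
    Engine.Lifting.mapPadic I.model I.model (wJ S) *
      Engine.Lifting.mapPadic I.model I.model (wJ S) = 1 :=
  Matrix.ext fun i j => PadicInt.ext_of_toZModPow.mp fun n => by
    have h : (Engine.Lifting.mapPadic I.model I.model (wJ S) *
        Engine.Lifting.mapPadic I.model I.model (wJ S)).map (PadicInt.toZModPow n) = 1 := by
      rw [Matrix.map_mul, Engine.Lifting.mapPadic_mod]
      refine mat_ext I.model fun x => ?_
      rw [← mulVec_mulVec, mapMat_mulVec, mapMat_mulVec, one_mulVec]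
      exact congrArg (I.model.e n) (torsMap_wJ_wJ x)
    have h' := congr($h i j)
    rw [Matrix.map_apply] at h'
    rw [h']
    rcases eq_or_ne i j with rfl | hij
    · simp
    · simp [hij]

variable {O : Type} [CommRing O] [IsDomain O] [IsDiscreteValuationRing O]
  [IsAdicComplete (maximalIdeal O) O] [CharZero O] {p : ℕ} [Fact p.Prime]

omit [IsAdicComplete (maximalIdeal O) O] [CharZero O] [Fact p.Prime] in
/-- A representation spanning all endomorphisms has no stable line. -/
theorem irreducible_of_span (ρ : GaloisRepAdic O)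
    (hspan : Submodule.span O (Set.range fun σ => ρ.ρ σ) = ⊤) (v : ρ.V) (hv : v ≠ 0) :
    ∃ σ, ∀ c d : O, c • ρ.ρ σ v = d • v → c = 0 := by
  by_contra hcon
  push Not at hcon
  set b := repBasis ρ
  have key : ∀ f : Module.End O ρ.V, ∃ c d : O, c ≠ 0 ∧ c • f v = d • v := fun f => by
    have hf : f ∈ Submodule.span O (Set.range fun σ => ρ.ρ σ) := hspan ▸ Submodule.mem_top
    induction hf using Submodule.span_induction with
    | mem f hf =>
      obtain ⟨σ, rfl⟩ := hf
      obtain ⟨c, d, h, hc⟩ := hcon σ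
      exact ⟨c, d, hc, h⟩
    | zero => exact ⟨1, 0, one_ne_zero, by simp⟩
    | add f g _ _ hf hg =>
      obtain ⟨c, d, hc, h⟩ := hf
      obtain ⟨c', d', hc', h'⟩ := hg
      refine ⟨c * c', c' * d + c * d', mul_ne_zero hc hc', ?_⟩
      rw [LinearMap.add_apply, smul_add, add_smul, mul_comm c c', mul_smul, h, mul_comm c' c,
        mul_smul c c', h', ← mul_smul, ← mul_smul]
    | smul r f _ hf =>
      obtain ⟨c, d, hc, h⟩ := hf
      exact ⟨c, r * d, hc, by rw [LinearMap.smul_apply, smul_comm, h, mul_smul]⟩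
  obtain ⟨i, hi⟩ : ∃ i, b.repr v i ≠ 0 := by
    by_contra h
    push Not at h
    exact hv (b.repr.injective (Finsupp.ext fun i => by rw [h i, map_zero, Finsupp.zero_apply]))
  obtain ⟨c, d, hc, h⟩ := key ((b.coord i).smulRight (b (1 - i)))
  have hne : (1 - i : Fin 2) ≠ i := (by decide : ∀ j : Fin 2, (1 - j : Fin 2) ≠ j) i
  have h1 := congrArg (fun x => b.repr x i) h
  have h2 := congrArg (fun x => b.repr x (1 - i)) h
  simp only [LinearMap.smulRight_apply, Module.Basis.coord_apply, map_smul, Finsupp.smul_apply,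
    smul_eq_mul, Module.Basis.repr_self, Finsupp.single_eq_same,
    Finsupp.single_eq_of_ne hne.symm, mul_zero, mul_one] at h1 h2
  rw [eq_comm, mul_eq_zero] at h1
  rw [h1.resolve_right hi, zero_mul] at h2
  exact hi ((mul_eq_zero.mp h2).resolve_left hc)

/-- A system which occurs and is not Eisenstein has an integral eigenvector. -/
theorem exists_integral_eigenvector {N : ℕ} [NeZero N]
    {S : Finset ℕ} (hS : ∀ r : ℕ, r.Prime → r ∉ S → ¬ r ∣ N) {a : ℕ → O}
    (hocc : Engine.Occurs (FractionRing O) N 1 S fun ℓ => algebraMap O (FractionRing O) (a ℓ))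
    (hne : ∃ ℓ, ℓ.Prime ∧ ℓ ∉ S ∧ (ℓ : ZMod N) = 1 ∧ a ℓ ≠ (ℓ : O) + 1) :
    ∃ v, v ≠ 0 ∧ v ∈ eigenSub (Engine.TRep.levelInputs N p).model (↑S : Set ℕ) (fun l => a (l : ℕ)) := by
  classical
  set K := FractionRing O
  have : CharZero K := charZero_of_injective_algebraMap (IsFractionRing.injective O K)
  have hinj := IsFractionRing.injective O K
  obtain ⟨ℓ₁, hℓ₁, hℓ₁S, hℓ₁N, hℓ₁a⟩ := hne
  obtain ⟨vK, hvK0, hvK⟩ := SquareOld.exists_mulVec_of_occurs hocc
    ⟨ℓ₁, hℓ₁, hℓ₁S, hℓ₁N, fun e => hℓ₁a (hinj (by rw [map_add, map_natCast, map_one]; exact e))⟩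
  obtain ⟨b, hb⟩ := IsLocalization.exist_integer_multiples_of_finite (nonZeroDivisors O) vK
  choose v hv using hb
  have hcv : algebraMap O K ∘ v = algebraMap O K b • vK := funext fun i => by
    rw [Function.comp_apply, hv, Algebra.smul_def]; rfl
  have hv0 : v ≠ 0 := fun h => hvK0 (funext fun i => by
    have h1 := congrFun hcv i
    rw [h, Function.comp_apply, Pi.zero_apply, map_zero, Pi.smul_apply, smul_eq_mul, eq_comm,
      mul_eq_zero] at h1
    exact h1.resolve_left (IsFractionRing.to_map_ne_zero_of_mem_nonZeroDivisors b.2))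
  have hvN : ∀ l : Nat.Primes, (l : ℕ) ∉ S →
      (HeckeJ0.heckeMatAt N l).map (Int.cast : ℤ → O) *ᵥ v = a l • v := fun l hl => by
    refine funext fun i => hinj ?_
    rw [RingHom.map_mulVec,
      show ((HeckeJ0.heckeMatAt N l).map (Int.cast : ℤ → O)).map (algebraMap O K) =
        (HeckeJ0.heckeMatAt N l).map (Int.cast : ℤ → K) by ext; simp,
      Pi.smul_apply, smul_eq_mul, map_mul,
      show algebraMap O K (v i) = (algebraMap O K ∘ v) i from rfl, hcv, mulVec_smul,
      Pi.smul_apply, Pi.smul_apply, smul_eq_mul, smul_eq_mul, mul_left_comm]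
    congr 1
    exact congrFun (hvK l hl (hS l l.2 hl)) i
  exact ⟨v, hv0, (mem_eigenSub _).mpr fun l hl => hvN l hl⟩

/-- A copy of the representation in the eigenspace over an algebraically closed field. -/
theorem exists_embedding_adic {N : ℕ} [NeZero N] (I : RepInputs N p) (hp : (p : O) ∈ maximalIdeal O)
    (S : Finset ℕ) (a : Nat.Primes → O) (ρ : GaloisRepAdic O)
    (hdet : ρ.DetIsCyclotomic p)
    (hfrob : ∀ (ℓ : ℕ) (hℓ : ℓ.Prime), ℓ ∉ S → ∀ A : ValuationSubring Qbar,
      A.LiesOverPrime ℓ → ∀ σ : Qbar ≃ₐ[ℚ] Qbar, A.IsFrobeniusAt σ ℓ → ρ.trace σ = a ⟨ℓ, hℓ⟩)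
    (hspan : Submodule.span O (Set.range fun σ => ρ.ρ σ) = ⊤) {L : Type} [Field L] [IsAlgClosed L]
    (f : O →+* L) {v : Fin I.model.d → O} (hv : v ≠ 0) (hf : Function.Injective f)
    (hvE : v ∈ eigenSub I.model (↑S : Set ℕ) a) :
    ∃ (N₁ : (Qbar ≃ₐ[ℚ] Qbar) →* Matrix (Fin 2) (Fin 2) L)
      (Φ : (Fin 2 → L) →ₗ[L] (Fin I.model.d → L)),
      Submodule.span L (Set.range N₁) = ⊤ ∧ Function.Injective Φ ∧
      (∀ c, Φ c ∈ eigenSub I.model (↑S : Set ℕ) fun l => f (a l)) ∧
      (∀ g c, (galMat I.model g).map (f.comp (padicHom p hp)) *ᵥ Φ c = Φ (N₁ g *ᵥ c)) ∧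
      (∀ g, ρ.ρ g = 1 → N₁ g = 1) ∧
      ∀ g, (N₁ g).det = f (padicHom p hp (epsilonPadic p g : ℤ_[p])) := by
  classical
  set ι := padicHom p hp
  set ιL := f.comp ι
  set b := repBasis ρ
  let toM : Module.End O ρ.V ≃ₐ[O] Matrix (Fin 2) (Fin 2) O := LinearMap.toMatrixAlgEquiv b
  let N₁ : (Qbar ≃ₐ[ℚ] Qbar) →* Matrix (Fin 2) (Fin 2) L :=
    f.mapMatrix.toMonoidHom.comp (toM.toAlgHom.toMonoidHom.comp ρ.ρ)
  have hspan₁ : Submodule.span L (Set.range N₁) = ⊤ := by
    have key : ∀ x ∈ Submodule.span O (Set.range fun σ => ρ.ρ σ),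
        (toM x).map f ∈ Submodule.span L (Set.range N₁) := fun x hx => by
      induction hx using Submodule.span_induction with
      | mem x hx => obtain ⟨σ, rfl⟩ := hx; exact Submodule.subset_span ⟨σ, rfl⟩
      | zero => simp
      | add x y _ _ hx hy => simpa [Matrix.map_add _ (map_add f)] using add_mem hx hy
      | smul r x _ hx =>
        convert Submodule.smul_mem _ (f r) hx using 1
        ext i j; simp
    refine eq_top_iff.mpr fun X _ => ?_
    rw [Matrix.matrix_eq_sum_single X]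
    refine Submodule.sum_mem _ fun i _ => Submodule.sum_mem _ fun j _ => ?_
    have h1 := key (toM.symm (Matrix.single i j 1)) (hspan ▸ Submodule.mem_top)
    rw [AlgEquiv.apply_symm_apply] at h1
    convert Submodule.smul_mem _ (X i j) h1 using 1
    simp [Matrix.map_single]
  set E := eigenSub I.model (↑S : Set ℕ) a
  let V : Submodule L (Fin I.model.d → L) :=
    Submodule.span L ((fun u : Fin I.model.d → O => f ∘ u) '' (E : Set _))
  have hgal : ∀ g (u : Fin I.model.d → O),
      galEnd I.model ιL g (f ∘ u) = f ∘ galEnd I.model ι g u := fun g u => by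
    funext i
    rw [Function.comp_apply, galEnd_apply, galEnd_apply, RingHom.map_mulVec, Matrix.map_map]
    rfl
  have hVstab : ∀ g, ∀ w ∈ V, galEnd I.model ιL g w ∈ V := fun g w hw => by
    induction hw using Submodule.span_induction with
    | mem w hw =>
      obtain ⟨u, hu, rfl⟩ := hw
      rw [hgal]
      exact Submodule.subset_span ⟨_, galEnd_mem_eigenSub I.model ι I.equivariant g hu, rfl⟩
    | zero => simp
    | add x y _ _ hx hy => simpa using add_mem hx hy
    | smul r x _ hx => simpa using V.smul_mem r hx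
  let π : (Qbar ≃ₐ[ℚ] Qbar) →* Module.End L V :=
    { toFun := fun g => (galEnd I.model ιL g).restrict (hVstab g)
      map_one' := by ext w; simp
      map_mul' := fun g k => by ext w; simp }
  let ε : (Qbar ≃ₐ[ℚ] Qbar) →* Lˣ := (Units.map ιL.toMonoidHom).comp (epsilonPadic p)
  let t : (Qbar ≃ₐ[ℚ] Qbar) → L := fun g => f (ρ.trace g)
  have hrel : ∀ g, π g * π g - t g • π g + (ε g : L) • 1 = 0 := by
    intro g
    ext ⟨w, hw⟩ : 2
    show galEnd I.model ιL g (galEnd I.model ιL g w) - t g • galEnd I.model ιL g w +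
      ιL (epsilonPadic p g : ℤ_[p]) • w = 0
    induction hw using Submodule.span_induction with
    | mem w hw =>
      obtain ⟨u, hu, rfl⟩ := hw
      have h := TwoAdic.quadratic_of_trace I hp S a ρ hfrob g
        (galEnd_mem_eigenSub I.model ι I.equivariant g hu)
      rw [show galEnd I.model ι g⁻¹ (galEnd I.model ι g u) = u by
        rw [← Module.End.mul_apply, ← map_mul, inv_mul_cancel, map_one, Module.End.one_apply]] at h
      rw [hgal, hgal]
      funext i
      have h1 := congrArg f (congrFun h i)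
      simp only [Pi.add_apply, Pi.sub_apply, Pi.smul_apply, Function.comp_apply, smul_eq_mul,
        map_add, map_mul, Pi.zero_apply, t] at h1 ⊢
      linear_combination h1
    | zero => simp
    | add x y _ _ hx hy =>
      simp only [map_add, smul_add]
      linear_combination (norm := module) hx + hy
    | smul r x _ hx =>
      simp only [map_smul]
      linear_combination (norm := module) r • hx
  have : Nontrivial V := ⟨⟨f ∘ v, Submodule.subset_span ⟨v, hvE, rfl⟩⟩, 0, fun e => hv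
    (funext fun i => hf ((congrFun (congrArg Subtype.val e) i).trans (map_zero f).symm))⟩
  obtain ⟨Φ, hΦ, hΦρ⟩ := LevelP.exists_intertwiner π ε t hrel N₁ (fun g => by
    show _ = f (ρ.trace g)
    rw [show ρ.trace g = (toM (ρ.ρ g)).trace from LinearMap.trace_eq_matrix_trace O b _]
    exact (AddMonoidHom.map_trace f.toAddMonoidHom _).symm) hspan₁
  refine ⟨N₁, V.subtype ∘ₗ Φ, hspan₁, V.injective_subtype.comp hΦ, fun c => ?_,
    fun g c => congrArg Subtype.val (hΦρ g c), fun g hg => ?_, fun g => ?_⟩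
  · refine (mem_eigenSub I.model).mpr fun l hl => ?_
    have key : ∀ w ∈ V, (I.model.T l).map (Int.cast : ℤ → L) *ᵥ w = f (a l) • w := fun w hw => by
      induction hw using Submodule.span_induction with
      | mem w hw =>
        obtain ⟨u, hu, rfl⟩ := hw
        funext i
        have h1 := congrArg f (congrFun ((mem_eigenSub I.model).mp hu l hl) i)
        rw [RingHom.map_mulVec, Pi.smul_apply, smul_eq_mul, map_mul] at h1
        show _ = f (a l) * f (u i)
        rw [← h1, show ((I.model.T l).map (Int.cast : ℤ → O)).map f =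
          (I.model.T l).map (Int.cast : ℤ → L) by ext j k; simp]
      | zero => simp
      | add x y _ _ hx hy => rw [mulVec_add, hx, hy, smul_add]
      | smul r x _ hx => rw [mulVec_smul, hx, smul_comm]
    exact key _ (Φ c).2
  · show f.mapMatrix (toM (ρ.ρ g)) = 1
    rw [hg, map_one, map_one]
  · show ((toM (ρ.ρ g)).map f).det = _
    rw [← RingHom.mapMatrix_apply, ← RingHom.map_det, ← SquareOld.det_eq_padicHom hdet g,
      ← LinearMap.det_toMatrix b]
    rfl

omit [IsDiscreteValuationRing O] [IsAdicComplete (maximalIdeal O) O] [CharZero O] in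
/-- `(φ + q w) P (T_ℓ - ℓ - 1)` kills the fixed vectors of the Tate module. -/
theorem padic_mulVec_eq_zero {A : ValuationSubring Qbar} {M q : ℕ} [NeZero M] [NeZero q]
    [Fact q.Prime] [CharP (ResidueField A) q] [IsAlgClosed (ResidueField A)] {S : Setting A M q}
    {φ : Qbar ≃ₐ[ℚ] Qbar} (hφ : A.IsFrobeniusAt φ q) (hp5 : 5 ≤ p) (hqp : q ≠ p) {ℓ : ℕ}
    [NeZero ℓ] (hℓ : ℓ.Prime) (hℓN : ¬ ℓ ∣ M * q * p) (P : GoodHecke (M * q * p))
    (hP : ∀ (n : ℕ) (ξ : JZero M), p ^ n • ξ = 0 →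
      (letI := heckeModuleBar M; toHecke P • ξ) = 0)
    (I : RepInputs (M * q) p) (x : Fin I.model.d → ℤ_[p])
    (hx : ∀ σ : A.inertiaSubgroupIn ℚ, galMat I.model σ.1 *ᵥ x = x) :
    ((galMat I.model φ + q • Engine.Lifting.mapPadic I.model I.model (wJ S)) *
      (evalT I.model (badSet (M * q * p))
        (P * (MvPolynomial.X ⟨⟨ℓ, hℓ⟩, hℓN⟩ - MvPolynomial.C ((ℓ : ℤ) + 1))) :
        Matrix (Fin I.model.d) (Fin I.model.d) ℤ).map (Int.cast : ℤ → ℤ_[p])) *ᵥ x = 0 := by
  funext i
  refine PadicInt.ext_of_toZModPow.mp fun n => ?_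
  set E := (evalT I.model (badSet (M * q * p))
    (P * (MvPolynomial.X ⟨⟨ℓ, hℓ⟩, hℓN⟩ - MvPolynomial.C ((ℓ : ℤ) + 1))) :
    Matrix (Fin I.model.d) (Fin I.model.d) ℤ) with hE
  have hgal : ∀ σ, (galMat I.model σ).map (PadicInt.toZModPow n) = levelMat I.model n σ :=
    fun σ => matMod_galMat I.model n σ
  have h := mulVec_eq_zero_of_inertia (S := S) (k := n) hφ hp5 hqp hℓ hℓN P (hP n) I
    (E := E.map (Int.castRingHom (ZMod (p ^ n)))) (fun u y hy => by
      obtain ⟨y', hy', hye⟩ := exists_evalT_mulVec I.model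
        (P * (MvPolynomial.X ⟨⟨ℓ, hℓ⟩, hℓN⟩ - MvPolynomial.C ((ℓ : ℤ) + 1))) n u
      rw [show y = y' from Subtype.ext (hy.trans hy'.symm)]
      exact hye)
    (PadicInt.toZModPow n ∘ x) fun σ => by
      funext j
      rw [← hgal, ← RingHom.map_mulVec, hx σ]
      rfl
  rw [RingHom.map_mulVec, Matrix.map_mul, Matrix.map_add _ (map_add _), Pi.zero_apply, map_zero,
    hgal, show (q • Engine.Lifting.mapPadic I.model I.model (wJ S)).map (PadicInt.toZModPow n) =
      q • mapMat I.model I.model (wJ S) n by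
        rw [← Engine.Lifting.mapPadic_mod]
        ext j l
        simp only [Matrix.map_apply, Matrix.smul_apply]
        exact map_nsmul _ _ _,
    show (E.map (Int.cast : ℤ → ℤ_[p])).map (PadicInt.toZModPow n) =
      E.map (Int.castRingHom (ZMod (p ^ n))) by ext; simp]
  exact congrFun h i

/-- **An unramified irreducible system of level `M q` occurs at level `M`.** -/
theorem occurs_of_unramified (hp5 : 5 ≤ p) {M q : ℕ} [NeZero M] (hq : q.Prime) (hqp : q ≠ p)
    (hqM : ¬ q ∣ M) (S : Finset ℕ) (a : ℕ → O) (ρ : GaloisRepAdic O) (hqS : q ∈ S) (hpS : p ∈ S)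
    (hMS : ∀ r : ℕ, r.Prime → r ∣ M → r ∈ S)
    (hocc : Engine.Occurs (FractionRing O) (M * q) 1 S
      fun ℓ => algebraMap O (FractionRing O) (a ℓ))
    (hatt : Engine.IsAttachedSystem O p ρ S a)
    (hspan : Submodule.span O (Set.range fun σ => ρ.ρ σ) = ⊤) (hunr : ρ.IsUnramifiedAt q) :
    Engine.Occurs (FractionRing O) M 1 S fun ℓ => algebraMap O (FractionRing O) (a ℓ) := by
  classical
  by_contra hnot
  have hp : p.Prime := Fact.out
  have hp' : (p : O) ∈ maximalIdeal O := hatt.1.1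
  have : Fact q.Prime := ⟨hq⟩
  have : NeZero q := ⟨hq.ne_zero⟩
  set K := FractionRing O
  have : CharZero K := charZero_of_injective_algebraMap (IsFractionRing.injective O K)
  let L := AlgebraicClosure K
  set f : O →+* L := (algebraMap K L).comp (algebraMap O K)
  have hf : Function.Injective f := (algebraMap K L).injective.comp (IsFractionRing.injective O K)
  have : CharZero L := charZero_of_injective_algebraMap (algebraMap K L).injective
  -- the level containing `S`
  set N' := M * q * p * ∏ r ∈ S.filter Nat.Prime, r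
  have hSN : ∀ r : ℕ, r.Prime → r ∉ S → ¬ r ∣ N' := fun r hr hrS h => by
    rcases hr.dvd_mul.mp h with h | h
    · rcases hr.dvd_mul.mp h with h | h
      · rcases hr.dvd_mul.mp h with h | h
        · exact hrS (hMS r hr h)
        · exact hrS ((Nat.prime_dvd_prime_iff_eq hr hq).mp h ▸ hqS)
      · exact hrS ((Nat.prime_dvd_prime_iff_eq hr hp).mp h ▸ hpS)
    · obtain ⟨s, hs, hrs⟩ := (hr.prime.dvd_finsetProd_iff _).mp h
      rw [Finset.mem_filter] at hs
      exact hrS ((Nat.prime_dvd_prime_iff_eq hr hs.2).mp hrs ▸ hs.1)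
  have hNS : ∀ r : Nat.Primes, ¬ (r : ℕ) ∣ N' → (r : ℕ) ∉ (↑S : Set ℕ) := fun r hr hrS =>
    hr (dvd_mul_of_dvd_right (Finset.dvd_prod_of_mem _ (Finset.mem_filter.mpr ⟨hrS, r.2⟩)) _)
  have hSMq : ∀ r : ℕ, r.Prime → r ∉ S → ¬ r ∣ M * q := fun r hr hrS h =>
    hSN r hr hrS ((h.mul_right p).mul_right _)
  -- the eigenvector and the polynomial
  obtain ⟨ℓ, hℓ, hℓS, hℓ1, hℓa⟩ := SquareOld.exists_prime_eigen_ne hatt
    (irreducible_of_span ρ hspan) hpS (M * q) (Nat.pos_of_ne_zero (NeZero.ne _))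
  obtain ⟨v, hv, hvE⟩ := exists_integral_eigenvector (p := p) hSMq hocc ⟨ℓ, hℓ, hℓS, hℓ1, hℓa⟩
  obtain ⟨P₀, hP₀, hP₀ne⟩ := exists_killing_poly (p := p) hSN
    (fun r => algebraMap O K (a r)) hnot
  have hdvd : M * q * p ∣ N' := dvd_mul_right _ _
  let incl : {r : Nat.Primes // ¬ (r : ℕ) ∣ N'} → {r : Nat.Primes // ¬ (r : ℕ) ∣ M * q * p} :=
    fun r => ⟨r.1, fun h => r.2 (h.trans hdvd)⟩
  let P : GoodHecke (M * q * p) := MvPolynomial.rename incl P₀
  have hPkill := toHecke_rename_smul_eq_zero hdvd P₀ hP₀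
  have hℓN : ¬ ℓ ∣ M * q * p := fun h => hSN ℓ hℓ hℓS (h.trans hdvd)
  have : NeZero ℓ := ⟨hℓ.ne_zero⟩
  let R : GoodHecke (M * q * p) :=
    P * (MvPolynomial.X ⟨⟨ℓ, hℓ⟩, hℓN⟩ - MvPolynomial.C ((ℓ : ℤ) + 1))
  let R₀ : GoodHecke N' :=
    P₀ * (MvPolynomial.X ⟨⟨ℓ, hℓ⟩, hSN ℓ hℓ hℓS⟩ - MvPolynomial.C ((ℓ : ℤ) + 1))
  set I := Engine.TRep.levelInputs (M * q) p
  set lam : Nat.Primes → L := fun l => f (a l)
  have hlam : MvPolynomial.eval₂ (Int.castRingHom L) (fun r => lam r.1) R₀ ≠ 0 := by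
    rw [MvPolynomial.eval₂_mul, MvPolynomial.eval₂_sub, MvPolynomial.eval₂_X, MvPolynomial.eval₂_C]
    refine mul_ne_zero (fun h0 => hP₀ne ((algebraMap K L).injective ?_)) (sub_ne_zero.mpr ?_)
    · rw [MvPolynomial.eval₂_comp_left, map_zero,
        RingHom.ext_int ((algebraMap K L).comp (Int.castRingHom K)) (Int.castRingHom L)]
      exact h0
    · intro e
      refine hℓa (hf ?_)
      simpa [lam] using e
  have hER : (evalT I.model (badSet (M * q * p)) R : Matrix (Fin I.model.d) (Fin I.model.d) ℤ) =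
      evalT I.model (badSet N') R₀ := by
    rw [← evalT_rename I.model hdvd, show MvPolynomial.rename incl R₀ = R by
      simp only [R₀, R, P, map_mul, map_sub, MvPolynomial.rename_X, MvPolynomial.rename_C]; rfl]
  -- geometry
  obtain ⟨A, φ, hA, hφ⟩ := Frobenius.exists_liesOverPrime_and_isFrobeniusAt_qbar hq
  have := Reduction.charP_residueField hA
  have : IsAlgClosed (ResidueField A) := Reduction.isAlgClosed_residueField
  let St : Setting A M q := ⟨hqM, hA, ⟨_, IgusaGenus.reductionFacts hqM hA⟩⟩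
  obtain ⟨N₁, Φ, hsp, hΦ, hΦE, hΦg, hΦ1, hΦdet⟩ := exists_embedding_adic I hp' S (fun l => a l) ρ
    hatt.1 (fun r hr hrS B hB σ hσ => hatt.2 r hr hrS B hB σ hσ) hspan f hv hf hvE
  set ιL := f.comp (padicHom p hp')
  set Wp := Engine.Lifting.mapPadic I.model I.model (wJ St)
  set Wk := Wp.map ιL
  have hWL : ∀ σ, Wk * (galMat I.model σ).map ιL = (galMat I.model σ).map ιL * Wk := fun σ => by
    rw [← Matrix.map_mul, ← Matrix.map_mul,
      Engine.Lifting.mapPadic_mul_galMat I.model I.model (isGaloisEquivariant_wJ (S := St)) σ]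
  have hWW : Wk * Wk = 1 := by
    rw [← Matrix.map_mul, mapPadic_wJ_mul_self (S := St) I,
      Matrix.map_one _ ιL.map_zero ιL.map_one]
  have hrel : ∀ c, (galMat I.model φ).map ιL *ᵥ Φ c + (q : L) • (Wk *ᵥ Φ c) = 0 := by
    intro c
    have h := mulVec_eq_zero_of_fixed_padic _
      (fun σ : A.inertiaSubgroupIn ℚ => galMat I.model σ.1)
      (padic_mulVec_eq_zero (S := St) hφ hp5 hqp hℓ hℓN P hPkill I) ιL (v := Φ c) fun σ => by
      rw [hΦg, hΦ1 σ.1 (hunr A hA σ.1 σ.2), one_mulVec]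
    rw [map_mulVec_split, hER, show ((evalT I.model (badSet N') R₀ :
        Matrix (Fin I.model.d) (Fin I.model.d) ℤ).map (Int.cast : ℤ → ℤ_[p])).map ιL =
        (evalT I.model (badSet N') R₀ : Matrix (Fin I.model.d) (Fin I.model.d) ℤ).map
          (Int.cast : ℤ → L) by ext; simp,
      evalT_mulVec_eigen I.model hNS (hΦE c) R₀, mulVec_smul, mulVec_smul, smul_comm (q : L),
      ← smul_add, smul_eq_zero] at h
    exact h.resolve_left hlam
  obtain ⟨c₀, hc₀, hsq⟩ := exists_scalar_of_swap N₁ Φ hΦ hsp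
    (fun σ => (galMat I.model σ).map ιL) hΦg Wk hWL hWW φ (q : L) hrel
  have hdet := hΦdet φ
  rw [hc₀, epsilon_frobenius hq hqp hA hφ, map_natCast, map_natCast, Matrix.det_smul,
    Matrix.det_one, mul_one, Fintype.card_fin, sq, hsq] at hdet
  have hq1 : (q : L) = 1 :=
    mul_left_cancel₀ (Nat.cast_ne_zero.mpr hq.ne_zero) (by rw [mul_one]; exact hdet)
  exact hq.ne_one (by exact_mod_cast hq1)

/-- `Engine.UnramifiedIsOld` holds. -/
theorem unramifiedIsOld (M q : ℕ) : Engine.UnramifiedIsOld O p M q :=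
  fun hp5 hq hqp hqM S a ρ hqS hpS hMS hocc hatt hspan hunr =>
    haveI : NeZero M := ⟨fun h => hqM (h ▸ dvd_zero q)⟩
    occurs_of_unramified hp5 hq hqp hqM S a ρ hqS hpS hMS hocc hatt hspan hunr

end Fermat.Agent.MazurPrinciple

end
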