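import Fermat.Agent.MazurPrinciple.Eigen
import Fermat.Agent.MazurPrinciple.Descent
import Fermat.Agent.EigenSystems.FromForms

/-!
# Mazur's principle

A prime `q ≢ 1 (mod p)`, `q ≠ p`, at which `E[p]` is unramified leaves a squarefree level.
-/

set_option autoImplicit false

noncomputable section

namespace Fermat.Agent.MazurPrinciple

/-- **Mazur's principle.** -/
theorem mazurPrinciple : Engine.MazurPrinciple := by
  intro p _ W M q hres hq hqp hqM hM hq1 hunr hmod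
  obtain ⟨-, -, hndiv, -⟩ := Engine.div_prime_facts hq hqM hM
  obtain ⟨M', rfl⟩ : ∃ M', M = M' * q := ⟨M / q, (Nat.div_mul_cancel hqM).symm⟩
  rw [Nat.mul_div_cancel _ hq.pos] at hndiv ⊢
  have : NeZero M' := ⟨fun h => hM.ne_zero (by rw [h, zero_mul])⟩
  have : NeZero (M' * q) := ⟨hM.ne_zero⟩
  obtain ⟨f, 𝔪, hf, h𝔪, hp𝔪, hcongr⟩ := hmod
  let a : Nat.Primes → integralClosure ℤ ℂ := fun r =>
    ⟨ModularFormClass.qCoeff f (r : ℕ), EigenSystems.isIntegral_qCoeff hf _⟩
  exact isResiduallyModularOfLevel_of_vanishing hres hq f 𝔪 h𝔪 hp𝔪 hcongr a (fun _ => rfl)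
    fun P hP => eval_eq_zero_of_annihilates hres hq hqp hndiv hq1 hunr f 𝔪 hf h𝔪 hp𝔪 hcongr a
      (fun _ => rfl) P hP

end Fermat.Agent.MazurPrinciple

end
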