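import Fermat.Agent.LevelP.FixedPoint

/-!
# A modular `E[p]` inside the eigenspace of `J₀(N)[p] ⊗ K`

An eigenspace whose eigenvalues are the Frobenius traces of an irreducible `E[p]` contains
`E[p] ⊗ K` equivariantly, and the eigen system is not Eisenstein.
-/

set_option autoImplicit false

noncomputable section

namespace Fermat.Agent.MazurPrinciple

open ModularCurve AlgebraicCurve Matrix Fermat.Agent.EigenRep
open scoped WeierstrassCurve.Affine

local notation "Qbar" => AlgebraicClosure ℚ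

variable {N p : ℕ} [NeZero N] [Fact p.Prime]

/-- What the eigenspace of a modular irreducible `E[p]` supplies. -/
theorem exists_embedding (hp2 : p ≠ 2) (I : RepInputs N p) {K : Type} [Field K] [CharP K p]
    [IsAlgClosed K] (a : Nat.Primes → K)
    (hne : ∃ v, v ≠ 0 ∧ v ∈ eigenSub I.model (∅ : Set ℕ) a)
    (E : WeierstrassCurve ℚ) [E.IsElliptic]
    (hirr : WeierstrassCurve.Affine.Point.GaloisRepIsIrreducible (K := Qbar) ℚ E p)
    (S : Finset ℕ)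
    (htr : ∀ (ℓ : ℕ) (hℓ : ℓ.Prime), ℓ ∉ S → ¬ ℓ ∣ N * p → ∀ A : ValuationSubring Qbar,
      A.LiesOverPrime ℓ → ∀ σ : Qbar ≃ₐ[ℚ] Qbar, A.IsFrobeniusAt σ ℓ →
        ZMod.castHom dvd_rfl K (WeierstrassCurve.Affine.Point.galoisTrace ℚ E p σ) = a ⟨ℓ, hℓ⟩) :
    ∃ (N₁ : (Qbar ≃ₐ[ℚ] Qbar) →* Matrix (Fin 2) (Fin 2) K)
      (Φ : (Fin 2 → K) →ₗ[K] (Fin I.model.d → K)),
      Submodule.span K (Set.range N₁) = ⊤ ∧ Function.Injective Φ ∧
      (∀ c, Φ c ∈ eigenSub I.model (∅ : Set ℕ) a) ∧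
      (∀ g c, galEnd I.model (toCharP p K) g (Φ c) = Φ (N₁ g *ᵥ c)) ∧
      (∀ g, (∀ P : Submodule.torsionBy ℤ (E⁄Qbar).Point (p : ℤ), g • P = P) → N₁ g = 1) ∧
      (∀ g (c₀ : K), N₁ g = c₀ • 1 → c₀ ^ 2 = toCharP p K (epsilonPadic p g : ℤ_[p])) ∧
      ∀ T : Finset ℕ, ∃ (ℓ : ℕ) (hℓ : ℓ.Prime), ℓ ∉ T ∧ a ⟨ℓ, hℓ⟩ ≠ (ℓ : K) + 1 := by
  classical
  have hp : p.Prime := Fact.out
  have := EllTorsion.moduleFinite_torsionBy_rat E p
  let b := Module.finBasisOfFinrankEq (ZMod p) _ (EllTorsion.finrank_torsionBy_rat E p)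
  let φ : ZMod p →+* K := ZMod.castHom dvd_rfl K
  let ρE := WeierstrassCurve.Affine.Point.galoisRepModuleEnd (K := Qbar) ℚ E p
  let N₀ : (Qbar ≃ₐ[ℚ] Qbar) →* Matrix (Fin 2) (Fin 2) (ZMod p) :=
    (LinearMap.toMatrixAlgEquiv b).toAlgHom.toMonoidHom.comp ρE
  let N₁ : (Qbar ≃ₐ[ℚ] Qbar) →* Matrix (Fin 2) (Fin 2) K :=
    φ.mapMatrix.toMonoidHom.comp N₀
  have hspan₁ : Submodule.span K (Set.range N₁) = ⊤ := by
    refine LevelP.span_map_eq_top φ N₀ ?_
    exact DefRing.span_range_eq_top_of_isAbsolutelyIrreducible (EllTorsion.residualRep E p)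
      (BigImage.residual_isAbsolutelyIrreducible hp2 hirr) b
  let t : (Qbar ≃ₐ[ℚ] Qbar) → K := fun g =>
    φ (WeierstrassCurve.Affine.Point.galoisTrace ℚ E p g)
  have htr₁ : ∀ g, Matrix.trace (N₁ g) = t g := fun g => by
    simp only [t, WeierstrassCurve.Affine.Point.galoisTrace_def]
    rw [LinearMap.trace_eq_matrix_trace (ZMod p) b]
    exact (AddMonoidHom.map_trace φ.toAddMonoidHom (N₀ g)).symm
  let ι := toCharP p K
  let V := eigenSub I.model (∅ : Set ℕ) a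
  obtain ⟨v₀, hv₀, hv₀V⟩ := hne
  have : Nontrivial V := ⟨⟨v₀, hv₀V⟩, 0, fun h => hv₀ (congrArg Subtype.val h)⟩
  let ρ : (Qbar ≃ₐ[ℚ] Qbar) →* Module.End K V :=
    { toFun := fun g => (galEnd I.model ι g).restrict
        fun v hv => galEnd_mem_eigenSub I.model ι I.equivariant g hv
      map_one' := by ext v; simp
      map_mul' := fun g k => by ext v; simp }
  let ε : (Qbar ≃ₐ[ℚ] Qbar) →* Kˣ := (Units.map ι.toMonoidHom).comp (epsilonPadic p)
  have hfrob : ∀ (g : Qbar ≃ₐ[ℚ] Qbar) (T : Finset ℕ), ∃ (ℓ : ℕ) (hℓ : ℓ.Prime), ℓ ∉ T ∧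
      t g = a ⟨ℓ, hℓ⟩ ∧ (ε g : K) = ℓ ∧
      ρ g * ρ g - t g • ρ g + (ε g : K) • 1 = 0 := by
    intro g T
    obtain ⟨L₁, hL₁, H₁⟩ := exists_level I 1
    obtain ⟨L₂, hL₂, H₂⟩ :=
      EllTorsion.galoisFactorsThroughFiniteLevel_galoisRepModuleEnd E hp.ne_zero
    have hL := IntermediateField.finiteDimensional_sup L₁ L₂
    obtain ⟨ℓ, hℓ, hℓS, A, hA, σ, hσ, hg⟩ :=
      I.dense (L₁ ⊔ L₂) hL g (S ∪ T ∪ (N * p).primeFactors)
    rw [Finset.mem_union, Finset.mem_union, not_or, not_or] at hℓS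
    have hd : ¬ ℓ ∣ N * p := fun h => hℓS.2 (Nat.mem_primeFactors.mpr
      ⟨hℓ, h, mul_ne_zero (NeZero.ne N) hp.ne_zero⟩)
    have hτ := inv_mul_fixes hg
    have hgσ : g = σ * (σ⁻¹ * g) := (mul_inv_cancel_left σ g).symm
    obtain ⟨hg₁, hg₂⟩ := H₁ _ fun x hx => hτ x (le_sup_left (a := L₁) (b := L₂) hx)
    have hg₃ : ρE (σ⁻¹ * g) = 1 := H₂ _ fun x hx => hτ x (le_sup_right (a := L₁) (b := L₂) hx)
    have e1 : ρ g = ρ σ := by
      ext v : 2
      show galEnd I.model ι g v = galEnd I.model ι σ v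
      rw [galEnd_apply, galEnd_apply, map_eq_of_matMod_one ι (y := galMat I.model σ) ?_]
      rw [hgσ, map_mul, map_mul, hg₁, mul_one]
    have e2 : ε g = ε σ := Units.ext (map_eq_of_toZModPow_one ι
      (by rw [hgσ, map_mul, Units.val_mul, map_mul, hg₂, mul_one]))
    have e3 : t g = a ⟨ℓ, hℓ⟩ := by
      rw [← htr ℓ hℓ hℓS.1.1 hd A hA σ hσ]
      simp only [t, WeierstrassCurve.Affine.Point.galoisTrace_def]
      congr 2
      show ρE g = ρE σ
      rw [hgσ, map_mul, hg₃, mul_one]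
    have hεℓ : (ε σ : K) = ℓ := by
      show ι _ = _
      rw [epsilon_frobenius hℓ (fun h => hd (h ▸ dvd_mul_left p N)) hA hσ, map_natCast]
    refine ⟨ℓ, hℓ, hℓS.1.2, e3, by rw [e2, hεℓ], ?_⟩
    rw [e1, e2, e3, hεℓ]
    ext v : 2
    simpa [ρ] using! galEnd_frobenius I.model ι I.es I.equivariant hℓ (by simp) hd hA hσ v.2
  obtain ⟨Φ, hΦ, hΦρ⟩ := LevelP.exists_intertwiner ρ ε t (fun g => by
    obtain ⟨-, -, -, -, -, h⟩ := hfrob g ∅
    exact h) N₁ htr₁ hspan₁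
  refine ⟨N₁, V.subtype ∘ₗ Φ, hspan₁, V.injective_subtype.comp hΦ, fun c => (Φ c).2,
    fun g c => congrArg Subtype.val (hΦρ g c), fun g hg => ?_, fun g c₀ hg => ?_, fun T => ?_⟩
  · have h1 : ρE g = 1 := LinearMap.ext fun P => hg P
    show φ.mapMatrix (LinearMap.toMatrixAlgEquiv b (ρE g)) = 1
    rw [h1, map_one, map_one]
  · obtain ⟨-, -, -, -, -, h⟩ := hfrob g ∅
    have h1 := congrArg (fun f : Module.End K V => f (Φ (Pi.single 0 1))) h
    simp only [LinearMap.add_apply, LinearMap.sub_apply, LinearMap.smul_apply, Module.End.mul_apply,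
      Module.End.one_apply, LinearMap.zero_apply, hΦρ, hg, Matrix.smul_mulVec, Matrix.one_mulVec,
      map_smul, smul_smul] at h1
    rw [← sub_smul, ← add_smul, smul_eq_zero] at h1
    have hne : Φ (Pi.single 0 1) ≠ 0 := fun h0 => by
      have := congrFun (hΦ (h0.trans (map_zero Φ).symm)) 0
      simp at this
    have h2 := h1.resolve_right hne
    have h3 : t g = 2 * c₀ := by
      rw [← htr₁, hg, Matrix.trace_smul, Matrix.trace_one]
      simp [mul_comm]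
    rw [h3] at h2
    show c₀ ^ 2 = (ε g : K)
    linear_combination -h2
  · by_contra hcon
    push Not at hcon
    obtain ⟨u, hu⟩ := Chebotarev.exists_conj_of_trace_eq N₁ (diagRep 1 ε) (fun g => by
      obtain ⟨ℓ, hℓ, hℓT, h1, h2, -⟩ := hfrob g T
      rw [htr₁, h1, hcon ℓ hℓ hℓT]
      simp [diagRep, Matrix.trace_diagonal, Fin.sum_univ_two, h2, add_comm]) hspan₁
    exact LevelP.not_diagonal_of_span N₁ _ u hu hspan₁

end Fermat.Agent.MazurPrinciple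

end
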