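import Fermat.Agent.MazurPrinciple.Main
import Fermat.Agent.MazurPrinciple.Embedding
import Fermat.Agent.Engine.Goals

/-!
# An unramified modular `E[p]` kills the annihilator of the lower level

If `E[p]` is unramified at `q ≢ 1 (mod p)` and modular of level `M q`, `q ∤ M`, then the eigen
system vanishes on every Hecke polynomial killing `J₀(M)[p]`: otherwise a Frobenius at `q` would
act on a copy of `E[p]` by `- q w_q`, hence commute with Galois, hence be a scalar of square `q`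
and of square `q ^ 2`.
-/

set_option autoImplicit false
set_option linter.unusedSectionVars false

noncomputable section

open IsLocalRing ModularCurve AlgebraicCurve Matrix Fermat.Agent.EigenRep
  Fermat.Agent.SemistableRed

namespace Fermat.Agent.MazurPrinciple

local notation "Qbar" => AlgebraicClosure ℚ
local notation "Jtors" N:max n:max => Pic0.torsion (AlgebraicClosure ℚ) (modularFunctionFieldBar N) n

-- a shortcut for the instance search
local instance (priority := high) algebraBarEigenFast {N : ℕ} :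
    Algebra Qbar ↥(modularFunctionFieldBar N) := inferInstance

/-- Linear conditions holding on the fixed vectors hold on the fixed vectors over an extension. -/
theorem mulVec_eq_zero_of_fixed {F K : Type*} [Field F] [Field K] [Algebra F K] {d : ℕ} {J : Type*}
    (Z : Matrix (Fin d) (Fin d) F) (B : J → Matrix (Fin d) (Fin d) F)
    (hZ : ∀ v, (∀ i, B i *ᵥ v = v) → Z *ᵥ v = 0) {w : Fin d → K}
    (hw : ∀ i, (B i).map (algebraMap F K) *ᵥ w = w) : Z.map (algebraMap F K) *ᵥ w = 0 := by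
  have key : ∀ (f : Module.Dual F K) (M : Matrix (Fin d) (Fin d) F),
      (fun j => f ((M.map (algebraMap F K) *ᵥ w) j)) = M *ᵥ (f ∘ w) := fun f M => funext fun j => by
    simp [Matrix.mulVec, dotProduct, map_sum, ← Algebra.smul_def]
  funext j
  refine (Module.forall_dual_apply_eq_zero_iff F _).mp fun f => ?_
  have h := hZ (f ∘ w) fun i => by rw [← key, hw i]; rfl
  rw [← key] at h
  exact congrFun h j

/-- An endomorphism acting as `- q w` on an absolutely irreducible plane, `w` an involution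
commuting with the action, is a scalar of square `q ^ 2`. -/
theorem exists_scalar_of_swap {G : Type*} [Monoid G] {K : Type*} [Field K] {d : ℕ}
    (N₁ : G →* Matrix (Fin 2) (Fin 2) K) (Φ : (Fin 2 → K) →ₗ[K] (Fin d → K))
    (hΦ : Function.Injective Φ) (hspan : Submodule.span K (Set.range N₁) = ⊤)
    (L : G → Matrix (Fin d) (Fin d) K) (hLΦ : ∀ σ c, L σ *ᵥ Φ c = Φ (N₁ σ *ᵥ c))
    (Wk : Matrix (Fin d) (Fin d) K) (hWL : ∀ σ, Wk * L σ = L σ * Wk) (hWW : Wk * Wk = 1)
    (φ : G) (r : K) (hrel : ∀ c, L φ *ᵥ Φ c + r • (Wk *ᵥ Φ c) = 0) :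
    ∃ c₀ : K, N₁ φ = c₀ • 1 ∧ c₀ * c₀ = r * r := by
  classical
  have hcomm : ∀ σ, Commute (N₁ φ) (N₁ σ) := fun σ => by
    refine Matrix.ext_of_mulVec_single fun j => hΦ ?_
    set c : Fin 2 → K := Pi.single j 1
    have h1 := hrel (N₁ σ *ᵥ c)
    have h2 := congrArg (L σ *ᵥ ·) (hrel c)
    simp only [mulVec_add, mulVec_smul, mulVec_zero, hLΦ] at h2
    rw [hLΦ, ← hLΦ σ c, mulVec_mulVec (Φ c) Wk, hWL, ← mulVec_mulVec] at h1
    rw [← mulVec_mulVec, ← mulVec_mulVec]
    exact add_right_cancel (h1.trans h2.symm)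
  have hall : ∀ X : Matrix (Fin 2) (Fin 2) K, Commute (N₁ φ) X := fun X => by
    have hX : X ∈ Submodule.span K (Set.range N₁) := hspan ▸ Submodule.mem_top
    induction hX using Submodule.span_induction with
    | mem x hx => obtain ⟨σ, rfl⟩ := hx; exact hcomm σ
    | zero => exact Commute.zero_right _
    | add x y _ _ hx hy => exact hx.add_right hy
    | smul a x _ hx => exact hx.smul_right a
  obtain ⟨c₀, hc₀⟩ := Matrix.mem_range_scalar_iff_commute_single'.mpr fun i j => (hall _).symm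
  have hc₀' : N₁ φ = c₀ • 1 := by rw [← hc₀, Matrix.smul_one_eq_diagonal]; rfl
  refine ⟨c₀, hc₀', ?_⟩
  set y := Φ (Pi.single 0 1)
  have hy : y ≠ 0 := fun h0 => by
    have := congrFun (hΦ (h0.trans (map_zero Φ).symm)) 0
    simp at this
  have h1 : c₀ • y + r • (Wk *ᵥ y) = 0 := by
    have := hrel (Pi.single 0 1)
    rwa [hLΦ, hc₀', Matrix.smul_mulVec, one_mulVec, map_smul] at this
  have h2 := congrArg (Wk *ᵥ ·) h1
  simp only [mulVec_add, mulVec_smul, mulVec_zero, mulVec_mulVec, hWW, one_mulVec] at h2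
  refine smul_left_injective K hy ?_
  show (c₀ * c₀) • y = (r * r) • y
  linear_combination (norm := module) c₀ • h1 - r • h2

/-- The map on coordinates of `(L + q W) E`. -/
theorem map_mulVec_split {R K : Type*} [CommRing R] [CommRing K] (φ₁ : R →+* K) {d : ℕ}
    (L W E : Matrix (Fin d) (Fin d) R) (q : ℕ) (v : Fin d → K) :
    ((L + q • W) * E).map φ₁ *ᵥ v =
      L.map φ₁ *ᵥ (E.map φ₁ *ᵥ v) + (q : K) • (W.map φ₁ *ᵥ (E.map φ₁ *ᵥ v)) := by
  rw [Matrix.map_mul, Matrix.map_add _ (map_add φ₁), ← mulVec_mulVec, add_mulVec,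
    show (q • W).map φ₁ = (q : K) • W.map φ₁ by
      ext i j; simp only [Matrix.map_apply, Matrix.smul_apply]
      rw [map_nsmul, nsmul_eq_mul, smul_eq_mul],
    Matrix.smul_mulVec]

variable {N p : ℕ} [NeZero N] [Fact p.Prime]

theorem torsMap_wJ_wJ {A : ValuationSubring Qbar} {M q : ℕ} [NeZero M] [NeZero q] [Fact q.Prime]
    [CharP (ResidueField A) q] [IsAlgClosed (ResidueField A)] {S : Setting A M q} {m : ℕ}
    (x : Jtors (M * q) m) : torsMap (wJ S) m (torsMap (wJ S) m x) = x :=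
  Subtype.ext (wJ_wJ (S := S) (x : JZero (M * q)))

/-- A Hecke operator on torsion. -/
def torsSmul {m : ℕ} (t : HeckeAlg) (x : Jtors N m) : Jtors N m :=
  ⟨(letI := heckeModuleBar N; t • (x : JZero N)), by
    let := heckeModuleBar N
    rw [Pic0.mem_torsion]
    calc (m : ℤ) • (t • (x : JZero N)) = t • ((m : ℤ) • (x : JZero N)) := by
          rw [← Int.cast_smul_eq_zsmul HeckeAlg, ← Int.cast_smul_eq_zsmul HeckeAlg, smul_comm]
      _ = 0 := by rw [Pic0.mem_torsion.mp x.2, smul_zero]⟩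

theorem coe_torsSmul {m : ℕ} (t : HeckeAlg) (x : Jtors N m) :
    ((torsSmul t x : Jtors N m) : JZero N) = (letI := heckeModuleBar N; t • (x : JZero N)) :=
  rfl

attribute [irreducible] torsSmul

theorem toHecke_C {N' : ℕ} (c : ℤ) :
    toHecke (MvPolynomial.C c : GoodHecke N') = MvPolynomial.C c :=
  MvPolynomial.rename_C _ _

theorem toHecke_add {N' : ℕ} (P Q : GoodHecke N') : toHecke (P + Q) = toHecke P + toHecke Q :=
  map_add _ P Q

theorem toHecke_mul_X {N' : ℕ} (P : GoodHecke N') (r : {r : Nat.Primes // ¬ (r : ℕ) ∣ N'}) :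
    toHecke (P * MvPolynomial.X r) = heckeGen r.1 * toHecke P := by
  rw [toHecke, map_mul, MvPolynomial.rename_X, mul_comm]
  rfl

/-- Adding Hecke polynomials adds their matrices. -/
theorem torsSmul_add_e (I : RepInputs N p) (t t' : HeckeAlg) (x : Jtors N (p ^ 1)) :
    I.model.e 1 (torsSmul (t + t') x) = I.model.e 1 (torsSmul t x) + I.model.e 1 (torsSmul t' x) := by
  let := heckeModuleBar N
  rw [← map_add]
  refine congrArg _ (Subtype.ext ?_)
  rw [AddSubgroup.coe_add, coe_torsSmul, coe_torsSmul, coe_torsSmul, add_smul]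

/-- A Hecke generator multiplies the matrix by its own. -/
theorem torsSmul_gen_e (I : RepInputs N p) (r : Nat.Primes) (t : HeckeAlg) (x : Jtors N (p ^ 1)) :
    I.model.e 1 (torsSmul (heckeGen r * t) x) =
      (I.model.T r).map (Int.cast : ℤ → ZMod (p ^ 1)) *ᵥ I.model.e 1 (torsSmul t x) := by
  let := heckeModuleBar N
  refine I.model.e_hecke 1 r _ _ ?_
  rw [coe_torsSmul, coe_torsSmul, mul_smul,
    heckeModuleBar_heckeGen_smul (HeckeJ0.heckeOperatorsCommuteBar N)]

/-- The matrix on `J₀(N)[p]` of a Hecke polynomial. -/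
theorem exists_heckeMatrix (I : RepInputs N p) {K : Type} [Field K] [CharP K p] {N' : ℕ}
    (a : Nat.Primes → K) (P : GoodHecke N') :
    ∃ E : Matrix (Fin I.model.d) (Fin I.model.d) (ZMod (p ^ 1)),
      (∀ x y : Jtors N (p ^ 1),
        (y : JZero N) = (letI := heckeModuleBar N; toHecke P • (x : JZero N)) →
        I.model.e 1 y = E *ᵥ I.model.e 1 x) ∧
      ∀ v ∈ eigenSub I.model (∅ : Set ℕ) a,
        E.map (ZMod.castHom (dvd_pow_self p one_ne_zero) K) *ᵥ v =
          MvPolynomial.eval₂ (Int.castRingHom K) (fun r => a r.1) P • v := by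
  let := heckeModuleBar N
  set φ₁ := ZMod.castHom (dvd_pow_self p one_ne_zero) K
  have hint : ∀ M : Matrix (Fin I.model.d) (Fin I.model.d) ℤ,
      (M.map (Int.cast : ℤ → ZMod (p ^ 1))).map φ₁ = M.map (Int.cast : ℤ → K) := fun M => by
    ext i j
    simp
  induction P using MvPolynomial.induction_on with
  | C c =>
    refine ⟨(Matrix.diagonal fun _ => c).map Int.cast, fun x y hy => ?_, fun v _ => ?_⟩
    · have h : y = c • x := Subtype.ext (by
        rw [hy, toHecke_C, heckeModuleBar_C_smul, AddSubgroupClass.coe_zsmul])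
      rw [h, map_zsmul, Matrix.diagonal_map Int.cast_zero]
      ext i
      simp [mulVec_diagonal]
    · rw [hint, MvPolynomial.eval₂_C, Matrix.diagonal_map Int.cast_zero]
      ext i
      simp [mulVec_diagonal]
  | add P Q hP hQ =>
    obtain ⟨E, hE, hE'⟩ := hP
    obtain ⟨E', hF, hF'⟩ := hQ
    refine ⟨E + E', fun x y hy => ?_, fun v hv => ?_⟩
    · have h : y = torsSmul (toHecke (P + Q)) x :=
        Subtype.ext (hy.trans (coe_torsSmul _ x).symm)
      rw [h, toHecke_add, torsSmul_add_e, add_mulVec,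
        hE x (torsSmul (toHecke P) x) (coe_torsSmul (toHecke P) x),
        hF x (torsSmul (toHecke Q) x) (coe_torsSmul (toHecke Q) x)]
    · rw [Matrix.map_add _ (map_add φ₁), add_mulVec, hE' v hv, hF' v hv, MvPolynomial.eval₂_add,
        add_smul]
  | mul_X P r hP =>
    obtain ⟨E, hE, hE'⟩ := hP
    refine ⟨(I.model.T r.1).map Int.cast * E, fun x y hy => ?_, fun v hv => ?_⟩
    · have h : y = torsSmul (toHecke (P * MvPolynomial.X r)) x :=
        Subtype.ext (hy.trans (coe_torsSmul _ x).symm)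
      rw [h, toHecke_mul_X, torsSmul_gen_e, ← mulVec_mulVec,
        hE x (torsSmul (toHecke P) x) (coe_torsSmul (toHecke P) x)]
    · have h1 := (mem_eigenSub I.model).mp hv r.1 (Set.notMem_empty _)
      rw [Matrix.map_mul, ← mulVec_mulVec, hE' v hv, hint, mulVec_smul, h1, smul_smul,
        MvPolynomial.eval₂_mul, MvPolynomial.eval₂_X]

variable {W : WeierstrassCurve ℤ}

/-- `(φ + q w) P (T_ℓ - ℓ - 1)` on the coordinates of the vectors fixed by inertia. -/
theorem mulVec_eq_zero_of_inertia {A : ValuationSubring Qbar} {M q : ℕ} [NeZero M] [NeZero q]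
    [Fact q.Prime] [CharP (ResidueField A) q] [IsAlgClosed (ResidueField A)] {S : Setting A M q}
    {φ : Qbar ≃ₐ[ℚ] Qbar} (hφ : A.IsFrobeniusAt φ q) (hp5 : 5 ≤ p) (hqp : q ≠ p) {ℓ k : ℕ}
    [NeZero ℓ] (hℓ : ℓ.Prime) (hℓN : ¬ ℓ ∣ M * q * p) (P : GoodHecke (M * q * p))
    (hP : ∀ ξ : JZero M, p ^ k • ξ = 0 → (letI := heckeModuleBar M; toHecke P • ξ) = 0)
    (I : RepInputs (M * q) p) {E : Matrix (Fin I.model.d) (Fin I.model.d) (ZMod (p ^ k))}
    (hE : ∀ x y : Jtors (M * q) (p ^ k), (y : JZero (M * q)) = (letI := heckeModuleBar (M * q);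
      toHecke (P * (MvPolynomial.X ⟨⟨ℓ, hℓ⟩, hℓN⟩ - MvPolynomial.C ((ℓ : ℤ) + 1))) •
        (x : JZero (M * q))) → I.model.e k y = E *ᵥ I.model.e k x)
    (c : Fin I.model.d → ZMod (p ^ k))
    (hc : ∀ σ : A.inertiaSubgroupIn ℚ, levelMat I.model k σ.1 *ᵥ c = c) :
    ((levelMat I.model k φ + q • mapMat I.model I.model (wJ S) k) * E) *ᵥ c = 0 := by
  obtain ⟨x, rfl⟩ := (I.model.e k).surjective c
  have hx : p ^ k • (x : JZero (M * q)) = 0 := by
    rw [← natCast_zsmul]; exact Pic0.mem_torsion.mp x.2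
  have hfix : ∀ σ ∈ A.inertiaSubgroupIn ℚ, σ • (x : JZero (M * q)) = x := fun σ hσ =>
    (JZero.coe_torsionGaloisRep_apply ..).symm.trans (congrArg Subtype.val
      ((I.model.e k).injective ((levelMat_mulVec I.model k σ x).symm.trans (hc ⟨σ, hσ⟩))))
  let := heckeModuleBar (M * q)
  set R : GoodHecke (M * q * p) :=
    P * (MvPolynomial.X ⟨⟨ℓ, hℓ⟩, hℓN⟩ - MvPolynomial.C ((ℓ : ℤ) + 1)) with hR
  let lP : Nat.Primes := ⟨ℓ, hℓ⟩
  let y : Jtors (M * q) (p ^ k) := torsSmul (toHecke R) x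
  have hy : (y : JZero (M * q)) = toHecke P • (heckeOperatorAlong Qbar (M * q) ℓ
      (x : JZero (M * q)) - (ℓ + 1) • (x : JZero (M * q))) := by
    refine (coe_torsSmul (toHecke R) x).trans ?_
    have h : toHecke R = toHecke P * (heckeGen lP - MvPolynomial.C ((ℓ : ℤ) + 1)) := by
      simp only [hR, toHecke, map_mul, map_sub, MvPolynomial.rename_X, MvPolynomial.rename_C]
      rfl
    rw [h, mul_smul, sub_smul,
      heckeModuleBar_heckeGen_smul (HeckeJ0.heckeOperatorsCommuteBar (M * q)),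
      heckeModuleBar_C_smul, show ((ℓ : ℤ) + 1) = ((ℓ + 1 : ℕ) : ℤ) by push_cast; rfl,
      natCast_zsmul]
    rfl
  have hkey := smul_add_of_killed (S := S) hφ hp5 (Ne.symm hqp) hx hfix hℓ hℓN P
    hP hy
  have hsum : JZero.torsionGaloisRep (M * q) (p ^ k) φ y + q • torsMap (wJ S) (p ^ k) y = 0 := by
    refine Subtype.ext ?_
    generalize y = z at hkey ⊢
    refine (AddSubgroup.coe_add _ _ _).trans (Eq.trans ?_ hkey)
    exact congrArg₂ (· + ·) (JZero.coe_torsionGaloisRep_apply ..) (AddSubgroup.coe_nsmul ..)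
  have hEy := hE x y (coe_torsSmul (toHecke R) x)
  rw [← mulVec_mulVec, ← hEy, add_mulVec, Matrix.smul_mulVec, levelMat_mulVec,
    mapMat_mulVec, ← map_nsmul, ← map_add, hsum, map_zero]

/-- **The eigen system of level `M q` factors through level `M`.** -/
theorem eval_eq_zero_of_annihilates (hres : Engine.Residual W p) {M q : ℕ} [NeZero M]
    (hq : q.Prime) (hqp : q ≠ p) (hqM : ¬ q ∣ M) (hq1 : ¬ p ∣ q - 1)
    (hunr : Engine.Unramified W p q) (f : CuspForm (CongruenceSubgroup.Gamma0 (M * q)) 2)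
    (𝔪 : Ideal (integralClosure ℤ ℂ)) (hf : f.IsNormalizedEigenform) (h𝔪 : 𝔪.IsMaximal)
    (hp𝔪 : (p : integralClosure ℤ ℂ) ∈ 𝔪)
    (hcongr : ∀ ℓ : ℕ, ℓ.Prime → W.IsGoodPrimeFor ℓ → ¬ ℓ ∣ M * q → ℓ ≠ p →
      ∃ a : integralClosure ℤ ℂ, (a : ℂ) = ModularFormClass.qCoeff f ℓ ∧
        a - ((W.apOfModel ℓ : ℤ) : integralClosure ℤ ℂ) ∈ 𝔪)
    (a : Nat.Primes → integralClosure ℤ ℂ)
    (ha : ∀ r, (a r : ℂ) = ModularFormClass.qCoeff f (r : ℕ))
    (P : GoodHecke (M * q * p))
    (hP : ∀ ξ : JZero M, p • ξ = 0 → (letI := heckeModuleBar M; toHecke P • ξ) = 0) :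
    MvPolynomial.eval₂ (Int.castRingHom _) (fun r => Ideal.Quotient.mk 𝔪 (a r.1)) P = 0 := by
  classical
  by_contra hne
  have hp : p.Prime := Fact.out
  have hp2 : p ≠ 2 := by have := hres.five_le; omega
  have : Fact q.Prime := ⟨hq⟩
  have : NeZero q := ⟨hq.ne_zero⟩
  obtain ⟨A, φ, hA, hφ⟩ := Frobenius.exists_liesOverPrime_and_isFrobeniusAt_qbar hq
  have := Reduction.charP_residueField hA
  have : IsAlgClosed (ResidueField A) := Reduction.isAlgClosed_residueField
  let S : Setting A M q := ⟨hqM, hA, ⟨_, IgusaGenus.reductionFacts hqM hA⟩⟩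
  -- the residue field and the eigen system
  let K := integralClosure ℤ ℂ ⧸ 𝔪
  let : Field K := Ideal.Quotient.field 𝔪
  have : IsAlgClosed K := isAlgClosed_quotient 𝔪
  have : CharP K p := by
    refine (CharP.charP_iff_prime_eq_zero hp).mpr ?_
    rw [← map_natCast (Ideal.Quotient.mk 𝔪)]
    exact Ideal.Quotient.eq_zero_iff_mem.mpr hp𝔪
  let I := Engine.TRep.levelInputs (M * q) p
  obtain ⟨g, hg⟩ := exists_eigenHom I.model hf
  let b : Nat.Primes → K := fun r => Ideal.Quotient.mk 𝔪 (a r)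
  obtain ⟨v, hv, hvV⟩ := exists_eigenvector_family I ∅ ((Ideal.Quotient.mk 𝔪).comp g) b
    fun r => congrArg (Ideal.Quotient.mk 𝔪) (Subtype.ext ((ha r.1).trans (hg r).symm))
  have hΔ := hres.delta_ne_zero
  have : (W.map (Int.castRingHom ℚ)).IsElliptic := ⟨isUnit_iff_ne_zero.mpr (by
    rw [WeierstrassCurve.map_Δ]; simpa using hΔ)⟩
  obtain ⟨N₁, Φ, hspan, hΦ, hΦV, hΦg, hΦfix, hΦdet, hΦne⟩ := exists_embedding hp2 I b ⟨v, hv, hvV⟩
    (W.map (Int.castRingHom ℚ)) hres.irreducible W.Δ.natAbs.primeFactors (by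
    intro ℓ hℓ hℓS hd B hB σ hσ
    have : Fact ℓ.Prime := ⟨hℓ⟩
    have hℓp : ℓ ≠ p := fun h => hd (by rw [h]; exact dvd_mul_left p _)
    have hgood : W.IsGoodPrimeFor ℓ := fun h => hℓS (Nat.mem_primeFactors.mpr
      ⟨hℓ, Int.natCast_dvd.mp h, Int.natAbs_ne_zero.mpr hΔ⟩)
    obtain ⟨c, hc, hcm⟩ := hcongr ℓ hℓ hgood (fun h => hd (h.mul_right p)) hℓp
    rw [EllFrobenius.galoisTrace_eq_apOfModel W ℓ p hℓp hgood B σ hB hσ, map_intCast,
      ← map_intCast (Ideal.Quotient.mk 𝔪)]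
    refine (Ideal.Quotient.eq.mpr ?_).symm
    convert hcm using 2
    exact Subtype.ext ((ha _).trans hc.symm))
  obtain ⟨ℓ, hℓ, hℓT, hℓne⟩ := hΦne (M * q * p).primeFactors
  have : NeZero ℓ := ⟨hℓ.ne_zero⟩
  have hℓN : ¬ ℓ ∣ M * q * p := fun h => hℓT (Nat.mem_primeFactors.mpr
    ⟨hℓ, h, mul_ne_zero (mul_ne_zero (NeZero.ne M) hq.ne_zero) hp.ne_zero⟩)
  let R : GoodHecke (M * q * p) :=
    P * (MvPolynomial.X ⟨⟨ℓ, hℓ⟩, hℓN⟩ - MvPolynomial.C ((ℓ : ℤ) + 1))
  have hlam : MvPolynomial.eval₂ (Int.castRingHom K) (fun r => b r.1) R ≠ 0 := by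
    rw [MvPolynomial.eval₂_mul, MvPolynomial.eval₂_sub, MvPolynomial.eval₂_X,
      MvPolynomial.eval₂_C]
    exact mul_ne_zero hne (sub_ne_zero.mpr (by simpa [K] using hℓne))
  obtain ⟨E, hE, hEv⟩ := exists_heckeMatrix I b R
  set Wm := mapMat I.model I.model (wJ S) 1 with hWm
  let Z : Matrix (Fin I.model.d) (Fin I.model.d) (ZMod (p ^ 1)) :=
    (levelMat I.model 1 φ + q • Wm) * E
  let φ₁ : ZMod (p ^ 1) →+* K := ZMod.castHom (dvd_pow_self p one_ne_zero) K
  let := φ₁.toAlgebra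
  have : Fact (p ^ 1).Prime := ⟨by rwa [pow_one]⟩
  -- the relation on the vectors fixed by inertia
  have hZ : ∀ c, (∀ σ : A.inertiaSubgroupIn ℚ, levelMat I.model 1 σ.1 *ᵥ c = c) → Z *ᵥ c = 0 :=
    mulVec_eq_zero_of_inertia (S := S) (k := 1) hφ hres.five_le hqp hℓ hℓN P (by simpa only [pow_one] using hP) I
      hE
  -- on the copy of `E[p]`
  have hmat : ∀ σ, (levelMat I.model 1 σ).map φ₁ = (galMat I.model σ).map (toCharP p K) := by
    intro σ
    ext i j
    rw [Matrix.map_apply, Matrix.map_apply, ← matMod_galMat, matMod_apply]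
    set z := galMat I.model σ i j
    rw [map_eq_of_toZModPow_one (toCharP p K) (y := ((PadicInt.toZModPow 1 z).val : ℤ_[p]))
      (by rw [map_natCast, ZMod.natCast_zmod_val]), map_natCast, ← map_natCast φ₁,
      ZMod.natCast_zmod_val]
  set L := fun σ => (levelMat I.model 1 σ).map φ₁
  have hLΦ : ∀ σ c, L σ *ᵥ Φ c = Φ (N₁ σ *ᵥ c) := fun σ c => by
    rw [← hΦg, galEnd_apply]
    exact congrArg (· *ᵥ Φ c) (hmat σ)
  set Wk := Wm.map φ₁
  have hWL : ∀ σ, Wk * L σ = L σ * Wk := fun σ => by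
    rw [← Matrix.map_mul, ← Matrix.map_mul]
    exact congrArg (·.map φ₁) (mapMat_mul_levelMat I.model I.model
      (isGaloisEquivariant_wJ (S := S)) 1 σ)
  have hWW : Wk * Wk = 1 := by
    rw [← Matrix.map_mul, show Wm * Wm = 1 from mat_ext I.model fun x => by
      rw [← mulVec_mulVec, hWm, mapMat_mulVec, mapMat_mulVec, one_mulVec]
      exact congrArg (I.model.e 1) (torsMap_wJ_wJ x), Matrix.map_one _ φ₁.map_zero φ₁.map_one]
  let : DistribSMul K K := (Semiring.toModule : Module K K).toDistribMulAction.toDistribSMul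
  have hrel : ∀ c, L φ *ᵥ Φ c + (q : K) • (Wk *ᵥ Φ c) = 0 := by
    intro c
    have h := mulVec_eq_zero_of_fixed Z (fun σ : A.inertiaSubgroupIn ℚ => levelMat I.model 1 σ.1)
      hZ (w := Φ c) fun σ => by
      show L σ.1 *ᵥ Φ c = Φ c
      rw [hLΦ, hΦfix σ.1 (hunr A hA σ.1 σ.2), one_mulVec]
    rw [RingHom.algebraMap_toAlgebra] at h
    rw [map_mulVec_split, hEv _ (hΦV c), mulVec_smul, mulVec_smul,
      smul_comm (q : K), ← smul_add, smul_eq_zero] at h
    exact h.resolve_left hlam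
  obtain ⟨c₀, hc₀, hsq⟩ := exists_scalar_of_swap N₁ Φ hΦ hspan L hLΦ Wk hWL hWW φ (q : K) hrel
  have hdet := hΦdet φ c₀ hc₀
  rw [epsilon_frobenius hq hqp hA hφ, map_natCast] at hdet
  rw [← sq, hdet] at hsq
  have hqK : (q : K) ≠ 0 := by
    rw [Ne, CharP.cast_eq_zero_iff K p]
    exact fun h => hqp ((Nat.prime_dvd_prime_iff_eq hp hq).mp h).symm
  refine hq1 ?_
  rw [← CharP.cast_eq_zero_iff K p, Nat.cast_sub hq.one_le, Nat.cast_one, sub_eq_zero]
  exact mul_left_cancel₀ hqK (by rw [mul_one]; exact hsq.symm)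

end Fermat.Agent.MazurPrinciple

end
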