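import Fermat.Agent.MazurPrinciple.Component
import Fermat.Agent.OrdinaryT.RatRep
import Fermat.Agent.OrdinaryT.CoreTools

/-!
# Classes whose reduced functions are powers on the component at `∞`

A class is lifted by `ξ ∈ J₀(M)` when the reduction at `∞` of one of its functions has divisor
`n` times the reduction of a representative of `ξ`. This relation is compatible with the Hecke
operators; `T_ℓ - ℓ - 1` brings every class fixed by inertia into it, and a class lifted by zero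
has a function reducing to a power.
-/

set_option autoImplicit false
set_option linter.unusedSectionVars false

noncomputable section

open IsLocalRing ModularCurve AlgebraicCurve Fermat.Agent.Reduction Fermat.Agent.SemistableRed
  Fermat.Agent.FunctionFieldRR Fermat.Agent.LevelP Fermat.Agent.OrdinaryT

namespace Fermat.Agent.MazurPrinciple

local notation "Qbar" => AlgebraicClosure ℚ

attribute [local instance] HeckeJ0.hasPrincipalDivisors_bar

section Functions

variable {N : ℕ} [NeZero N] {n : ℕ}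

theorem isFunctionOf_smul {x : JZero N} {u : modularFunctionFieldBar N}
    (h : IsFunctionOf n x u) {c : Qbar} (hc : c ≠ 0) : IsFunctionOf n x (c • u) := by
  obtain ⟨hu, D, hD, hDu⟩ := h
  refine ⟨Algebra.smul_def c u ▸ mul_ne_zero ((map_ne_zero _).mpr hc) hu, D, hD, fun P => ?_⟩
  rw [Algebra.smul_def, P.ord_mul ((map_ne_zero _).mpr hc) hu, ord_algebraMap, zero_add, hDu]

theorem isFunctionOf_pow {x : JZero N} {u : modularFunctionFieldBar N}
    (h : IsFunctionOf n x u) : ∀ m : ℕ, IsFunctionOf n (m • x) (u ^ m)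
  | 0 => by rw [zero_nsmul, pow_zero]; exact isFunctionOf_one
  | m + 1 => by rw [succ_nsmul, pow_succ]; exact (isFunctionOf_pow h m).mul h

/-- `T_ℓ u` is a function of `T_ℓ x`. -/
theorem isFunctionOf_Tfun {ℓ : ℕ} [NeZero ℓ] {x : JZero N} {u : modularFunctionFieldBar N}
    (h : IsFunctionOf n x u) :
    IsFunctionOf n (heckeOperatorAlong Qbar N ℓ x) (Tfun N ℓ u) := by
  obtain ⟨hu, D, rfl, hDu⟩ := h
  have := HeckeJ0.hasPrincipalDivisors_bar (N * ℓ)
  have hne : Tfun N ℓ u ≠ 0 := by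
    let := algebraAlong (heckeAlphaBar Qbar N ℓ)
    have : Module.Finite (modularFunctionFieldBar N) (modularFunctionFieldBar (N * ℓ)) :=
      HeckeJ0.alphaFinite N ℓ
    have : Module.Free (modularFunctionFieldBar N) (modularFunctionFieldBar (N * ℓ)) :=
      Module.Free.of_divisionRing _ _
    exact Algebra.norm_ne_zero_iff.mpr ((map_ne_zero _).mpr hu)
  refine ⟨hne, Pic0.degZeroCorrespondence (heckeBetaBar Qbar N ℓ) (heckeAlphaBar Qbar N ℓ)
    (HeckeJ0.betaIntegral N ℓ) (HeckeJ0.alphaIntegral N ℓ) (HeckeJ0.betaFundamental N ℓ) D, ?_,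
    fun P => ?_⟩
  · rw [HeckeJ0.heckeOperatorAlong_bar_eq]
    rfl
  have h1 := congrArg (fun E : Divisor Qbar (modularFunctionFieldBar N) => E P)
    (Tdiv_dvs (ℓ := ℓ) hu)
  simp only [dvs_apply] at h1
  rw [← h1, show dvs (K := Qbar) u = (n : ℤ) • (D : Divisor Qbar (modularFunctionFieldBar N)) from
    (eq_dvs fun Q => by rw [Finsupp.smul_apply, smul_eq_mul, hDu]).symm, map_zsmul,
    Finsupp.smul_apply, smul_eq_mul]
  rfl

end Functions

variable {A : ValuationSubring Qbar} {M q : ℕ} [NeZero M] [NeZero q] [Fact q.Prime]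
  [CharP (ResidueField A) q] [IsAlgClosed (ResidueField A)] {S : Setting A M q}
  [IsFunctionField (ResidueField A) (modularFunctionFieldFullC (ResidueField A) M)]
  [HasPrincipalDivisors (ResidueField A) (modularFunctionFieldFullC (ResidueField A) M)]
  [CharP (modularFunctionFieldFullC (ResidueField A) M) q]

/-- The reduction at `∞` of `T_ℓ u`. -/
theorem red0_Tfun (R : S.model.ReductionMap) {ℓ : ℕ} [NeZero ℓ] (hℓ : ℓ.Prime)
    (hℓN : ¬ ℓ ∣ M * q) {u : modularFunctionFieldBar (M * q)} (hi : S.splitModel.Int 0 u)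
    (h0 : S.splitModel.red 0 u ≠ 0) :
    S.splitModel.Int 0 (Tfun (M * q) ℓ u) ∧ S.splitModel.red 0 (Tfun (M * q) ℓ u) ≠ 0 ∧
      ∀ D : Divisor Qbar (modularFunctionFieldBar M),
        Finsupp.mapDomain R.toFun D = dvs (S.splitModel.red 0 u) →
        dvs (K := ResidueField A) (S.splitModel.red 0 (Tfun (M * q) ℓ u)) =
          Finsupp.mapDomain R.toFun (Tdiv M ℓ D) := by
  have hℓM : ¬ ℓ ∣ M := fun h => hℓN (h.mul_right q)
  obtain ⟨f, hfi, hfr⟩ := S.model.exists_isInt_red_eq (S.splitModel.red 0 u)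
  have hfr0 : S.model.red f ≠ 0 := hfr ▸ h0
  have hf : f ≠ 0 := fun e => hfr0 (by rw [e]; exact S.model.red_zero)
  obtain ⟨ti, t0, te⟩ := red_Tfun hℓ hℓM hfi hfr0
  have hu : SRep (A := A) (u : LaurentSeries Qbar)
      (S.splitModel.red 0 u : LaurentSeries (ResidueField A)) := by
    have h := S.srep_red (i := 0) (f := u) hi
    rwa [S.side_zero] at h
  obtain ⟨v', hv', hq'⟩ := srep_Tfun (A := A) hℓ hℓN hu
  rw [hfr, ← hq'] at te
  rw [← qExpand_injective (R := ResidueField A) ℓ te, ← S.side_zero] at hv'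
  obtain ⟨hi', hr'⟩ := S.red_eq hv'
  refine ⟨hi', fun e => t0 (hr'.symm.trans e), fun D hD => ?_⟩
  rw [red_Tdiv_congr R hℓ hℓM (D' := dvs f) (by rw [hD, R.spec f hfi hfr0, hfr]),
    Tdiv_dvs hf, R.spec _ ti t0]
  exact congrArg _ hr'

variable (S) in
/-- `x` is lifted by `ξ`. -/
def Lifted (R : S.model.ReductionMap) (n : ℕ) (x : JZero (M * q)) (ξ : JZero M) : Prop :=
  ∃ (u : modularFunctionFieldBar (M * q))
    (D₀ : Divisor.degZero (K := Qbar) (F := modularFunctionFieldBar M)),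
    IsFunctionOf n x u ∧ S.splitModel.Int 0 u ∧ S.splitModel.red 0 u ≠ 0 ∧ Pic0.mk D₀ = ξ ∧
      dvs (K := ResidueField A) (S.splitModel.red 0 u) =
        (n : ℤ) • Finsupp.mapDomain R.toFun (D₀ : Divisor Qbar (modularFunctionFieldBar M))

variable {R : S.model.ReductionMap} {n : ℕ}

theorem Lifted.zero : Lifted S R n 0 0 :=
  ⟨1, 0, isFunctionOf_one, S.splitModel.int_one 0,
    by rw [S.splitModel.red_one]; exact one_ne_zero, rfl, by
      rw [S.splitModel.red_one, ZeroMemClass.coe_zero, Finsupp.mapDomain_zero, smul_zero,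
        ← map_one (algebraMap (ResidueField A) _), dvs_algebraMap]⟩

theorem Lifted.add {x y : JZero (M * q)} {ξ η : JZero M} (h : Lifted S R n x ξ)
    (h' : Lifted S R n y η) : Lifted S R n (x + y) (ξ + η) := by
  obtain ⟨u, D, hu, hui, hur, rfl, hd⟩ := h
  obtain ⟨v, E, hv, hvi, hvr, rfl, he⟩ := h'
  refine ⟨u * v, D + E, hu.mul hv, S.splitModel.int_mul 0 _ _ hui hvi, ?_, rfl, ?_⟩
  · rw [S.splitModel.red_mul 0 _ _ hui hvi]; exact mul_ne_zero hur hvr
  · rw [S.splitModel.red_mul 0 _ _ hui hvi, dvs_mul hur hvr, hd, he, AddSubgroup.coe_add,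
      Finsupp.mapDomain_add, smul_add]

theorem Lifted.neg {x : JZero (M * q)} {ξ : JZero M} (h : Lifted S R n x ξ) :
    Lifted S R n (-x) (-ξ) := by
  obtain ⟨u, D, hu, hui, hur, rfl, hd⟩ := h
  obtain ⟨h1, h2⟩ := S.splitModel.int_inv hui hur
  refine ⟨u⁻¹, -D, hu.inv, h1, by rw [h2]; exact inv_ne_zero hur, rfl, ?_⟩
  rw [h2, NegMemClass.coe_neg, ← Finsupp.mapDomain.addMonoidHom_apply, map_neg,
    Finsupp.mapDomain.addMonoidHom_apply, smul_neg, ← hd]
  refine Finsupp.ext fun P => ?_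
  rw [Finsupp.neg_apply, dvs_apply, dvs_apply, P.ord_inv]

theorem Lifted.zsmul {x : JZero (M * q)} {ξ : JZero M} (h : Lifted S R n x ξ) (a : ℤ) :
    Lifted S R n (a • x) (a • ξ) := by
  induction a using Int.induction_on with
  | zero => rw [zero_zsmul, zero_zsmul]; exact Lifted.zero
  | succ i ih => rw [add_zsmul, add_zsmul, one_zsmul, one_zsmul]; exact ih.add h
  | pred i ih =>
    rw [sub_eq_add_neg, add_zsmul, add_zsmul, neg_one_zsmul, neg_one_zsmul]
    exact ih.add h.neg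

theorem Lifted.hecke {ℓ : ℕ} [NeZero ℓ] (hℓ : ℓ.Prime) (hℓN : ¬ ℓ ∣ M * q)
    {x : JZero (M * q)} {ξ : JZero M} (h : Lifted S R n x ξ) :
    Lifted S R n (heckeOperatorAlong Qbar (M * q) ℓ x) (heckeOperatorAlong Qbar M ℓ ξ) := by
  obtain ⟨u, D, hu, hui, hur, rfl, hd⟩ := h
  obtain ⟨h1, h2, h3⟩ := red0_Tfun R hℓ hℓN hui hur
  have := HeckeJ0.hasPrincipalDivisors_bar (M * ℓ)
  refine ⟨Tfun (M * q) ℓ u, Pic0.degZeroCorrespondence (heckeBetaBar Qbar M ℓ)
    (heckeAlphaBar Qbar M ℓ) (HeckeJ0.betaIntegral M ℓ) (HeckeJ0.alphaIntegral M ℓ)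
    (HeckeJ0.betaFundamental M ℓ) D, isFunctionOf_Tfun hu, h1, h2, ?_, ?_⟩
  · rw [HeckeJ0.heckeOperatorAlong_bar_eq]
    rfl
  rw [h3 ((n : ℤ) • (D : Divisor Qbar (modularFunctionFieldBar M)))
    (by rw [hd, Finsupp.mapDomain_smul]), map_zsmul, Finsupp.mapDomain_smul]
  rfl

/-- The Hecke polynomials in the good primes. -/
abbrev GoodHecke (N : ℕ) := MvPolynomial {r : Nat.Primes // ¬ (r : ℕ) ∣ N} ℤ

/-- As Hecke operators. -/
def toHecke {N : ℕ} (Q : GoodHecke N) : HeckeAlg := MvPolynomial.rename Subtype.val Q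

theorem Lifted.poly {x : JZero (M * q)} {ξ : JZero M} (h : Lifted S R n x ξ)
    (Q : GoodHecke (M * q)) :
    Lifted S R n (letI := heckeModuleBar (M * q); toHecke Q • x)
      (letI := heckeModuleBar M; toHecke Q • ξ) := by
  induction Q using MvPolynomial.induction_on generalizing x ξ with
  | C a =>
    rw [toHecke, MvPolynomial.rename_C, heckeModuleBar_C_smul, heckeModuleBar_C_smul]
    exact h.zsmul a
  | add P Q hP hQ =>
    rw [toHecke, map_add]
    let := heckeModuleBar (M * q)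
    let := heckeModuleBar M
    rw [add_smul, add_smul]
    exact (hP h).add (hQ h)
  | mul_X P r hP =>
    have : NeZero ((r.1 : Nat.Primes) : ℕ) := ⟨r.1.2.ne_zero⟩
    let := heckeModuleBar (M * q)
    let := heckeModuleBar M
    rw [toHecke, map_mul, MvPolynomial.rename_X, mul_smul, mul_smul,
      show (MvPolynomial.X r.1 : HeckeAlg) = heckeGen r.1 from rfl,
      heckeModuleBar_heckeGen_smul (HeckeJ0.heckeOperatorsCommuteBar (M * q)),
      heckeModuleBar_heckeGen_smul (HeckeJ0.heckeOperatorsCommuteBar M)]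
    exact hP (h.hecke r.1.2 r.2)

/-- A class lifted by zero has a function reducing to an `n`-th power. -/
theorem Lifted.mem_killed (hn : n ≠ 0) {x : JZero (M * q)} (h : Lifted S R n x 0) :
    x ∈ killed S.splitModel 0 n := by
  have := HeckeJ0.isFunctionField_bar (M * q)
  obtain ⟨u, D, hu, hui, hur, hD, hd⟩ := h
  have h0 := (QuotientAddGroup.eq_zero_iff D).mp hD
  simp only [AddSubgroup.mem_addSubgroupOf] at h0
  obtain ⟨g, hg, hgD⟩ := h0
  obtain ⟨c, hc, hci, hcr⟩ := S.model.exists_scale hg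
  have hred : Finsupp.mapDomain R.toFun (D : Divisor Qbar (modularFunctionFieldBar M)) =
      dvs (S.model.red (c • g)) := by
    rw [← R.spec _ hci hcr, dvs_smul hc hg]
    exact congrArg _ (eq_dvs hgD)
  set z := S.splitModel.red 0 u
  set G := S.model.red (c • g)
  obtain ⟨a, ha⟩ := exists_algebraMap_eq_of_forall_ord_nonneg (K := ResidueField A)
    (f := z / G ^ n) fun P => by
      rw [ord_div P hur (pow_ne_zero _ hcr), ord_pow]
      have h1 := congrArg (fun E : Divisor (ResidueField A) _ => E P) hd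
      simp only [dvs_apply, Finsupp.smul_apply, smul_eq_mul, hred] at h1
      omega
  obtain ⟨r, hr⟩ := IsAlgClosed.exists_pow_nat_eq a (Nat.pos_of_ne_zero hn)
  have hz : z = (algebraMap (ResidueField A) _ r * G) ^ n := by
    rw [mul_pow, ← map_pow, hr, ← ha, div_mul_cancel₀ _ (pow_ne_zero _ hcr)]
  refine ⟨u, hu, hu.1, 1, algebraMap (ResidueField A) _ r * G, ?_, by rw [one_smul]; exact hui,
    by rw [one_smul]; exact hz⟩
  intro e
  rw [e, zero_pow hn] at hz
  exact hur hz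

/-- **`T_ℓ - ℓ - 1` brings fixed classes into the lifted ones.** -/
theorem exists_lifted (U : LevelUnit S) (R : S.model.ReductionMap) (hn : n ≠ 0)
    (hcop : ∀ x (hx : x ∈ S.splitModel.pairs), n.Coprime (pairAt U hx).e)
    {x : JZero (M * q)} (hx : n • x = 0) (hfix : ∀ σ ∈ A.inertiaSubgroupIn ℚ, σ • x = x)
    {ℓ : ℕ} [NeZero ℓ] (hℓ : ℓ.Prime) (hℓN : ¬ ℓ ∣ M * q) :
    ∃ ξ, Lifted S R n (heckeOperatorAlong Qbar (M * q) ℓ x - (ℓ + 1) • x) ξ := by
  have hℓM : ¬ ℓ ∣ M := fun h => hℓN (h.mul_right q)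
  have hℓq : ℓ ≠ q := fun h => hℓN (h ▸ dvd_mul_left q M)
  obtain ⟨u, hufix, hu⟩ := exists_fixed_function (stabFixer A x) hn x hx fun σ hσ => hσ.2
  have huF : u ∈ (descent S).F₀ := mem_F₀_of_galois fun σ hσ =>
    hufix σ ⟨hσ, MulAction.mem_stabilizer_iff.mpr (hfix σ hσ)⟩
  obtain ⟨hu0, D, hDx, hDu⟩ := hu
  have hu' : (⟨u, huF⟩ : (descent S).F₀) ≠ 0 := fun e => hu0 (congrArg Subtype.val e)
  obtain ⟨E, V, s, d, hd, hdV, hdec⟩ := exists_decomp U hn hcop hu'
    (D : Divisor Qbar (modularFunctionFieldBar (M * q))) hDu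
  obtain ⟨c, hc, hci, hcr⟩ := exists_scale_gred (S := S) hu'
  set u₁ := c • u
  change S.splitModel.Int 0 u₁ at hci
  change S.splitModel.red 0 u₁ = _ at hcr
  have hz0 : S.splitModel.red 0 u₁ ≠ 0 := by
    rw [hcr]; exact (gred_spec (descent S).glueData hu').2
  rw [← hcr] at hdec
  have hu₁ : IsFunctionOf n x u₁ := isFunctionOf_smul ⟨hu0, D, hDx, hDu⟩ hc
  obtain ⟨ti, t0, tD⟩ := red0_Tfun R hℓ hℓN hci hz0
  obtain ⟨DE, hDE⟩ := exists_lift_divisor R E
  obtain ⟨DV, hDV⟩ := exists_lift_divisor R V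
  have hTV : Finsupp.mapDomain R.toFun (Tdiv M ℓ DV) = ((ℓ : ℤ) + 1) • V := by
    have h1 := red_Tdiv_unitZ U R hℓ hℓM hℓq (D := d • DV)
      (by rw [Finsupp.mapDomain_smul, hDV, hdV])
    rw [map_zsmul, Finsupp.mapDomain_smul, ← hdV, smul_comm] at h1
    refine Finsupp.ext fun P => mul_left_cancel₀ hd ?_
    simpa only [Finsupp.smul_apply, smul_eq_mul] using
      congrArg (fun Z : Divisor (ResidueField A) _ => Z P) h1
  have hTy := tD ((n : ℤ) • DE + s • DV)
    (by rw [hdec, Finsupp.mapDomain_add, Finsupp.mapDomain_smul, Finsupp.mapDomain_smul, hDE, hDV])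
  rw [map_add, map_zsmul, map_zsmul, Finsupp.mapDomain_add, Finsupp.mapDomain_smul,
    Finsupp.mapDomain_smul, hTV] at hTy
  set D₀ := Tdiv M ℓ DE - ((ℓ : ℤ) + 1) • DE with hD₀
  have hdeg : D₀ ∈ Divisor.degZero (K := Qbar) (F := modularFunctionFieldBar M) := by
    rw [Divisor.mem_degZero, hD₀, map_sub, map_zsmul, degree_Tdiv hℓ hℓM, smul_eq_mul, sub_self]
  obtain ⟨pi, pr⟩ : S.splitModel.Int 0 (u₁ ^ (ℓ + 1)) ∧
      S.splitModel.red 0 (u₁ ^ (ℓ + 1)) = S.splitModel.red 0 u₁ ^ (ℓ + 1) :=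
    ⟨S.splitModel.int_pow hci _, S.splitModel.red_pow hci _⟩
  obtain ⟨ii, ir⟩ := S.splitModel.int_inv pi (by rw [pr]; exact pow_ne_zero _ hz0)
  refine ⟨Pic0.mk ⟨D₀, hdeg⟩, Tfun (M * q) ℓ u₁ * (u₁ ^ (ℓ + 1))⁻¹, ⟨D₀, hdeg⟩, ?_,
    S.splitModel.int_mul 0 _ _ ti ii, ?_, rfl, ?_⟩
  · rw [sub_eq_add_neg]
    exact (isFunctionOf_Tfun hu₁).mul (isFunctionOf_pow hu₁ (ℓ + 1)).inv
  · rw [S.splitModel.red_mul 0 _ _ ti ii, ir, pr]
    exact mul_ne_zero t0 (inv_ne_zero (pow_ne_zero _ hz0))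
  · rw [S.splitModel.red_mul 0 _ _ ti ii, ir, pr]
    refine Finsupp.ext fun P => ?_
    have h1 := congrArg (fun Z : Divisor (ResidueField A) _ => Z P) hTy
    have h2 := congrArg (fun Z : Divisor (ResidueField A) _ => Z P) hdec
    simp only [dvs_apply, Finsupp.add_apply, Finsupp.smul_apply, smul_eq_mul] at h1 h2
    rw [dvs_apply, P.ord_mul t0 (inv_ne_zero (pow_ne_zero _ hz0)), P.ord_inv, ord_pow, h1, h2,
      Finsupp.smul_apply, smul_eq_mul]
    simp only [hD₀, Finsupp.mapDomain_sub, Finsupp.mapDomain_smul, hDE, Finsupp.sub_apply,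
      Finsupp.smul_apply, smul_eq_mul]
    push_cast
    ring

end Fermat.Agent.MazurPrinciple

end
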