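import Fermat.Agent.MazurPrinciple.Classes
import Fermat.Agent.ResidualTorsion.Modular
import Fermat.Agent.MWJ0.DivisibleAll

/-!
# Lifting classes of `p`-power order

The class lifting a torsion class may be replaced by one of `p`-power order with the same
reduction, as reduction is bijective on such classes.
-/

set_option autoImplicit false
set_option linter.unusedSectionVars false

noncomputable section

open IsLocalRing ModularCurve AlgebraicCurve Fermat.Agent.Reduction Fermat.Agent.SemistableRed
  Fermat.Agent.FunctionFieldRR Fermat.Agent.LevelP Fermat.Agent.OrdinaryT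

namespace Fermat.Agent.MazurPrinciple

local notation "Qbar" => AlgebraicClosure ℚ

attribute [local instance] HeckeJ0.hasPrincipalDivisors_bar

variable {A : ValuationSubring Qbar} {M q : ℕ} [NeZero M] [NeZero q] [Fact q.Prime]
  [CharP (ResidueField A) q] [IsAlgClosed (ResidueField A)] {S : Setting A M q}
  [IsFunctionField (ResidueField A) (modularFunctionFieldFullC (ResidueField A) M)]
  [HasPrincipalDivisors (ResidueField A) (modularFunctionFieldFullC (ResidueField A) M)]
  [CharP (modularFunctionFieldFullC (ResidueField A) M) q]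

variable (S) in
/-- A reduction map agreeing with the one defining reduction of classes. -/
theorem exists_redMap_modL :
    ∃ (h : ReductionInputsModL A M) (R : S.model.ReductionMap),
      R.toFun = placeReductionModL h := by
  have hF := IgusaGenus.reductionFacts (N := M) S.not_dvd S.above
  have := hF.char0.hasPrincipal
  have := hF.charL.hasPrincipal
  have := S.model.isFunctionField_bar
  exact ⟨_, reductionMapOfSpec S.model _
    (isPlaceReductionModL_placeReductionModL (reductionInputsModL S.above hF)), rfl⟩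

/-- A lift of `p`-power order. -/
theorem Lifted.exists_torsion {p k : ℕ} (hp : p.Prime) (hpq : p ≠ q)
    {h : ReductionInputsModL A M} {R : S.model.ReductionMap}
    (hR : R.toFun = placeReductionModL h) {x : JZero (M * q)} {ξ : JZero M}
    (hx : Lifted S R (p ^ k) x ξ) :
    ∃ ξ' : JZero M, p ^ k • ξ' = 0 ∧ Lifted S R (p ^ k) x ξ' := by
  obtain ⟨u, D, hu, hui, hur, rfl, hd⟩ := hx
  set n := p ^ k with hn
  have hn0 : n ≠ 0 := pow_ne_zero _ hp.ne_zero
  have hred : n • reductionModL A M (Pic0.mk D) = 0 := by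
    rw [reductionModL_mk h]
    refine (QuotientAddGroup.eq_zero_iff _).mpr ?_
    simp only [AddSubgroup.mem_addSubgroupOf]
    refine ⟨S.splitModel.red 0 u, hur, fun P => ?_⟩
    rw [AddSubgroup.coe_nsmul, coe_reductionDegZeroAlong, ← hR, ← dvs_apply, hd,
      ← natCast_zsmul]
  obtain ⟨ξ', hξ', he⟩ := (ResidualTorsion.reductionModL_bijOn S.not_dvd S.above hp hpq
    (fun x => MWJ0.jZero_divisible M hp.ne_zero x) k).surjOn hred
  obtain ⟨D', rfl⟩ := Pic0.mk_surjective ξ'
  refine ⟨_, hξ', ?_⟩
  rw [reductionModL_mk h, reductionModL_mk h] at he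
  have h1 := (QuotientAddGroup.eq).mp he.symm
  simp only [AddSubgroup.mem_addSubgroupOf] at h1
  obtain ⟨g, hg, hgD⟩ := h1
  obtain ⟨F, hF⟩ := S.splitModel.exists_lift ![g, 1]
  have hFi := (hF 0).1
  have hFr : S.splitModel.red 0 F = g := (hF 0).2
  have hF0 : F ≠ 0 := S.splitModel.ne_zero_of_red_ne (i := 0) (by rw [hFr]; exact hg)
  have hFn : IsFunctionOf n (0 : JZero (M * q)) (F ^ n) := by
    refine ⟨pow_ne_zero _ hF0, ⟨dvs F, Divisor.mem_degZero.mpr (degree_dvs F)⟩,
      (QuotientAddGroup.eq_zero_iff _).mpr ?_, fun P => by rw [ord_pow, dvs_apply]⟩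
    simp only [AddSubgroup.mem_addSubgroupOf]
    exact ⟨F, hF0, fun P => dvs_apply F P⟩
  obtain ⟨pi, pr⟩ : S.splitModel.Int 0 (F ^ n) ∧ S.splitModel.red 0 (F ^ n) = g ^ n :=
    ⟨S.splitModel.int_pow hFi _, by rw [S.splitModel.red_pow hFi, hFr]⟩
  refine ⟨u * F ^ n, D', by simpa using hu.mul hFn, S.splitModel.int_mul 0 _ _ hui pi, ?_, rfl, ?_⟩
  · rw [S.splitModel.red_mul 0 _ _ hui pi, pr]
    exact mul_ne_zero hur (pow_ne_zero _ hg)
  · rw [S.splitModel.red_mul 0 _ _ hui pi, pr, dvs_mul hur (pow_ne_zero _ hg), hd, dvs_pow,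
      ← natCast_zsmul, ← smul_add]
    congr 1
    refine Finsupp.ext fun P => ?_
    have h2 := hgD P
    simp only [AddSubgroup.coe_add, NegMemClass.coe_neg, coe_reductionDegZeroAlong,
      Finsupp.add_apply, Finsupp.neg_apply, ← hR] at h2
    rw [Finsupp.add_apply, dvs_apply, ← h2]
    ring

end Fermat.Agent.MazurPrinciple

end
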