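import Fermat.Agent.LevelP.DVPointLemmas
import Mathlib.RingTheory.Valuation.ValuationSubring
import Mathlib.RingTheory.IntegralClosure.IntegrallyClosed

import Mathlib.RingTheory.Valuation.LocalSubring

/-!
# The two invariants of a function on a branch

`gv i f` is the valuation of `f` on the component `i` and `gred i f` the reduction of `f` divided
by that power of `p`. An element integral over a ring regular at a point of the component has
non-negative invariants.
-/

set_option autoImplicit false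

noncomputable section

namespace Fermat.Agent.MazurPrinciple

open Fermat.Agent.LevelP

variable {p : ℕ} [Fact p.Prime] {F : Type*} [Field F] {k G : Type*} [Field k] [Field G] [Algebra k G]
  (D : GlueData p F k G)

theorem redF_natCast (i : Fin 2) : D.redF i (p : F) = 0 := by
  rw [D.redF_of_mem (natCast_mem _ p)]
  exact (D.red_eq_zero i _).mpr ⟨1, one_mem _, (mul_one _).symm⟩

/-- A power of `p` times a non-vanishing element is a normal form. -/
theorem normal_unique (hp : (p : F) ≠ 0) {i : Fin 2} {z z' : F} (hz : z ∈ D.Int i)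
    (hz' : z' ∈ D.Int i) (hr : D.redF i z ≠ 0) (hr' : D.redF i z' ≠ 0) {m m' : ℤ}
    (h : z * (p : F) ^ m = z' * (p : F) ^ m') : m = m' := by
  suffices key : ∀ (z z' : F), z ∈ D.Int i → z' ∈ D.Int i → D.redF i z' ≠ 0 → ∀ m m' : ℤ,
      z * (p : F) ^ m = z' * (p : F) ^ m' → m ≤ m' by
    exact le_antisymm (key z z' hz hz' hr' m m' h) (key z' z hz' hz hr m' m h.symm)
  intro z z' hz hz' hr' m m' h
  by_contra hlt
  obtain ⟨d, hd⟩ := Int.eq_ofNat_of_zero_le (show 0 ≤ m - m' - 1 by omega)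
  refine hr' ?_
  have h1 : z' = (p : F) * ((p : F) ^ d * z) := by
    refine mul_right_cancel₀ (zpow_ne_zero m' hp) ?_
    rw [← h, show m = ((d + 1 : ℕ) : ℤ) + m' by omega, zpow_add₀ hp, zpow_natCast]
    ring
  have hm : (p : F) ^ d * z ∈ D.Int i := mul_mem (pow_mem (natCast_mem _ p) _) hz
  rw [h1, D.redF_mul (natCast_mem _ p) hm, redF_natCast, zero_mul]

/-- The valuation on the component `i` (`0` at `0`). -/
def gv (i : Fin 2) (f : F) : ℤ :=
  open Classical in if h : f = 0 then 0 else -(D.normalise i f h).choose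

/-- The reduction of the normalised function. -/
def gred (i : Fin 2) (f : F) : G := D.redF i (f * (p : F) ^ (-gv D i f))

theorem gred_spec {i : Fin 2} {f : F} (hf : f ≠ 0) :
    f * (p : F) ^ (-gv D i f) ∈ D.Int i ∧ gred D i f ≠ 0 := by
  obtain ⟨h, h'⟩ := (D.normalise i f hf).choose_spec
  have hm : f * (p : F) ^ (-gv D i f) ∈ D.Int i := by rw [gv, dif_neg hf, neg_neg]; exact h
  refine ⟨hm, ?_⟩
  rw [gred, D.redF_of_mem hm]
  convert h' using 3
  simp only [gv, dif_neg hf, neg_neg]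

variable (hp : (p : F) ≠ 0)
include hp

theorem gv_eq {i : Fin 2} {f z : F} (hz : z ∈ D.Int i) (hr : D.redF i z ≠ 0) {m : ℤ}
    (h : f = z * (p : F) ^ m) : gv D i f = m ∧ gred D i f = D.redF i z := by
  have hz0 : z ≠ 0 := fun h0 => hr (by rw [h0, D.redF_zero])
  have hf : f ≠ 0 := h ▸ mul_ne_zero hz0 (zpow_ne_zero _ hp)
  obtain ⟨h1, h2⟩ := gred_spec D (i := i) hf
  have hm : gv D i f = m := by
    refine normal_unique D hp h1 hz h2 hr ?_
    rw [mul_assoc, ← zpow_add₀ hp, neg_add_cancel, zpow_zero, mul_one]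
    exact h
  refine ⟨hm, ?_⟩
  rw [gred, hm, h, mul_assoc, ← zpow_add₀ hp, add_neg_cancel, zpow_zero, mul_one]

theorem gv_of_red_ne {i : Fin 2} {f : F} (hz : f ∈ D.Int i) (hr : D.redF i f ≠ 0) :
    gv D i f = 0 ∧ gred D i f = D.redF i f :=
  gv_eq D hp hz hr (by rw [zpow_zero, mul_one])

theorem gv_one (i : Fin 2) : gv D i 1 = 0 ∧ gred D i 1 = 1 := by
  have h : D.redF i (1 : F) ≠ 0 := by rw [D.redF_one]; exact one_ne_zero
  obtain ⟨h1, h2⟩ := gv_of_red_ne D hp (one_mem _) h
  exact ⟨h1, h2.trans (D.redF_one i)⟩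

theorem gv_natCast (i : Fin 2) : gv D i (p : F) = 1 ∧ gred D i (p : F) = 1 := by
  have h : D.redF i (1 : F) ≠ 0 := by rw [D.redF_one]; exact one_ne_zero
  obtain ⟨h1, h2⟩ := gv_eq D hp (i := i) (f := (p : F)) (m := 1) (one_mem _) h
    (by rw [zpow_one, one_mul])
  exact ⟨h1, h2.trans (D.redF_one i)⟩

theorem gv_mul {i : Fin 2} {f g : F} (hf : f ≠ 0) (hg : g ≠ 0) :
    gv D i (f * g) = gv D i f + gv D i g ∧ gred D i (f * g) = gred D i f * gred D i g := by
  obtain ⟨h1, h2⟩ := gred_spec D (i := i) hf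
  obtain ⟨h3, h4⟩ := gred_spec D (i := i) hg
  have h5 := D.redF_mul h1 h3
  obtain ⟨e1, e2⟩ := gv_eq D hp (i := i) (f := f * g) (mul_mem h1 h3)
    (by rw [h5]; exact mul_ne_zero h2 h4) (m := gv D i f + gv D i g) (by
      rw [zpow_add₀ hp, zpow_neg, zpow_neg]
      have := zpow_ne_zero (gv D i f) hp
      have := zpow_ne_zero (gv D i g) hp
      field_simp)
  exact ⟨e1, e2.trans h5⟩

theorem gv_inv {i : Fin 2} {f : F} (hf : f ≠ 0) :
    gv D i f⁻¹ = -gv D i f ∧ gred D i f⁻¹ = (gred D i f)⁻¹ := by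
  obtain ⟨h1, h2⟩ := gv_mul D hp (i := i) hf (inv_ne_zero hf)
  rw [mul_inv_cancel₀ hf, (gv_one D hp i).1] at h1
  rw [mul_inv_cancel₀ hf, (gv_one D hp i).2] at h2
  exact ⟨by omega, eq_inv_of_mul_eq_one_right h2.symm⟩

theorem gv_pow {i : Fin 2} {f : F} (hf : f ≠ 0) (m : ℕ) :
    gv D i (f ^ m) = m * gv D i f ∧ gred D i (f ^ m) = gred D i f ^ m := by
  induction m with
  | zero => simpa using gv_one D hp i
  | succ m ih =>
    rw [pow_succ]
    obtain ⟨h1, h2⟩ := gv_mul D hp (i := i) (pow_ne_zero m hf) hf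
    refine ⟨by rw [h1, ih.1]; push_cast; ring, by rw [h2, ih.2, pow_succ]⟩

theorem gv_nonneg_iff {i : Fin 2} {f : F} (hf : f ≠ 0) : f ∈ D.Int i ↔ 0 ≤ gv D i f := by
  obtain ⟨h1, h2⟩ := gred_spec D (i := i) hf
  have hf' : f = f * (p : F) ^ (-gv D i f) * (p : F) ^ gv D i f := by
    rw [mul_assoc, ← zpow_add₀ hp, neg_add_cancel, zpow_zero, mul_one]
  refine ⟨fun hmem => ?_, fun h => ?_⟩
  · by_contra hneg
    obtain ⟨d, hd⟩ := Int.eq_ofNat_of_zero_le (show 0 ≤ -gv D i f - 1 by omega)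
    refine h2 ?_
    have he : f * (p : F) ^ (-gv D i f) = (p : F) * ((p : F) ^ d * f) := by
      rw [show -gv D i f = ((d + 1 : ℕ) : ℤ) by omega, zpow_natCast]; ring
    rw [gred, he, D.redF_mul (natCast_mem _ p) (mul_mem (pow_mem (natCast_mem _ p) _) hmem),
      redF_natCast, zero_mul]
  · obtain ⟨d, hd⟩ := Int.eq_ofNat_of_zero_le h
    rw [hf']
    exact mul_mem h1 (by rw [hd, zpow_natCast]; exact pow_mem (natCast_mem _ p) d)

/-- The valuation ring of the component `i`. -/
def intVal (i : Fin 2) : ValuationSubring F where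
  toSubring := D.Int i
  mem_or_inv_mem' f := by
    by_cases hf : f = 0
    · exact Or.inl (by rw [hf]; exact zero_mem (D.Int i))
    rcases le_total 0 (gv D i f) with h | h
    · exact Or.inl ((gv_nonneg_iff D hp hf).mpr h)
    · refine Or.inr ((gv_nonneg_iff D hp (inv_ne_zero hf)).mpr ?_)
      rw [(gv_inv D hp hf).1]; omega

omit hp in
/-- The place ring of a point. -/
def ptVal (P : DVPoint k G) : ValuationSubring G where
  toSubring := P.O
  mem_or_inv_mem' g := by
    by_cases hg : g = 0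
    · exact Or.inl (by rw [hg]; exact zero_mem P.O)
    rcases le_total 0 (P.ord g) with h | h
    · exact Or.inl ((P.mem_iff hg).mpr h)
    · refine Or.inr ((P.mem_iff (inv_ne_zero hg)).mpr ?_)
      rw [P.ord_inv hg]; omega

/-- The order at `P` of the normalised reduction. -/
def go (P : DVPoint k G) (i : Fin 2) (f : F) : ℤ := P.ord (gred D i f)

theorem go_mul (P : DVPoint k G) {i : Fin 2} {f g : F} (hf : f ≠ 0) (hg : g ≠ 0) :
    go D P i (f * g) = go D P i f + go D P i g := by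
  rw [go, (gv_mul D hp hf hg).2]
  exact P.ord_mul (gred_spec D hf).2 (gred_spec D hg).2

theorem go_pow (P : DVPoint k G) {i : Fin 2} {f : F} (hf : f ≠ 0) (m : ℕ) :
    go D P i (f ^ m) = m * go D P i f := by
  rw [go, (gv_pow D hp hf m).2]
  exact P.ord_pow (gred_spec D hf).2 m

theorem go_natCast (P : DVPoint k G) (i : Fin 2) : go D P i (p : F) = 0 := by
  rw [go, (gv_natCast D hp i).2]
  exact DVPoint.ord_eq (z := 1) ⟨one_mem _, by rw [P.evF_one]; exact one_ne_zero⟩ (by simp)

theorem go_inv (P : DVPoint k G) {i : Fin 2} {f : F} (hf : f ≠ 0) :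
    go D P i f⁻¹ = -go D P i f := by
  rw [go, (gv_inv D hp hf).2]
  exact P.ord_inv (gred_spec D hf).2

/-- Elements integral over a subring regular at `P` have non-negative invariants. -/
theorem nonneg_of_isIntegral {A : Subring F} {P : DVPoint k G} {i : Fin 2} (hA : A ≤ D.Int i)
    (hreg : ∀ f ∈ A, D.redF i f ∈ P.O) {x : F} (hx0 : x ≠ 0) (hx : IsIntegral A x) :
    0 ≤ gv D i x ∧ (gv D i x = 0 → 0 ≤ go D P i x) := by
  obtain ⟨f, hfm, hf⟩ := hx
  let ιA : A →+* intVal D hp i := Subring.inclusion hA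
  have hxV : x ∈ intVal D hp i := by
    have hint : IsIntegral (intVal D hp i) x := by
      refine ⟨f.map ιA, hfm.map _, ?_⟩
      rw [Polynomial.eval₂_map, ← hf]
      rfl
    obtain ⟨y, hy⟩ := IsIntegrallyClosed.isIntegral_iff.mp hint
    exact hy ▸ y.2
  refine ⟨(gv_nonneg_iff D hp hx0).mp hxV, fun h0 => ?_⟩
  have hgr : gred D i x = D.redF i x := by rw [gred, h0, neg_zero, zpow_zero, mul_one]
  let ρA : A →+* ptVal P := ((D.red i).comp ιA).codRestrict P.O fun a => by
    have := hreg a a.2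
    rw [D.redF_of_mem (hA a.2)] at this
    exact this
  have hint : IsIntegral (ptVal P) (D.redF i x) := by
    refine ⟨f.map ρA, hfm.map _, ?_⟩
    rw [Polynomial.eval₂_map, D.redF_of_mem hxV]
    have h1 : Polynomial.eval₂ ιA (⟨x, hxV⟩ : intVal D hp i) f = 0 := Subtype.ext (by
      have h2 := Polynomial.hom_eval₂ f ιA (intVal D hp i).toSubring.subtype ⟨x, hxV⟩
      exact h2.trans hf)
    have h3 := Polynomial.hom_eval₂ f ιA (D.red i) ⟨x, hxV⟩
    rw [h1] at h3
    exact (h3.symm.trans (D.red i).map_zero)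
  obtain ⟨y, hy⟩ := IsIntegrallyClosed.isIntegral_iff.mp hint
  have hr : gred D i x ≠ 0 := (gred_spec D hx0).2
  rw [go]
  refine (P.mem_iff hr).mp ?_
  rw [hgr, ← hy]
  exact y.2

end Fermat.Agent.MazurPrinciple

end
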