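import Fermat.Agent.MazurPrinciple.Horizontal

/-!
# Factorisation of a function with divisible horizontal multiplicities
-/

set_option autoImplicit false

noncomputable section

namespace Fermat.Agent.MazurPrinciple

open IsLocalRing Fermat.Agent.LevelP

variable {K : Type*} [Field K] {R : Subring K} {F : Type*} [Field F] (ι : F →+* K)
  {A : Subring F}

/-- In a local ring with maximal ideal `(s, t)`, `t` not nilpotent modulo `s`, an element which
has an `n`-th power as horizontal part is `s ^ i * t ^ j * H ^ n` times a unit. -/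
theorem exists_factorisation [IsNoetherianRing R] [IsLocalRing R] {s t : R}
    (hm : maximalIdeal R = Ideal.span {s, t}) (hnil : ∀ N : ℕ, t ^ N ∉ Ideal.span {s})
    (hs0 : s ≠ 0) (ht : Irreducible t)
    (hfr : ∀ x : K, ∃ g h : R, h ≠ 0 ∧ x * (h : K) = g) (hA : ∀ x ∈ A, ι x ∈ R)
    {p n : ℕ} (hn : 0 < n) (hhor : ∀ ϖ : R, Prime ϖ → ¬ Associated ϖ s → ¬ Associated ϖ t →
      ¬ ϖ ∣ (p : R))
    {u h0 : F} (hu : u ≠ 0) (hh0 : h0 ≠ 0) (hpow : HorizPow A p n u) {z : R}
    (hz : (z : K) = ι (u * h0 ^ n)) :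
    ∃ (i j : ℕ) (H : R) (U : Rˣ), z = s ^ i * t ^ j * H ^ n * U ∧
      (¬ t ∣ (p : R) → n ∣ j) := by
  obtain ⟨hprime, hpid⟩ := isPrime_and_pid_of_not_nilpotent hm hnil
  have hsm : s ∈ maximalIdeal R := hm ▸ Ideal.subset_span (by simp)
  have : UniqueFactorizationMonoid R :=
    uniqueFactorizationMonoid_of_pid_quotient hs0 hsm hprime hpid
  have hs : Prime s := (Ideal.span_singleton_prime hs0).mp hprime
  have ht' : Prime t := UniqueFactorizationMonoid.irreducible_iff_prime.mp ht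
  have hst : ¬ t ∣ s := fun hd => by
    have ha := (ht'.dvd_prime_iff_associated hs).mp hd
    exact hnil 1 (by rw [pow_one, Ideal.mem_span_singleton]; exact ha.symm.dvd)
  have hz0 : z ≠ 0 := fun h => by
    rw [h] at hz
    exact (map_ne_zero ι).mpr (mul_ne_zero hu (pow_ne_zero _ hh0)) hz.symm
  have hdiv : DivisibleAway s t n z := by
    intro ϖ hϖ h1 h2 k hk hk1
    obtain ⟨z', rfl⟩ := hk
    exact dvd_multiplicity hϖ ι hfr hA (hhor ϖ hϖ h1 h2) hu hpow hh0 hz
      (fun hd => hk1 (by obtain ⟨w, rfl⟩ := hd; exact ⟨w, by rw [pow_succ]; ring⟩)) rfl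
  obtain ⟨i, j, H, U, hzf, -, htH⟩ := exists_eq_mul_pow hs ht' hn z hz0 hdiv
  refine ⟨i, j, H, U, hzf, fun htp => ?_⟩
  refine dvd_multiplicity ht' ι hfr hA htp hu hpow hh0 hz (z' := s ^ i * H ^ n * U)
    (fun hd => ?_) (by rw [hzf]; ring)
  rcases ht'.dvd_or_dvd hd with hd | hd
  · rcases ht'.dvd_or_dvd hd with hd | hd
    · exact hst (ht'.dvd_of_dvd_pow hd)
    · exact htH (ht'.dvd_of_dvd_pow hd)
  · exact ht'.not_isUnit (isUnit_of_dvd_unit hd U.isUnit)

end Fermat.Agent.MazurPrinciple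

end
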