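import Fermat.Agent.MazurPrinciple.HeckeSeries
import Fermat.Agent.XHLite.Glue.Supersingular

/-!
# `T_ℓ` multiplies the exponent of the series of `Δ` by `ℓ + 1`

For a primitive `ℓ`th root of unity `ζ` one has
`∏_b P(ζ ^ b t) · P(t ^ (ℓ ^ 2)) = P(t ^ ℓ) ^ (ℓ + 1)` for `P = ∏ (1 - t ^ n)`.
-/

set_option autoImplicit false
set_option linter.unusedSectionVars false

noncomputable section

open ModularCurve PowerSeries Filter

namespace Fermat.Agent.MazurPrinciple

variable {k : Type*} [CommRing k]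

/-- Coefficientwise eventual equality. -/
def EtaApprox (s : ℕ → k⟦X⟧) (F : k⟦X⟧) : Prop :=
  ∀ d, ∀ᶠ N in atTop, ∀ i ≤ d, coeff i (s N) = coeff i F

namespace EtaApprox

variable {s t : ℕ → k⟦X⟧} {F G : k⟦X⟧}

theorem const (F : k⟦X⟧) : EtaApprox (fun _ => F) F := fun _ => .of_forall fun _ _ _ => rfl

theorem mul (h : EtaApprox s F) (h' : EtaApprox t G) :
    EtaApprox (fun N => s N * t N) (F * G) := fun d =>
  ((h d).and (h' d)).mono fun N hN i hi => by
    rw [coeff_mul, coeff_mul]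
    refine Finset.sum_congr rfl fun x hx => ?_
    rw [Finset.HasAntidiagonal.mem_antidiagonal] at hx
    rw [hN.1 _ (by omega), hN.2 _ (by omega)]

theorem prod {ι : Type*} (u : Finset ι) {s : ι → ℕ → k⟦X⟧} {F : ι → k⟦X⟧}
    (h : ∀ i ∈ u, EtaApprox (s i) (F i)) :
    EtaApprox (fun N => ∏ i ∈ u, s i N) (∏ i ∈ u, F i) := by
  classical
  induction u using Finset.induction with
  | empty => simpa using const (1 : k⟦X⟧)
  | insert j u hj ih =>
    simp only [Finset.prod_insert hj]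
    exact (h j (Finset.mem_insert_self j u)).mul (ih fun a ha => h a (Finset.mem_insert_of_mem ha))

theorem pow (h : EtaApprox s F) (n : ℕ) : EtaApprox (fun N => s N ^ n) (F ^ n) := by
  simpa [Finset.prod_const] using prod (Finset.range n) (s := fun _ => s) (F := fun _ => F)
    fun _ _ => h

theorem rescale (a : k) (h : EtaApprox s F) :
    EtaApprox (fun N => PowerSeries.rescale a (s N)) (PowerSeries.rescale a F) := fun d =>
  (h d).mono fun N hN i hi => by rw [coeff_rescale, coeff_rescale, hN i hi]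

theorem expand {p : ℕ} (hp : p ≠ 0) (h : EtaApprox s F) :
    EtaApprox (fun N => PowerSeries.expand p hp (s N)) (PowerSeries.expand p hp F) := fun d =>
  (h d).mono fun N hN i hi => by
    rw [coeff_expand, coeff_expand]
    split
    · exact hN _ ((Nat.div_le_self i p).trans hi)
    · rfl

theorem unique (h : EtaApprox s F) (h' : EtaApprox s G) : F = G := by
  ext d
  obtain ⟨N, h1, h2⟩ := ((h d).and (h' d)).exists
  rw [← h1 d le_rfl, h2 d le_rfl]

theorem comp (h : EtaApprox s F) {g : ℕ → ℕ} (hg : Tendsto g atTop atTop) :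
    EtaApprox (fun N => s (g N)) F := fun d => hg.eventually (h d)

theorem map {R : Type*} [CommRing R] (f : k →+* R) (h : EtaApprox s F) :
    EtaApprox (fun N => (s N).map f) (F.map f) := fun d =>
  (h d).mono fun N hN i hi => by rw [coeff_map, coeff_map, hN i hi]

end EtaApprox

/-- The finite products. -/
def etaPartial (k : Type*) [CommRing k] (N : ℕ) : k⟦X⟧ :=
  ∏ i ∈ Finset.range N, (1 - X ^ (i + 1))

theorem etaApprox_etaProd :
    EtaApprox (etaPartial k) (etaProd.map (Int.castRingHom k)) := by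
  have hZ : EtaApprox (etaPartial ℤ) etaProd := by
    open scoped PowerSeries.WithPiTopology in
    have h := (PowerSeries.WithPiTopology.multipliable_one_sub_X_pow ℤ).hasProd.tendsto_prod_nat
    intro d
    have hi : ∀ i ∈ Finset.range (d + 1), ∀ᶠ N in atTop,
        coeff i (etaPartial ℤ N) = coeff i etaProd := fun i _ => by
      have := (PowerSeries.WithPiTopology.tendsto_iff_coeff_tendsto ℤ _ _ _).mp h i
      rw [nhds_discrete, tendsto_pure] at this
      exact this
    exact ((Filter.eventually_all_finset _).mpr hi).mono fun N hN i hi' =>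
      hN i (Finset.mem_range.mpr (by omega))
  have e : ∀ N, (etaPartial ℤ N).map (Int.castRingHom k) = etaPartial k N := fun N => by
    simp [etaPartial]
  simpa only [e] using hZ.map (Int.castRingHom k)

variable [IsDomain k]

theorem prod_one_sub_zeta {ℓ : ℕ} (hℓ : ℓ.Prime) {ζ : k} (hζ : IsPrimitiveRoot ζ ℓ) (m : ℕ) :
    ∏ b ∈ Finset.range ℓ, PowerSeries.rescale (ζ ^ b) (1 - X ^ m : k⟦X⟧) =
      if ℓ ∣ m then (1 - X ^ m) ^ ℓ else 1 - X ^ (ℓ * m) := by
  have hb : ∀ b, PowerSeries.rescale (ζ ^ b) (1 - X ^ m : k⟦X⟧) = 1 - C ((ζ ^ m) ^ b) * X ^ m :=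
    fun b => by
      rw [map_sub, map_one, map_pow, rescale_X, mul_pow, ← map_pow, ← pow_mul, ← pow_mul,
        Nat.mul_comm b m]
  simp only [hb]
  split_ifs with h
  · obtain ⟨c, rfl⟩ := h
    simp [pow_mul, hζ.pow_eq_one, Finset.prod_const]
  · have := NeZero.mk hℓ.ne_zero
    have hz : IsPrimitiveRoot (C (ζ ^ m) : k⟦X⟧) ℓ :=
      (hζ.pow_of_coprime m ((Nat.Prime.coprime_iff_not_dvd hℓ).mpr h).symm).map_of_injective
        PowerSeries.C_injective
    have h1 := hz.pow_sub_pow_eq_prod_sub_mul 1 (X ^ m : k⟦X⟧) hℓ.pos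
    rw [one_pow, ← pow_mul, Nat.mul_comm] at h1
    rw [h1]
    classical
    refine Finset.prod_bij (fun b _ => (C (ζ ^ m) : k⟦X⟧) ^ b) (fun b hb => ?_)
      (fun a ha b hb e => ?_) (fun z hz' => ?_) (fun b _ => by rw [map_pow])
    · rw [Polynomial.mem_nthRootsFinset hℓ.pos, ← pow_mul, mul_comm, pow_mul, hz.pow_eq_one,
        one_pow]
    · exact hz.pow_inj (Finset.mem_range.mp ha) (Finset.mem_range.mp hb) e
    · obtain ⟨i, hi, rfl⟩ :=
        hz.eq_pow_of_pow_eq_one ((Polynomial.mem_nthRootsFinset hℓ.pos 1).mp hz')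
      exact ⟨i, Finset.mem_range.mpr hi, rfl⟩

/-- The identity for the finite products. -/
theorem etaPartial_identity {ℓ : ℕ} (hℓ : ℓ.Prime) {ζ : k} (hζ : IsPrimitiveRoot ζ ℓ) (N : ℕ) :
    (∏ b ∈ Finset.range ℓ, PowerSeries.rescale (ζ ^ b) (etaPartial k (ℓ * N))) *
        expand (ℓ * ℓ) (mul_ne_zero hℓ.ne_zero hℓ.ne_zero) (etaPartial k N) =
      expand ℓ hℓ.ne_zero (etaPartial k (ℓ * N)) *
        expand ℓ hℓ.ne_zero (etaPartial k N) ^ ℓ := by
  simp only [etaPartial, map_prod]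
  rw [Finset.prod_comm]
  simp only [prod_one_sub_zeta hℓ hζ]
  simp only [map_sub, map_one, map_pow, expand_X, ← pow_mul]
  classical
  set U := Finset.range (ℓ * N)
  set D := U.filter fun i => ℓ ∣ i + 1 with hD
  have hinj : ∀ (g : ℕ → k⟦X⟧), ∏ i ∈ D, g (i + 1) = ∏ j ∈ Finset.range N, g (ℓ * (j + 1)) := by
    intro g
    refine (Finset.prod_bij (fun j _ => ℓ * (j + 1) - 1) (fun j hj => ?_)
      (fun a _ b _ e => ?_) (fun i hi => ?_) (fun j _ => ?_)).symm
    · have := Nat.mul_le_mul_left ℓ (Finset.mem_range.mp hj)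
      have := Nat.mul_pos hℓ.pos (Nat.succ_pos j)
      simp only [Nat.succ_eq_add_one] at *
      rw [hD, Finset.mem_filter, Finset.mem_range, show ℓ * (j + 1) - 1 + 1 = ℓ * (j + 1) by omega]
      exact ⟨by omega, dvd_mul_right _ _⟩
    · have ha := Nat.mul_pos hℓ.pos (Nat.succ_pos a)
      have hb := Nat.mul_pos hℓ.pos (Nat.succ_pos b)
      simp only [Nat.succ_eq_add_one] at ha hb
      have : ℓ * (a + 1) = ℓ * (b + 1) := by omega
      simpa using Nat.eq_of_mul_eq_mul_left hℓ.pos this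
    · rw [hD, Finset.mem_filter, Finset.mem_range] at hi
      obtain ⟨hlt, c, hc⟩ := hi
      have hc0 : c ≠ 0 := fun e => by rw [e, Nat.mul_zero] at hc; omega
      refine ⟨c - 1, Finset.mem_range.mpr ?_, by rw [Nat.sub_add_cancel (by omega), ← hc]; rfl⟩
      have : ℓ * c ≤ ℓ * N := by omega
      have := Nat.le_of_mul_le_mul_left this hℓ.pos
      omega
    · have := Nat.mul_pos hℓ.pos (Nat.succ_pos j)
      simp only [Nat.succ_eq_add_one] at this
      rw [show ℓ * (j + 1) - 1 + 1 = ℓ * (j + 1) by omega]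
  rw [Finset.prod_ite, ← hD, ← Finset.prod_filter_mul_prod_filter_not U (fun i => ℓ ∣ i + 1)
    (fun i => (1 - X ^ (ℓ * (i + 1)) : k⟦X⟧)), ← hD,
    hinj (fun m => (1 - X ^ m : k⟦X⟧) ^ ℓ), hinj (fun m => (1 - X ^ (ℓ * m) : k⟦X⟧)),
    Finset.prod_pow]
  simp only [Nat.mul_assoc]
  ring

/-- **The product identity.** -/
theorem etaProd_identity {ℓ : ℕ} (hℓ : ℓ.Prime) {ζ : k} (hζ : IsPrimitiveRoot ζ ℓ) :
    (∏ b ∈ Finset.range ℓ, PowerSeries.rescale (ζ ^ b) (etaProd.map (Int.castRingHom k))) *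
        expand (ℓ * ℓ) (mul_ne_zero hℓ.ne_zero hℓ.ne_zero) (etaProd.map (Int.castRingHom k)) =
      expand ℓ hℓ.ne_zero (etaProd.map (Int.castRingHom k)) ^ (ℓ + 1) := by
  have h := etaApprox_etaProd (k := k)
  have hm : Tendsto (fun N => ℓ * N) atTop atTop :=
    Tendsto.const_mul_atTop' hℓ.pos tendsto_id
  have h1 := (EtaApprox.prod (Finset.range ℓ)
    fun b _ => (h.comp hm).rescale (ζ ^ b)).mul
    (h.expand (mul_ne_zero hℓ.ne_zero hℓ.ne_zero))
  have h2 := ((h.comp hm).expand hℓ.ne_zero).mul ((h.expand hℓ.ne_zero).pow ℓ)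
  simp only [etaPartial_identity hℓ hζ] at h1
  rw [h1.unique h2, pow_succ']

section Laurent

variable {F : Type*} [Field F] {ℓ : ℕ} [NeZero ℓ]

theorem twist_ofPowerSeries (ζ : Fˣ) (P : F⟦X⟧) :
    Congruence.twist ζ (HahnSeries.ofPowerSeries ℤ F P) =
      HahnSeries.ofPowerSeries ℤ F (PowerSeries.rescale (ζ : F) P) := by
  ext n
  rw [Congruence.twist_coeff]
  rcases le_or_gt 0 n with h | h
  · lift n to ℕ using h
    rw [HahnSeries.ofPowerSeries_apply_coeff, HahnSeries.ofPowerSeries_apply_coeff, coeff_rescale,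
      zpow_natCast, Units.val_pow_eq_pow_val]
  · rw [ofPowerSeries_coeff_of_neg _ h, ofPowerSeries_coeff_of_neg _ h, mul_zero]

theorem qExpand_ofPowerSeries' (p : ℕ) [NeZero p] (P : F⟦X⟧) :
    qExpand F p (HahnSeries.ofPowerSeries ℤ F P) =
      HahnSeries.ofPowerSeries ℤ F (PowerSeries.expand p (NeZero.ne p) P) := by
  ext n
  by_cases hd : (p : ℤ) ∣ n
  · obtain ⟨j, rfl⟩ := hd
    rw [qExpand_coeff_mul]
    rcases le_or_gt 0 j with h | h
    · lift j to ℕ using h
      rw [← Nat.cast_mul, HahnSeries.ofPowerSeries_apply_coeff,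
        HahnSeries.ofPowerSeries_apply_coeff, coeff_expand_mul]
    · rw [ofPowerSeries_coeff_of_neg _ h, ofPowerSeries_coeff_of_neg _
        (mul_neg_of_pos_of_neg (by exact_mod_cast NeZero.pos p) h)]
  · rw [qExpand_coeff_of_not_dvd p _ hd]
    rcases le_or_gt 0 n with h | h
    · lift n to ℕ using h
      rw [HahnSeries.ofPowerSeries_apply_coeff]
      exact (coeff_expand_of_not_dvd p (NeZero.ne p) P
        (fun e => hd (Int.natCast_dvd_natCast.mpr e))).symm
    · rw [ofPowerSeries_coeff_of_neg _ h]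

/-- `T_ℓ` on the series of `Δ`. -/
theorem TSer_deltaUnit (hℓ : ℓ.Prime) {ζ : Fˣ} (hζ : IsPrimitiveRoot (ζ : F) ℓ) :
    TSer ℓ ζ (coeffMap (Int.castRingHom F) (XHLite.deltaUnit : LaurentSeries ℤ)) =
      algebraMap F (LaurentSeries F) (∏ b ∈ Finset.range ℓ, (ζ : F) ^ b) *
        qExpand F ℓ (coeffMap (Int.castRingHom F)
          (XHLite.deltaUnit : LaurentSeries ℤ)) ^ (ℓ + 1) := by
  set P := etaProd.map (Int.castRingHom F) with hP
  have hδ : coeffMap (Int.castRingHom F) (XHLite.deltaUnit : LaurentSeries ℤ) =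
      HahnSeries.single 1 1 * HahnSeries.ofPowerSeries ℤ F (P ^ 24) := by
    rw [XHLite.coe_deltaUnit, map_mul, coeffMap_single, map_one, coeffMap_ofPowerSeries,
      dedekindEtaUnit, map_pow]
  have ht : ∀ (c : Fˣ), Congruence.twist c (HahnSeries.single (1 : ℤ) (1 : F)) =
      algebraMap F (LaurentSeries F) (c : F) * HahnSeries.single 1 1 := by
    intro c
    ext n
    rw [Congruence.twist_coeff, algebraMap_laurentSeries_eq_single,
      HahnSeries.single_mul_single, zero_add, mul_one]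
    rcases eq_or_ne n 1 with rfl | hn
    · simp
    · simp [HahnSeries.coeff_single_of_ne hn]
  have hid := congrArg (fun Z : F⟦X⟧ => HahnSeries.ofPowerSeries ℤ F (Z ^ 24))
    (etaProd_identity (k := F) hℓ hζ)
  simp only [mul_pow, ← Finset.prod_pow, map_mul, map_prod, map_pow, ← pow_mul] at hid
  rw [TSer, hδ, Fin.prod_univ_eq_prod_range
    (fun b => Congruence.twist (ζ ^ b) (HahnSeries.single 1 1 *
      HahnSeries.ofPowerSeries ℤ F (P ^ 24))) ℓ]
  simp only [map_mul, ht, twist_ofPowerSeries, Units.val_pow_eq_pow_val, Finset.prod_mul_distrib,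
    qExpand_single, qExpand_ofPowerSeries', Finset.prod_const, Finset.card_range, map_prod]
  have hee : expand ℓ (NeZero.ne ℓ) (expand ℓ (NeZero.ne ℓ) (P ^ 24)) =
      expand (ℓ * ℓ) (mul_ne_zero hℓ.ne_zero hℓ.ne_zero) (P ^ 24) := by
    rw [expand_mul]
  rw [hee]
  calc _ = (∏ x ∈ Finset.range ℓ, algebraMap F (LaurentSeries F) ((ζ : F) ^ x)) *
        ((HahnSeries.single ((ℓ : ℤ) * ((ℓ : ℤ) * 1)) (1 : F) * HahnSeries.single 1 1 ^ ℓ) *
          ((∏ x ∈ Finset.range ℓ, HahnSeries.ofPowerSeries ℤ F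
              (rescale ((ζ : F) ^ x) (P ^ 24))) *
            HahnSeries.ofPowerSeries ℤ F
              (expand (ℓ * ℓ) (mul_ne_zero hℓ.ne_zero hℓ.ne_zero) (P ^ 24)))) := by ring
    _ = _ := by
      simp only [hP, map_pow] at hid ⊢
      rw [hid, mul_pow, ← pow_mul, Nat.mul_comm (ℓ + 1) 24, HahnSeries.single_pow, HahnSeries.single_pow, one_pow,
        one_pow, HahnSeries.single_mul_single, one_mul]
      congr 3
      simp only [nsmul_eq_mul]
      push_cast
      ring

end Laurent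

end Fermat.Agent.MazurPrinciple

end
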