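import Fermat.Agent.MazurPrinciple.TDiv
import Fermat.Agent.MazurPrinciple.EtaNorm
import Fermat.Agent.LevelP.Inst.Unit

/-!
# The divisor of the glued places is Eisenstein

`T_ℓ` multiplies the polar divisor of `j̄` and the divisor of the reduction of `Δ(z)/Δ(q z)` by
`ℓ + 1`, hence also the combination supported at the glued places.
-/

set_option autoImplicit false
set_option linter.unusedSectionVars false

noncomputable section

open IsLocalRing ModularCurve AlgebraicCurve Fermat.Agent.Reduction Fermat.Agent.SemistableRed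
  Fermat.Agent.FunctionFieldRR

namespace Fermat.Agent.MazurPrinciple

local notation "Qbar" => AlgebraicClosure ℚ

attribute [local instance] HeckeJ0.hasPrincipalDivisors_bar

theorem order_twist {F : Type*} [Field F] (c : Fˣ) (x : LaurentSeries F) :
    (Congruence.twist c x).order = x.order := by
  rcases eq_or_ne x 0 with rfl | hx
  · rw [map_zero]
  have hx' : Congruence.twist c x ≠ 0 := (map_ne_zero _).mpr hx
  refine le_antisymm (HahnSeries.order_le_of_coeff_ne_zero ?_)
    (HahnSeries.order_le_of_coeff_ne_zero ?_)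
  · rw [Congruence.twist_coeff]
    exact mul_ne_zero (Units.ne_zero _) (mt HahnSeries.coeff_order_eq_zero.mp hx)
  · intro h0
    have h1 := mt HahnSeries.coeff_order_eq_zero.mp hx'
    rw [Congruence.twist_coeff, h0, mul_zero] at h1
    exact h1 rfl

theorem order_TSer {F : Type*} [Field F] {ℓ : ℕ} [NeZero ℓ] (ζ : Fˣ) {v : LaurentSeries F}
    (hv : v ≠ 0) : (TSer ℓ ζ v).order = ((ℓ : ℤ) * ℓ + ℓ) * v.order := by
  rw [TSer, HahnSeries.order_mul ((map_ne_zero _).mpr ((map_ne_zero _).mpr hv))
    (Finset.prod_ne_zero_iff.mpr fun _ _ => (map_ne_zero _).mpr hv),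
    X0Analytic.order_qExpand ℓ ((map_ne_zero _).mpr hv), X0Analytic.order_qExpand ℓ hv,
    Igusa.order_finset_prod _ _ fun _ _ => (map_ne_zero _).mpr hv]
  simp only [order_twist, Finset.sum_const, Finset.card_univ, Fintype.card_fin, nsmul_eq_mul]
  ring

/-- A field map of `ζ` to a primitive root. -/
theorem isPrimitiveRoot_zbar {A : ValuationSubring Qbar} {ℓ q : ℕ} [NeZero ℓ]
    [CharP (ResidueField A) q] (hq : q.Prime) (hℓ : ℓ.Prime) (hℓq : ℓ ≠ q) :
    IsPrimitiveRoot ((zbar A ℓ : (ResidueField A)ˣ) : ResidueField A) ℓ := by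
  have := Fact.mk hℓ
  have h1 : IsPrimitiveRoot (((exists_zeta A ℓ).choose : A)) ℓ :=
    IsPrimitiveRoot.of_map_of_injective (f := A.subtype) (exists_zeta A ℓ).choose_spec
      Subtype.coe_injective
  have : NeZero (ℓ : ResidueField A) := ⟨fun h => hℓq
    ((Nat.prime_dvd_prime_iff_eq hq hℓ).mp ((CharP.cast_eq_zero_iff _ q ℓ).mp h)).symm⟩
  have h2 : (Polynomial.cyclotomic ℓ (ResidueField A)).IsRoot
      (residue A ((exists_zeta A ℓ).choose : A)) := by
    rw [← Polynomial.map_cyclotomic ℓ (residue A)]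
    exact (h1.isRoot_cyclotomic hℓ.pos).map
  exact Polynomial.isRoot_cyclotomic_iff.mp h2

variable {A : ValuationSubring Qbar} {M q ℓ : ℕ} [NeZero M] [NeZero q] [Fact q.Prime] [NeZero ℓ]
  [CharP (ResidueField A) q] [IsAlgClosed (ResidueField A)] {S : Setting A M q}
  [IsFunctionField (ResidueField A) (modularFunctionFieldFullC (ResidueField A) M)]
  [HasPrincipalDivisors (ResidueField A) (modularFunctionFieldFullC (ResidueField A) M)]

/-- `T_ℓ j` is a rational function of `j` of degree `ℓ + 1`. -/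
theorem ord_Tfun_jBar (hℓ : ℓ.Prime) (hℓM : ¬ ℓ ∣ M)
    (P : Place Qbar (modularFunctionFieldBar M)) (hP : P.ord (jBar M) < 0) :
    P.ord (Tfun M ℓ (jBar M)) = ((ℓ : ℤ) + 1) * P.ord (jBar M) := by
  obtain ⟨z₀, hz₀⟩ := HasEnoughRootsOfUnity.prim (M := Qbar) (n := ℓ)
  set ζ : Qbarˣ := (IsPrimitiveRoot.isUnit hz₀ (NeZero.ne ℓ)).unit
  have key : ∀ (N : ℕ) [NeZero N], ¬ ℓ ∣ N →
      qExpand Qbar ℓ (Tfun N ℓ (jBar N) : LaurentSeries Qbar) = TSer ℓ ζ (jqModC Qbar) := by
    intro N _ hN
    have hlev := levelFacts_of_prime N ℓ hℓ hN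
    obtain ⟨_, _, _, hfin, _, _⟩ := hlev.hecke
    exact Congruence.qExpand_normAlpha Qbar N ℓ hlev.swap hℓ.one_lt hfin hlev.degree ζ hz₀ (jBar N)
  have h1 := key 1 hℓ.not_dvd_one
  have hM := key M hℓM
  have he : (Tfun M ℓ (jBar M) : LaurentSeries Qbar) = Tfun 1 ℓ (jBar 1) :=
    qExpand_injective (R := Qbar) ℓ (hM.trans h1.symm)
  have hjne : (jqModC Qbar) ≠ 0 := jqModC_ne_zero_of_nontrivial Qbar
  have hord : (Tfun M ℓ (jBar M) : LaurentSeries Qbar).order = -((ℓ : ℤ) + 1) := by
    have hne : (Tfun M ℓ (jBar M) : LaurentSeries Qbar) ≠ 0 := fun h => by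
      rw [h, map_zero] at hM
      exact TSer_ne_zero ζ hjne hM.symm
    have h := congrArg HahnSeries.order hM
    rw [X0Analytic.order_qExpand ℓ hne, order_TSer ζ hjne, LevelP.order_jqModC] at h
    refine mul_left_cancel₀ (Int.natCast_ne_zero.mpr (NeZero.ne ℓ)) (h.trans ?_)
    ring
  -- transport to the field defined by expansions over `Qbar`
  have main : ∀ (E : IntermediateField Qbar (LaurentSeries Qbar)),
      E = modularFunctionFieldFullC Qbar M → ∀ (f j : E), (f : LaurentSeries Qbar) =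
        Tfun M ℓ (jBar M) → (j : LaurentSeries Qbar) = jqModC Qbar →
        ∀ P : Place Qbar E, P.ord j < 0 → P.ord f = ((ℓ : ℤ) + 1) * P.ord j := by
    intro E hE f j hf hj P hP
    subst hE
    obtain rfl : j = jbar Qbar M := Subtype.ext hj
    have hmem : (f : LaurentSeries Qbar) ∈ modularFunctionFieldFullC Qbar 1 := by
      rw [hf, he, ← bar_eq_fullC 1]
      exact SetLike.coe_mem _
    have hne : f ≠ 0 := fun h => by
      rw [h, ZeroMemClass.coe_zero] at hf
      rw [← hf, HahnSeries.order_zero] at hord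
      omega
    rw [LevelP.ord_of_mem_level_one f hmem hne P hP, hf, hord, neg_neg]
  exact main _ (bar_eq_fullC M) _ (jBar M) rfl rfl P hP

/-- A nonnegative divisor of degree zero is zero. -/
theorem eq_zero_of_degree {K F : Type*} [Field K] [Field F] [Algebra K F] [IsAlgClosed K]
    [IsFunctionField K F] {D : Divisor K F} (h : ∀ P, 0 ≤ D P) (hd : Divisor.degree D = 0) :
    D = 0 := by
  rw [Congruence.degree_eq_sum_of_deg_one (fun P => deg_eq_one P), Finsupp.sum,
    Finset.sum_eq_zero_iff_of_nonneg fun P _ => h P] at hd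
  refine Finsupp.ext fun P => ?_
  by_cases hP : P ∈ D.support
  · exact hd P hP
  · exact Finsupp.notMem_support_iff.mp hP

theorem eq_of_le_of_degree {K F : Type*} [Field K] [Field F] [Algebra K F] [IsAlgClosed K]
    [IsFunctionField K F] {D D' : Divisor K F} (h : ∀ P, D P ≤ D' P)
    (hd : Divisor.degree D = Divisor.degree D') : D = D' := by
  have := eq_zero_of_degree (D := D' - D) (fun P => by rw [Finsupp.sub_apply]; linarith [h P])
    (by rw [map_sub, hd, sub_self])
  exact (sub_eq_zero.mp this).symm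

/-- `T_ℓ` on the polar divisor of `j`. -/
theorem Tdiv_polar (hℓ : ℓ.Prime) (hℓM : ¬ ℓ ∣ M) :
    Tdiv M ℓ (polarDivisor (jBar M)) = ((ℓ : ℤ) + 1) • polarDivisor (jBar M) := by
  have hj : jBar M ≠ 0 := fun h => transcendental_jBar M (h ▸ isAlgebraic_zero)
  set Z := dvs (K := Qbar) (jBar M) + polarDivisor (jBar M) with hZ
  have hZ0 : ∀ P, 0 ≤ Z P := fun P => by
    rw [hZ, Finsupp.add_apply, dvs_apply, polarDivisor_apply]
    have := le_max_left (-P.ord (jBar M)) 0
    omega
  refine (eq_of_le_of_degree (fun P => ?_) ?_).symm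
  · rw [Finsupp.smul_apply, smul_eq_mul, polarDivisor_apply]
    rcases le_or_gt 0 (P.ord (jBar M)) with h | h
    · rw [max_eq_right (by omega), mul_zero]
      exact Tdiv_nonneg (fun Q => by rw [polarDivisor_apply]; exact le_max_right _ _) P
    · rw [max_eq_left (by omega)]
      have h1 := congrArg (fun E : Divisor Qbar (modularFunctionFieldBar M) => E P)
        (Tdiv_dvs (ℓ := ℓ) hj)
      simp only [dvs_apply] at h1
      rw [ord_Tfun_jBar hℓ hℓM P h,
        show dvs (K := Qbar) (jBar M) = Z - polarDivisor (jBar M) by rw [hZ, add_sub_cancel_right],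
        map_sub, Finsupp.sub_apply] at h1
      have := Tdiv_nonneg (ℓ := ℓ) hZ0 P
      linarith
  · rw [map_zsmul, degree_Tdiv hℓ hℓM, smul_eq_mul]

/-- The polar divisor of `j` reduces to that of `j̄`. -/
theorem red_polar (R : S.model.ReductionMap) :
    Finsupp.mapDomain R.toFun (polarDivisor (K := Qbar) (jBar M)) =
      polarDivisor (jbar (ResidueField A) M) := by
  have hser : ((jBar M : modularFunctionFieldBar M) : LaurentSeries Qbar) =
      ιS A (jqModC A) := (coeffMap_jqModC A.subtype).symm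
  obtain ⟨hi, hr⟩ := S.model.isInt_series hser
  have hjr : S.model.red (jBar M) = jbar (ResidueField A) M :=
    Subtype.ext (hr.trans (coeffMap_jqModC (residue A)))
  have hjne : S.model.red (jBar M) ≠ 0 := by
    rw [hjr]; exact fun h => transcendental_jC (ResidueField A) M
      (show IsAlgebraic _ (jC (ResidueField A) M) from (show jC (ResidueField A) M = 0 from h) ▸
        isAlgebraic_zero)
  set P := polarDivisor (K := Qbar) (jBar M)
  set Z := dvs (K := Qbar) (jBar M) + P with hZ
  have hZ0 : (0 : Divisor Qbar (modularFunctionFieldBar M)) ≤ Z := Finsupp.le_def.mpr fun Q => by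
    rw [hZ, Finsupp.add_apply, dvs_apply, polarDivisor_apply, Finsupp.zero_apply]
    have := le_max_left (-Q.ord (jBar M)) 0
    omega
  have hP0 : (0 : Divisor Qbar (modularFunctionFieldBar M)) ≤ P := polarDivisor_nonneg _
  refine (eq_of_le_of_degree (fun Q => ?_) ?_).symm
  · have h1 := congrArg (fun E : Divisor (ResidueField A)
        (modularFunctionFieldFullC (ResidueField A) M) => E Q) (R.spec _ hi hjne)
    simp only [dvs_apply, hjr] at h1
    rw [show dvs (K := Qbar) (jBar M) = Z - P by rw [hZ, add_sub_cancel_right],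
      Finsupp.mapDomain_sub, Finsupp.sub_apply] at h1
    have hz := Finsupp.le_def.mp (mapDomain_mono R.toFun hZ0) Q
    have hp := Finsupp.le_def.mp (mapDomain_mono R.toFun hP0) Q
    rw [Finsupp.mapDomain_zero, Finsupp.zero_apply] at hz hp
    rw [polarDivisor_apply]
    omega
  · have := finiteDimensional_jBar M
    have := finiteDimensional_jC (ResidueField A) M S.natCast_ne_zero
    rw [GoodModel.ReductionMap.degree_map, degree_polarDivisor (transcendental_jBar M),
      finrank_jBar, show jbar (ResidueField A) M = jC (ResidueField A) M from rfl,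
      degree_polarDivisor (transcendental_jC (ResidueField A) M), finrank_jC _ M S.natCast_ne_zero]

/-- `T_ℓ` on the series of `Δ(z)/Δ(q z)` modulo `q`. -/
theorem TSer_unitSer (hℓ : ℓ.Prime) (hℓq : ℓ ≠ q) :
    ∃ c : ResidueField A, c ≠ 0 ∧ TSer ℓ (zbar A ℓ) (XHLite.kSer A (XHLite.unitSer q)) =
      qExpand (ResidueField A) ℓ (algebraMap _ _ c *
        XHLite.kSer A (XHLite.unitSer q) ^ (ℓ + 1)) := by
  have hz := isPrimitiveRoot_zbar (A := A) (q := q) Fact.out hℓ hℓq
  set a := XHLite.kSer A (XHLite.unitSer q) with ha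
  set d := XHLite.kSer A XHLite.deltaUnit with hd
  set C := ∏ b ∈ Finset.range ℓ, ((zbar A ℓ : (ResidueField A)ˣ) : ResidueField A) ^ b with hC
  have hd0 : d ≠ 0 :=
    (XHLite.deltaUnit.isUnit.map (coeffMap (Int.castRingHom (ResidueField A)))).ne_zero
  have hC0 : C ≠ 0 := Finset.prod_ne_zero_iff.mpr fun b _ => pow_ne_zero _ (Units.ne_zero _)
  have h : a * d ^ q = d := by
    rw [ha, hd, XHLite.kSer, XHLite.kSer, ← XHLite.coeffMap_expandUnit_char, ← map_mul,
      ← Units.val_mul, XHLite.unitSer, inv_mul_cancel_right]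
  have hT := TSer_deltaUnit (F := ResidueField A) hℓ hz
  change TSer ℓ (zbar A ℓ) d = algebraMap _ _ C * qExpand _ ℓ d ^ (ℓ + 1) at hT
  have h2 := congrArg (TSer ℓ (zbar A ℓ)) h
  rw [TSer_mul, TSer_pow, hT] at h2
  refine ⟨C / C ^ q, div_ne_zero hC0 (pow_ne_zero _ hC0), ?_⟩
  have hfix : ∀ x : ResidueField A, qExpand (ResidueField A) ℓ
      (algebraMap _ (LaurentSeries (ResidueField A)) x) = algebraMap _ _ x :=
    fun x => by rw [algebraMap_laurentSeries_eq_single, qExpand_single, mul_zero]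
  have hQ : qExpand _ ℓ a * qExpand _ ℓ d ^ q = qExpand _ ℓ d := by rw [← map_pow, ← map_mul, h]
  have hCl : algebraMap (ResidueField A) (LaurentSeries (ResidueField A)) C ≠ 0 :=
    (map_ne_zero _).mpr hC0
  refine mul_right_cancel₀ (pow_ne_zero q (mul_ne_zero hCl
    (pow_ne_zero (ℓ + 1) ((map_ne_zero (qExpand (ResidueField A) ℓ)).mpr hd0)))) (h2.trans ?_)
  rw [map_mul, hfix, map_pow, map_div₀, map_pow, mul_pow, ← pow_mul, Nat.mul_comm (ℓ + 1) q,
    pow_mul]
  rw [show algebraMap (ResidueField A) (LaurentSeries (ResidueField A)) C /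
      algebraMap (ResidueField A) (LaurentSeries (ResidueField A)) C ^ q *
        qExpand _ ℓ a ^ (ℓ + 1) *
        (algebraMap (ResidueField A) (LaurentSeries (ResidueField A)) C ^ q *
          (qExpand _ ℓ d ^ q) ^ (ℓ + 1)) =
      algebraMap (ResidueField A) (LaurentSeries (ResidueField A)) C *
        (qExpand _ ℓ a * qExpand _ ℓ d ^ q) ^ (ℓ + 1) by
    rw [mul_pow]; field_simp, hQ]

variable (U : LevelP.LevelUnit S)

/-- The part of the divisor of the reduced unit supported at the glued places. -/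
def unitZ : Divisor (ResidueField A) (modularFunctionFieldFullC (ResidueField A) M) :=
  dvs (S.splitModel.red 0 U.w) + ((q : ℤ) - 1) • polarDivisor (jbar (ResidueField A) M)

theorem unitZ_apply (P : Place (ResidueField A) (modularFunctionFieldFullC (ResidueField A) M)) :
    unitZ U P = if P.ord (jbar (ResidueField A) M) < 0 then 0
      else P.ord (S.splitModel.red 0 U.w) := by
  rw [unitZ, Finsupp.add_apply, Finsupp.smul_apply, dvs_apply, polarDivisor_apply, smul_eq_mul]
  split_ifs with h
  · rw [U.ord_red0 P h, max_eq_left (by omega)]; ring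
  · rw [max_eq_right (by omega), mul_zero, add_zero]

/-- **`T_ℓ` multiplies the glued part by `ℓ + 1`.** -/
theorem red_Tdiv_unitZ (R : S.model.ReductionMap) (hℓ : ℓ.Prime) (hℓM : ¬ ℓ ∣ M) (hℓq : ℓ ≠ q)
    {D : Divisor Qbar (modularFunctionFieldBar M)}
    (hD : Finsupp.mapDomain R.toFun D = unitZ U) :
    Finsupp.mapDomain R.toFun (Tdiv M ℓ D) = ((ℓ : ℤ) + 1) • unitZ U := by
  set a := S.splitModel.red 0 U.w with ha
  obtain ⟨f, hfi, hfr⟩ := S.model.exists_isInt_red_eq a
  have har : S.model.red f ≠ 0 := hfr ▸ U.red0_ne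
  have hf : f ≠ 0 := fun e => har (by rw [e]; exact S.model.red_zero)
  obtain ⟨ti, t0, te⟩ := red_Tfun hℓ hℓM hfi har
  have hta : dvs (K := ResidueField A) (S.model.red (Tfun M ℓ f)) =
      ((ℓ : ℤ) + 1) • dvs (K := ResidueField A) a := by
    obtain ⟨c, hc, hcs⟩ := TSer_unitSer (A := A) (q := q) hℓ hℓq
    rw [hfr, ha, U.red0, hcs] at te
    have e : S.model.red (Tfun M ℓ f) = algebraMap _ _ c * a ^ (ℓ + 1) := Subtype.ext (by
      rw [qExpand_injective (R := ResidueField A) ℓ te, MulMemClass.coe_mul,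
        SubmonoidClass.coe_pow, IntermediateField.coe_algebraMap_apply, ha, U.red0])
    rw [e, dvs_mul ((map_ne_zero _).mpr hc) (pow_ne_zero _ U.red0_ne), dvs_algebraMap, zero_add,
      dvs_pow, ← natCast_zsmul]
    push_cast
    rfl
  rw [red_Tdiv_congr R hℓ hℓM (D' := dvs f + ((q : ℤ) - 1) • polarDivisor (jBar M)) (by
      rw [hD, Finsupp.mapDomain_add, Finsupp.mapDomain_smul, red_polar, R.spec f hfi har, hfr]
      rfl),
    map_add, map_zsmul, Tdiv_polar hℓ hℓM, Tdiv_dvs hf, Finsupp.mapDomain_add,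
    Finsupp.mapDomain_smul, Finsupp.mapDomain_smul, red_polar, R.spec _ ti t0, hta, unitZ,
    smul_add, smul_comm ((q : ℤ) - 1)]

end Fermat.Agent.MazurPrinciple

end
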