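import Fermat.Agent.MazurPrinciple.HeckeSeries
import Fermat.Agent.Congruence.Relation
import Fermat.Agent.Reduction.Construction
import Fermat.Agent.Reduction.Cusp

/-!
# Reduction commutes with `T_ℓ` on divisors

If two functions have the same reduction then so have their images under `T_ℓ`, because the
reduction of the image is given by a formula in the series. Hence `red (T_ℓ D)` only depends on
`red D` for divisors of degree zero.
-/

set_option autoImplicit false
set_option linter.unusedSectionVars false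

noncomputable section

open IsLocalRing ModularCurve AlgebraicCurve Fermat.Agent.Reduction Fermat.Agent.SemistableRed
  Fermat.Agent.FunctionFieldRR

namespace Fermat.Agent.MazurPrinciple

local notation "Qbar" => AlgebraicClosure ℚ

variable {A : ValuationSubring Qbar} {M ℓ : ℕ} [NeZero M] [NeZero ℓ]
  [IsAlgClosed (ResidueField A)]
  [IsFunctionField Qbar (modularFunctionFieldBar M)]
  [IsFunctionField (ResidueField A) (modularFunctionFieldFullC (ResidueField A) M)]
  [HasPrincipalDivisors Qbar (modularFunctionFieldBar M)]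
  [HasPrincipalDivisors (ResidueField A) (modularFunctionFieldFullC (ResidueField A) M)]
  {G : GoodModel A (modularFunctionFieldBar M) (modularFunctionFieldFullC (ResidueField A) M)}

/-- A function with nonzero reduction goes to one with nonzero reduction, given by the series. -/
theorem red_Tfun (hℓ : ℓ.Prime) (hℓM : ¬ ℓ ∣ M) {f : modularFunctionFieldBar M} (hi : G.IsInt f)
    (h0 : G.red f ≠ 0) :
    G.IsInt (Tfun M ℓ f) ∧ G.red (Tfun M ℓ f) ≠ 0 ∧
      qExpand (ResidueField A) ℓ (G.red (Tfun M ℓ f) : LaurentSeries (ResidueField A)) =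
        TSer ℓ (zbar A ℓ) (G.red f : LaurentSeries (ResidueField A)) := by
  obtain ⟨P, Q, h1, h2, h3⟩ := G.exists_witness hi
  obtain ⟨v', hv', he⟩ := srep_Tfun (A := A) hℓ hℓM (f := f) ⟨P, Q, h1, h2, rfl⟩
  obtain ⟨P', Q', h1', h2', h3'⟩ := hv'
  obtain ⟨hi', hr'⟩ := G.coe_red h1' h2'
  rw [← h3] at he
  rw [h3', ← hr'] at he
  refine ⟨hi', fun h => ?_, he⟩
  rw [h, ZeroMemClass.coe_zero, map_zero] at he
  exact TSer_ne_zero (zbar A ℓ) (fun e => h0 (Subtype.ext e)) he.symm

variable [HasPrincipalDivisors Qbar (laurentBaseChange Qbar (modularFunctionFieldFull (M * ℓ)))]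
  (hα : HeckeAlphaBarIntegral Qbar M ℓ) (hβ : HeckeBetaBarIntegral Qbar M ℓ)

/-- The divisor of `T_ℓ f` is `T_ℓ` of that of `f`. -/
theorem heckeDivBar_dvs (hfin : FiniteAlong Qbar (heckeAlphaBar Qbar M ℓ))
    (hN : NormFormulaAlong Qbar (heckeAlphaBar Qbar M ℓ) hfin)
    {f : modularFunctionFieldBar M} (hf : f ≠ 0) :
    heckeDivBar hα hβ (dvs f) = dvs (Tfun M ℓ f) :=
  Finsupp.ext fun P => by
    rw [dvs_apply]
    exact Congruence.correspondence_eq_ord (heckeBetaBar Qbar M ℓ) (heckeAlphaBar Qbar M ℓ) hβ hα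
      hfin hN hf (fun v => dvs_apply f v) P

/-- Functions with the same reduction have images with the same reduced divisor. -/
theorem map_hecke_dvs_eq (R : G.ReductionMap) (hℓ : ℓ.Prime) (hℓM : ¬ ℓ ∣ M)
    (hfin : FiniteAlong Qbar (heckeAlphaBar Qbar M ℓ))
    (hN : NormFormulaAlong Qbar (heckeAlphaBar Qbar M ℓ) hfin)
    {f f' : modularFunctionFieldBar M} (hi : G.IsInt f) (h0 : G.red f ≠ 0) (hi' : G.IsInt f')
    (he : G.red f' = G.red f) :
    Finsupp.mapDomain R.toFun (heckeDivBar hα hβ (dvs f)) =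
      Finsupp.mapDomain R.toFun (heckeDivBar hα hβ (dvs f')) := by
  have hf : f ≠ 0 := fun e => h0 (by rw [e]; exact G.red_zero)
  have hf' : f' ≠ 0 := fun e => h0 (by rw [← he, e]; exact G.red_zero)
  obtain ⟨ti, t0, te⟩ := red_Tfun hℓ hℓM hi h0
  obtain ⟨ti', t0', te'⟩ := red_Tfun hℓ hℓM hi' (he ▸ h0)
  rw [heckeDivBar_dvs hα hβ hfin hN hf, heckeDivBar_dvs hα hβ hfin hN hf', R.spec _ ti t0,
    R.spec _ ti' t0']
  congr 1
  refine Subtype.ext (qExpand_injective (R := ResidueField A) ℓ ?_)
  rw [te, te', he]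

/-- **`red ∘ T_ℓ` only depends on the reduction.** -/
theorem map_hecke_eq_zero (R : G.ReductionMap) {g c : ℤ}
    (H : GoodModel.RRData (A := A) (F := modularFunctionFieldBar M)
      (Fk := modularFunctionFieldFullC (ResidueField A) M) g c)
    (hℓ : ℓ.Prime) (hℓM : ¬ ℓ ∣ M)
    {D : Divisor Qbar (modularFunctionFieldBar M)} (hD : Divisor.degree D = 0)
    (hred : Finsupp.mapDomain R.toFun D = 0) :
    Finsupp.mapDomain R.toFun (heckeDivBar hα hβ D) = 0 := by
  classical
  obtain ⟨_, hb, _, hfin, hFI, hN⟩ := (levelFacts_of_prime M ℓ hℓ hℓM).hecke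
  rcases eq_or_ne D 0 with rfl | hne
  · rw [map_zero, Finsupp.mapDomain_zero]
  obtain ⟨P₀, -⟩ := Finsupp.ne_iff.mp hne
  obtain ⟨g₀, hg₀⟩ := Congruence.weakRiemann (K := Qbar) (F := modularFunctionFieldBar M)
  set d : ℕ := max g₀ c.toNat
  set B : ℤ := (finrankAlong Qbar (heckeBetaBar Qbar M ℓ) : ℤ) * d
  refine Finsupp.ext fun Q => ?_
  rw [Finsupp.zero_apply]
  set δ := Finsupp.mapDomain R.toFun (heckeDivBar hα hβ D) Q with hδ
  -- effective divisors of degree `d`
  have hbd : ∀ E : Divisor Qbar (modularFunctionFieldBar M), (∀ P, 0 ≤ E P) →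
      Divisor.degree E = d →
      |Finsupp.mapDomain R.toFun (heckeDivBar hα hβ E) Q| ≤ B := by
    intro E hE hEd
    refine (Congruence.abs_mapDomain_apply_le R.toFun _
      (fun v => Congruence.correspondence_nonneg _ _ hβ hα hE v) (fun P => deg_eq_one P) Q).trans
      (le_of_eq ((Divisor.degree_correspondence _ _ hβ hα hFI E).trans ?_))
    rw [hEd]
  have key : ∀ m : ℕ, (m : ℤ) * |δ| ≤ 2 * B := by
    intro m
    set D' : Divisor Qbar (modularFunctionFieldBar M) := m • D + Finsupp.single P₀ (d : ℤ) with hD'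
    have hdeg' : Divisor.degree D' = d := by
      rw [hD', map_add, map_nsmul, hD, Divisor.degree_single, deg_eq_one]; simp
    obtain ⟨f, hf, hpos⟩ := hg₀ D' (by rw [hdeg']; exact_mod_cast le_max_left _ _)
    obtain ⟨a, ha, hai, har⟩ := G.exists_scale hf
    have hf1 : a • f ≠ 0 := smul_ne_zero ha hf
    set E := D' + dvs (K := Qbar) (a • f) with hEdef
    have hE0 : ∀ P, 0 ≤ E P := fun P => by
      rw [hEdef, Finsupp.add_apply, dvs_smul ha hf, dvs_apply]; exact hpos P
    have hdvs0 : Divisor.degree (dvs (K := Qbar) (a • f)) = 0 := by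
      obtain ⟨W, hW, hW0⟩ := HasPrincipalDivisors.exists_divisor (K := Qbar) (a • f) hf1
      rwa [← eq_dvs hW]
    have hEdeg : Divisor.degree E = d := by rw [hEdef, map_add, hdvs0, hdeg', add_zero]
    have hredD' : Finsupp.mapDomain R.toFun D' = Finsupp.single (R.toFun P₀) (d : ℤ) := by
      rw [hD', Finsupp.mapDomain_add, ← Finsupp.mapDomain.addMonoidHom_apply, map_nsmul,
        Finsupp.mapDomain.addMonoidHom_apply, hred, nsmul_zero, zero_add,
        Finsupp.mapDomain_single]
    have hy : G.red (a • f) ∈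
        riemannRochSpace (Finsupp.mapDomain R.toFun (Finsupp.single P₀ (d : ℤ))) := by
      have := mapDomain_mono R.toFun
        (show (0 : Divisor Qbar (modularFunctionFieldBar M)) ≤ E from Finsupp.le_def.mpr hE0)
      rw [Finsupp.mapDomain_zero, hEdef, Finsupp.mapDomain_add, hredD', R.spec _ hai har] at this
      rw [mem_rr_iff_dvs har, Finsupp.mapDomain_single]
      exact this
    obtain ⟨f', hf'mem, hf'i, hf'r⟩ := R.exists_lift H.low H.up (D := Finsupp.single P₀ (d : ℤ))
      (by rw [Divisor.degree_single, deg_eq_one]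
          have := Int.self_le_toNat c
          have : (c.toNat : ℤ) ≤ d := by exact_mod_cast le_max_right _ _
          omega) hy
    have hf'0 : f' ≠ 0 := fun e => har (by rw [← hf'r, e]; exact G.red_zero)
    set E' := Finsupp.single P₀ (d : ℤ) + dvs (K := Qbar) f' with hE'def
    have hE'0 : ∀ P, 0 ≤ E' P := fun P =>
      Finsupp.le_def.mp ((mem_rr_iff_dvs hf'0).mp hf'mem) P
    have hE'deg : Divisor.degree E' = d := by
      obtain ⟨W, hW, hW0⟩ := HasPrincipalDivisors.exists_divisor (K := Qbar) f' hf'0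
      rw [hE'def, map_add, ← eq_dvs hW, hW0, Divisor.degree_single, deg_eq_one]; simp
    have hsame := congrArg (fun z => z Q)
      (map_hecke_dvs_eq hα hβ R hℓ hℓM hfin hN hai har hf'i hf'r)
    have e : Finsupp.mapDomain R.toFun (heckeDivBar hα hβ E) Q -
        Finsupp.mapDomain R.toFun (heckeDivBar hα hβ E') Q = (m : ℤ) * δ := by
      simp only [hEdef, hE'def, hD', map_add, map_nsmul, Finsupp.mapDomain_add,
        Finsupp.add_apply, hδ]
      rw [← Finsupp.mapDomain.addMonoidHom_apply R.toFun (m • heckeDivBar hα hβ D), map_nsmul,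
        Finsupp.smul_apply, Finsupp.mapDomain.addMonoidHom_apply, nsmul_eq_mul]
      linarith
    calc (m : ℤ) * |δ| = |(m : ℤ) * δ| := by rw [abs_mul, Nat.abs_cast]
      _ ≤ |Finsupp.mapDomain R.toFun (heckeDivBar hα hβ E) Q| +
          |Finsupp.mapDomain R.toFun (heckeDivBar hα hβ E') Q| := by
        rw [← e]; exact abs_sub _ _
      _ ≤ 2 * B := by linarith [hbd E hE0 hEdeg, hbd E' hE'0 hE'deg]
  by_contra hδ0
  have h1 := Int.one_le_abs hδ0
  have h2 := key (2 * B).toNat.succ
  have h3 := Int.self_le_toNat (2 * B)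
  push_cast at h2
  nlinarith

end Fermat.Agent.MazurPrinciple

end
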