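import Fermat.Agent.SemistableRed.Toric
import Fermat.Agent.Congruence.Assembly
import Fermat.Agent.HeckeJ0.Inputs

/-!
# `T_ℓ` on functions and on reductions of series, `ℓ` different from the residue characteristic

The norm of `β f` down to level `N` has expansion at `t ^ ℓ` equal to
`f(t ^ (ℓ ^ 2)) * ∏ f(ζ ^ b t)`, so its reduction is determined by that of `f`.
-/

set_option autoImplicit false
set_option linter.unusedSectionVars false

noncomputable section

open IsLocalRing ModularCurve AlgebraicCurve Fermat.Agent.Reduction Fermat.Agent.SemistableRed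

namespace Fermat.Agent.MazurPrinciple

local notation "Qbar" => AlgebraicClosure ℚ

section Contract

variable {R : Type*} [CommRing R] (n : ℕ) [NeZero n]

/-- Contraction is linear over the series in `t ^ n`. -/
theorem contract_mul_qExpand (Q x : LaurentSeries R) :
    Congruence.contract n (Q * qExpand R n x) = Congruence.contract n Q * x := by
  have hadd : ∀ a b : LaurentSeries R, Congruence.contract n (a + b) =
      Congruence.contract n a + Congruence.contract n b := fun a b => by
    ext k; simp [HahnSeries.coeff_add]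
  set r := Q - qExpand R n (Congruence.contract n Q) with hr
  have h0 : Congruence.contract n (r * qExpand R n x) = 0 := by
    ext k
    rw [Congruence.contract_coeff, HahnSeries.coeff_mul, HahnSeries.coeff_zero]
    refine Finset.sum_eq_zero fun ij hij => ?_
    rw [Finset.mem_antidiagonal] at hij
    obtain ⟨hi, hj, hsum⟩ := hij
    by_cases hd : (n : ℤ) ∣ ij.2
    · obtain ⟨j, hj2⟩ := hd
      have hi2 : ij.1 = (n : ℤ) * (k - j) := by rw [mul_sub]; linarith
      rw [hi2, hr, HahnSeries.coeff_sub, qExpand_coeff_mul, Congruence.contract_coeff, sub_self,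
        zero_mul]
    · rw [qExpand_coeff_of_not_dvd n _ hd, mul_zero]
  conv_lhs => rw [show Q = qExpand R n (Congruence.contract n Q) + r by rw [hr]; ring]
  rw [add_mul, hadd, h0, add_zero, ← map_mul, Congruence.contract_qExpand]

end Contract

section Rep

variable {L : Type*} [Field L] {A : ValuationSubring L}

/-- Twists of reductions. -/
theorem srep_twist {x : LaurentSeries L} {v : LaurentSeries (ResidueField A)} (ζ : Aˣ)
    (h : SRep x v) :
    SRep (Congruence.twist (Units.map (A.subtype : A →* L) ζ) x)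
      (Congruence.twist (Units.map (residue A : A →* ResidueField A) ζ) v) := by
  obtain ⟨P, Q, hP, hQ, rfl⟩ := h
  have hι : ∀ z : LaurentSeries A, ιS A (Congruence.twist ζ z) =
      Congruence.twist (Units.map (A.subtype : A →* L) ζ) (ιS A z) := fun z =>
    Congruence.coeffMap_twist A.subtype ζ z
  have hr : ∀ z : LaurentSeries A, redS A (Congruence.twist ζ z) =
      Congruence.twist (Units.map (residue A : A →* ResidueField A) ζ) (redS A z) := fun z =>
    Congruence.coeffMap_twist (residue A) ζ z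
  refine ⟨Congruence.twist ζ P, Congruence.twist ζ Q, ?_, ?_, by rw [hr, hr, map_div₀]⟩
  · rw [hι, hι, ← map_mul, hP]
  · rw [hr]
    exact (map_ne_zero _).mpr hQ

/-- A reduction of a series in `t ^ n` is a series in `t ^ n`. -/
theorem srep_descend {n : ℕ} [NeZero n] {x : LaurentSeries L}
    {v : LaurentSeries (ResidueField A)} (h : SRep (ModularCurve.qExpand L n x) v) :
    ∃ v', SRep x v' ∧ ModularCurve.qExpand (ResidueField A) n v' = v := by
  obtain ⟨P, Q, hP, hQ, hv⟩ := h
  obtain ⟨i, hi⟩ : ∃ i, (redS A Q).coeff i ≠ 0 := by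
    by_contra hcon
    push Not at hcon
    exact hQ (HahnSeries.ext (funext fun i => by simpa using hcon i))
  set s : LaurentSeries A := HahnSeries.single (-i) 1 with hs
  have h' : ιS A (Congruence.contract n (s * Q)) * x = ιS A (Congruence.contract n (s * P)) := by
    rw [ιS, Congruence.coeffMap_contract, Congruence.coeffMap_contract, map_mul, map_mul, ← hP,
      ← mul_assoc, contract_mul_qExpand]
  have hne : redS A (Congruence.contract n (s * Q)) ≠ 0 := fun h0 => hi (by
    rw [redS, Congruence.coeffMap_contract, map_mul, hs, coeffMap_single, map_one] at h0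
    have := congrArg (fun z => z.coeff 0) h0
    simpa [HahnSeries.coeff_single_mul] using this)
  have hR : SRep x (redS A (Congruence.contract n (s * P)) /
      redS A (Congruence.contract n (s * Q))) := ⟨_, _, h', hne, rfl⟩
  exact ⟨_, hR, (hR.qExpand n).unique ⟨P, Q, hP, hQ, hv⟩⟩

end Rep

section TSer

variable {k : Type*} [Field k] {ℓ : ℕ} [NeZero ℓ]

/-- The action of `T_ℓ` on series, expanded in `t ^ ℓ`. -/
def TSer (ℓ : ℕ) [NeZero ℓ] (ζ : kˣ) (v : LaurentSeries k) : LaurentSeries k :=
  qExpand k ℓ (qExpand k ℓ v) * ∏ b : Fin ℓ, Congruence.twist (ζ ^ (b : ℕ)) v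

theorem TSer_mul (ζ : kˣ) (v w : LaurentSeries k) :
    TSer ℓ ζ (v * w) = TSer ℓ ζ v * TSer ℓ ζ w := by
  simp only [TSer, map_mul, Finset.prod_mul_distrib]
  ring

theorem TSer_pow (ζ : kˣ) (v : LaurentSeries k) (n : ℕ) :
    TSer ℓ ζ (v ^ n) = TSer ℓ ζ v ^ n := by
  simp only [TSer, map_pow, Finset.prod_pow, mul_pow]

theorem TSer_ne_zero (ζ : kˣ) {v : LaurentSeries k} (hv : v ≠ 0) : TSer ℓ ζ v ≠ 0 :=
  mul_ne_zero ((map_ne_zero _).mpr ((map_ne_zero _).mpr hv))
    (Finset.prod_ne_zero_iff.mpr fun _ _ => (map_ne_zero _).mpr hv)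

end TSer

section Hecke

variable {A : ValuationSubring Qbar} (N ℓ : ℕ) [NeZero N] [NeZero ℓ]

/-- `T_ℓ` on functions: the norm of `β f` to level `N`. -/
def Tfun (f : modularFunctionFieldBar N) : modularFunctionFieldBar N :=
  Congruence.normAlpha Qbar N ℓ (heckeBetaBar Qbar N ℓ f)

theorem levelFacts_of_prime (hℓ : ℓ.Prime) (hℓN : ¬ ℓ ∣ N) : Congruence.LevelFacts N ℓ :=
  Congruence.levelFacts N ℓ hℓ hℓN (HeckeJ0.heckeInputsAlong (N := N) (ℓ := ℓ))

variable (A)

/-- A primitive `ℓ`th root of unity is a unit of `A`. -/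
theorem exists_zeta : ∃ ζ : Aˣ, IsPrimitiveRoot ((ζ : A) : Qbar) ℓ := by
  obtain ⟨z₀, hz₀⟩ := HasEnoughRootsOfUnity.prim (M := Qbar) (n := ℓ)
  have hz₀A : z₀ ∈ A := by
    have h1 : IsIntegral A z₀ :=
      IsIntegral.of_pow (NeZero.pos ℓ) (by rw [hz₀.pow_eq_one]; exact isIntegral_one)
    obtain ⟨a, ha⟩ := IsIntegrallyClosed.isIntegral_iff.mp h1
    exact ha ▸ a.2
  exact ⟨(IsUnit.of_pow_eq_one (a := (⟨z₀, hz₀A⟩ : A))
    (Subtype.ext (by simpa using hz₀.pow_eq_one)) (NeZero.ne ℓ)).unit, hz₀⟩

/-- The chosen root of unity in the residue field. -/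
def zbar : (ResidueField A)ˣ :=
  Units.map (residue A : A →* ResidueField A) (exists_zeta A ℓ).choose

variable {A N ℓ}

/-- **The reduction of `T_ℓ f` is `T_ℓ` of the reduction of `f`.** -/
theorem srep_Tfun (hℓ : ℓ.Prime) (hℓN : ¬ ℓ ∣ N) {f : modularFunctionFieldBar N}
    {v : LaurentSeries (ResidueField A)} (h : SRep (f : LaurentSeries Qbar) v) :
    ∃ v', SRep (Tfun N ℓ f : LaurentSeries Qbar) v' ∧
      qExpand (ResidueField A) ℓ v' = TSer ℓ (zbar A ℓ) v := by
  have hlev := levelFacts_of_prime N ℓ hℓ hℓN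
  obtain ⟨-, -, -, hfin, -, -⟩ := hlev.hecke
  set ζA := (exists_zeta A ℓ).choose
  have hζ : IsPrimitiveRoot ((Units.map (A.subtype : A →* Qbar) ζA : Qbarˣ) : Qbar) ℓ :=
    (exists_zeta A ℓ).choose_spec
  have key := Congruence.qExpand_normAlpha Qbar N ℓ hlev.swap hℓ.one_lt hfin hlev.degree
    (Units.map (A.subtype : A →* Qbar) ζA) hζ f
  refine srep_descend ?_
  rw [show qExpand Qbar ℓ (Tfun N ℓ f : LaurentSeries Qbar) = _ from key]
  refine ((h.qExpand ℓ).qExpand ℓ).mul (SRep.prod (A := A) Finset.univ fun b _ => ?_)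
  have := srep_twist (ζA ^ (b : ℕ)) h
  rwa [map_pow, map_pow] at this

end Hecke

end Fermat.Agent.MazurPrinciple

end
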