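import Fermat.Agent.LevelP.RegularUFD
import Mathlib.RingTheory.Valuation.ValuationSubring
import Mathlib.RingTheory.Algebraic.Integral

/-!
# Horizontal primes of a factorial ring

A prime of a factorial subring gives a valuation subring of the field of fractions. If a function
is an `n`-th power up to a unit at every horizontal valuation, its multiplicities at horizontal
primes are divisible by `n`.
-/

set_option autoImplicit false

noncomputable section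

namespace Fermat.Agent.MazurPrinciple

/-- An `n`-th power up to a unit at every valuation ring over `A` in which `p` is invertible. -/
def HorizPow {F : Type*} [Field F] (A : Subring F) (p n : ℕ) (u : F) : Prop :=
  ∀ O : ValuationSubring F, (∀ x ∈ A, x ∈ O) → (p : F)⁻¹ ∈ O →
    ∃ f : F, f ≠ 0 ∧ f ^ n * u⁻¹ ∈ O ∧ u * (f ^ n)⁻¹ ∈ O

theorem HorizPow.of_unit {F : Type*} [Field F] {A : Subring F} {p n kw : ℕ} {w : F} (hw : w ∈ A)
    (hw' : (p : F) ^ kw * w⁻¹ ∈ A) (hp : (p : F) ≠ 0) : HorizPow A p n w := by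
  intro O hA hinv
  refine ⟨1, one_ne_zero, ?_, by simpa using hA w hw⟩
  rw [one_pow, one_mul, show w⁻¹ = ((p : F)⁻¹) ^ kw * ((p : F) ^ kw * w⁻¹) by
    rw [← mul_assoc, ← mul_pow, inv_mul_cancel₀ hp, one_pow, one_mul]]
  exact mul_mem (pow_mem hinv _) (hA _ hw')

variable {K : Type*} [Field K] {R : Subring K}

section Mult

variable [UniqueFactorizationMonoid R] {ϖ : R} (hϖ : Prime ϖ)

include hϖ

theorem exists_factor {x : R} (hx : x ≠ 0) : ∃ (i : ℕ) (x' : R), ¬ ϖ ∣ x' ∧ x = ϖ ^ i * x' :=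
  WfDvdMonoid.max_power_factor hx hϖ.irreducible

omit [UniqueFactorizationMonoid R] in
theorem le_of_factor {i j : ℕ} {x y : R} (hy : ¬ ϖ ∣ y) (h : ϖ ^ i * x = ϖ ^ j * y) : i ≤ j := by
  by_contra hlt
  obtain ⟨d, rfl⟩ : ∃ d, i = j + (d + 1) := ⟨i - j - 1, by omega⟩
  rw [pow_add, mul_assoc] at h
  exact hy ⟨ϖ ^ d * x, by rw [← mul_left_cancel₀ (pow_ne_zero j hϖ.ne_zero) h, pow_succ]; ring⟩

/-- The valuation subring of the prime `ϖ`. -/
def atPrime (hfr : ∀ x : K, ∃ g h : R, h ≠ 0 ∧ x * (h : K) = g) : ValuationSubring K where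
  carrier := {x | ∃ g h : R, ¬ ϖ ∣ h ∧ x * (h : K) = g}
  mul_mem' := by
    rintro x y ⟨g, h, hh, e⟩ ⟨g', h', hh', e'⟩
    exact ⟨g * g', h * h', fun hd => (hϖ.dvd_or_dvd hd).elim hh hh',
      by push_cast; rw [← e, ← e']; ring⟩
  one_mem' := ⟨1, 1, hϖ.not_dvd_one, by simp⟩
  add_mem' := by
    rintro x y ⟨g, h, hh, e⟩ ⟨g', h', hh', e'⟩
    exact ⟨g * h' + g' * h, h * h', fun hd => (hϖ.dvd_or_dvd hd).elim hh hh',
      by push_cast; rw [← e, ← e']; ring⟩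
  zero_mem' := ⟨0, 1, hϖ.not_dvd_one, by simp⟩
  neg_mem' := by
    rintro x ⟨g, h, hh, e⟩
    exact ⟨-g, h, hh, by push_cast; rw [← e]; ring⟩
  mem_or_inv_mem' x := by
    obtain ⟨g, h, hh, e⟩ := hfr x
    by_cases hg : g = 0
    · refine Or.inl ⟨0, 1, hϖ.not_dvd_one, ?_⟩
      rw [hg] at e
      rcases mul_eq_zero.mp e with h0 | h0
      · simp [h0]
      · exact absurd (Subtype.ext h0) hh
    obtain ⟨i, g', hg', rfl⟩ := exists_factor hϖ hg
    obtain ⟨j, h', hh', rfl⟩ := exists_factor hϖ hh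
    have hϖ0 : (ϖ : K) ≠ 0 := fun h0 => hϖ.ne_zero (Subtype.ext h0)
    push_cast at e
    rcases le_total j i with hle | hle
    · obtain ⟨d, rfl⟩ := Nat.exists_eq_add_of_le hle
      refine Or.inl ⟨ϖ ^ d * g', h', hh', ?_⟩
      push_cast
      refine mul_left_cancel₀ (pow_ne_zero j hϖ0) ?_
      rw [pow_add] at e
      linear_combination e
    · obtain ⟨d, rfl⟩ := Nat.exists_eq_add_of_le hle
      refine Or.inr ⟨ϖ ^ d * h', g', hg', ?_⟩
      push_cast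
      have hx : x ≠ 0 := fun hx => hg (Subtype.ext (by
        rw [hx, zero_mul] at e; push_cast; exact e.symm))
      have h1 : (g' : K) = x * ((ϖ : K) ^ d * h') :=
        mul_left_cancel₀ (pow_ne_zero i hϖ0) (by rw [pow_add] at e; linear_combination -e)
      rw [h1, inv_mul_cancel_left₀ hx]

theorem mem_atPrime (hfr : ∀ x : K, ∃ g h : R, h ≠ 0 ∧ x * (h : K) = g) {x : K} (hx : x ∈ R) :
    x ∈ atPrime hϖ hfr :=
  ⟨⟨x, hx⟩, 1, hϖ.not_dvd_one, by simp⟩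

theorem inv_mem_atPrime (hfr : ∀ x : K, ∃ g h : R, h ≠ 0 ∧ x * (h : K) = g) {x : R}
    (hx : ¬ ϖ ∣ x) : (x : K)⁻¹ ∈ atPrime hϖ hfr := by
  have hx0 : (x : K) ≠ 0 := fun h0 => hx (by rw [show x = 0 from Subtype.ext h0]; exact dvd_zero ϖ)
  exact ⟨1, x, hx, by rw [inv_mul_cancel₀ hx0]; simp⟩

variable {F : Type*} [Field F] (ι : F →+* K) {A : Subring F}

/-- The multiplicity at a horizontal prime of an `n`-th power up to horizontal units. -/
theorem dvd_multiplicity (hfr : ∀ x : K, ∃ g h : R, h ≠ 0 ∧ x * (h : K) = g)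
    (hA : ∀ x ∈ A, ι x ∈ R) {p n : ℕ}
    (hϖp : ¬ ϖ ∣ (p : R)) {u : F} (hu : u ≠ 0) (hpow : HorizPow A p n u) {h0 : F} (hh0 : h0 ≠ 0)
    {z : R} (hz : (z : K) = ι (u * h0 ^ n)) {m : ℕ} {z' : R} (hz' : ¬ ϖ ∣ z')
    (hzf : z = ϖ ^ m * z') : n ∣ m := by
  obtain ⟨f, hf, ⟨g2, h2, hh2, e2⟩, ⟨g3, h3, hh3, e3⟩⟩ :=
    hpow ((atPrime hϖ hfr).comap ι) (fun x hx => mem_atPrime hϖ hfr (hA x hx)) (by
      show ι ((p : F)⁻¹) ∈ atPrime hϖ hfr
      rw [map_inv₀, map_natCast, show (p : K) = (((p : R) : R) : K) by push_cast; rfl]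
      exact inv_mem_atPrime hϖ hfr hϖp)
  obtain ⟨g, h, hh, e⟩ := hfr (ι (f * h0))
  have hfh : ι (f * h0) ≠ 0 := (map_ne_zero ι).mpr (mul_ne_zero hf hh0)
  have hg : g ≠ 0 := fun hg => mul_ne_zero hfh (fun h' => hh (Subtype.ext h')) (by rw [e, hg]; simp)
  -- two equations in `R`
  have key : ∀ (a b : R) (x : F), ι x * (b : K) = (a : K) →
      (x = f ^ n * u⁻¹ → z * h ^ n * a = g ^ n * b) ∧
      (x = u * (f ^ n)⁻¹ → g ^ n * a = z * h ^ n * b) := by
    intro a b x hx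
    have hιf : ι f ≠ 0 := (map_ne_zero ι).mpr hf
    have hιu : ι u ≠ 0 := (map_ne_zero ι).mpr hu
    refine ⟨fun h1 => Subtype.ext ?_, fun h1 => Subtype.ext ?_⟩ <;>
      push_cast <;> rw [← hx, ← e, hz, h1] <;> simp only [map_mul, map_pow, map_inv₀] <;> field_simp <;> ring
  have k2 := (key g2 h2 _ e2).1 rfl
  have k3 := (key g3 h3 _ e3).2 rfl
  obtain ⟨i, g', hg', rfl⟩ := exists_factor hϖ hg
  obtain ⟨j, h', hh', rfl⟩ := exists_factor hϖ hh
  have hnd : ∀ (x y : R) (l : ℕ), ¬ ϖ ∣ x → ¬ ϖ ∣ y → ¬ ϖ ∣ x ^ l * y := fun x y l hx hy hd =>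
    (hϖ.dvd_or_dvd hd).elim (fun hd' => hx (hϖ.dvd_of_dvd_pow hd')) hy
  have le1 : m + j * n ≤ i * n := by
    refine le_of_factor hϖ (hnd g' h2 n hg' hh2) (x := z' * h' ^ n * g2) ?_
    rw [← mul_assoc (ϖ ^ (i * n)), pow_mul, ← mul_pow, ← k2, hzf]
    ring
  have le2 : i * n ≤ m + j * n := by
    refine le_of_factor hϖ (x := g' ^ n * g3) (y := z' * h' ^ n * h3) (fun hd => ?_) ?_
    · rw [mul_assoc] at hd
      exact (hϖ.dvd_or_dvd hd).elim hz' (hnd h' h3 n hh' hh3)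
    · rw [← mul_assoc (ϖ ^ (i * n)), pow_mul, ← mul_pow, k3, hzf]
      ring
  have hji : j * n ≤ i * n := (Nat.le_add_left _ m).trans le1
  refine ⟨i - j, ?_⟩
  rw [Nat.mul_sub, mul_comm n i, mul_comm n j]
  omega

end Mult

end Fermat.Agent.MazurPrinciple

end
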