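import Fermat.Agent.MazurPrinciple.Torsion
import Fermat.Agent.SemistableRed.Swap
import Fermat.Agent.SemistableRed.NewRelation
import Fermat.Agent.Engine.TRep.Tame

/-!
# Frobenius on the classes fixed by inertia, away from level `M`

For `x ∈ J₀(M q)` killed by `pᵏ`, fixed by inertia at `q`, and a Hecke polynomial `Q` killing
`J₀(M)[pᵏ]`, the class `Q (T_ℓ - ℓ - 1) x` has a representative congruent to one, so
`φ = - q w_q` on it.
-/

set_option autoImplicit false
set_option linter.unusedSectionVars false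

noncomputable section

open IsLocalRing ModularCurve AlgebraicCurve Fermat.Agent.Reduction Fermat.Agent.SemistableRed
  Fermat.Agent.FunctionFieldRR Fermat.Agent.LevelP Fermat.Agent.OrdinaryT

namespace Fermat.Agent.MazurPrinciple

local notation "Qbar" => AlgebraicClosure ℚ

attribute [local instance] HeckeJ0.hasPrincipalDivisors_bar

/-- A Galois-equivariant endomorphism of `J₀(N)` commutes with `T_ℓ` on `p`-power torsion. -/
theorem map_heckeOperatorAlong {N p ℓ : ℕ} [NeZero N] [Fact p.Prime] [NeZero ℓ]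
    {ν : JZero N →+ JZero N} (hν : IsGaloisEquivariant ν) (hℓ : ℓ.Prime) (hℓN : ¬ ℓ ∣ N * p)
    {k : ℕ} {x : JZero N} (hx : p ^ k • x = 0) :
    ν (heckeOperatorAlong Qbar N ℓ x) = heckeOperatorAlong Qbar N ℓ (ν x) := by
  let R := Engine.TRep.levelInputs N p
  let X : Pic0.torsion Qbar (modularFunctionFieldBar N) (p ^ k) :=
    ⟨x, by rw [Pic0.mem_torsion, natCast_zsmul]; exact hx⟩
  let TX := EigenRep.heckeTors (p ^ k) ⟨ℓ, hℓ⟩ X
  have h1 := R.model.e_hecke k ⟨ℓ, hℓ⟩ (torsMap ν (p ^ k) X)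
    (EigenRep.heckeTors (p ^ k) ⟨ℓ, hℓ⟩ (torsMap ν (p ^ k) X)) rfl
  have h2 := R.model.e_hecke k ⟨ℓ, hℓ⟩ X TX rfl
  have h3 : torsMap ν (p ^ k) TX =
      EigenRep.heckeTors (p ^ k) ⟨ℓ, hℓ⟩ (torsMap ν (p ^ k) X) := by
    refine (R.model.e k).injective ?_
    rw [← mapMat_mulVec R.model R.model ν k, h1, h2, ← mapMat_mulVec R.model R.model ν k,
      Matrix.mulVec_mulVec, Matrix.mulVec_mulVec, mapMat_mul_hecke R R hν hℓ hℓN hℓN]
  exact congrArg Subtype.val h3

variable {A : ValuationSubring Qbar} {M q : ℕ} [NeZero M] [NeZero q] [Fact q.Prime]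
  [CharP (ResidueField A) q] [IsAlgClosed (ResidueField A)] {S : Setting A M q}

local notation "gal" => arithmeticGalois (modularFunctionFieldFull (M * q))

variable (S) in
/-- `w_q` on `J₀(M q)`. -/
def wJ : JZero (M * q) →+ JZero (M * q) :=
  DistribSMul.toAddMonoidHom _ (SemilinearAut.ofAlgAut S.w)

theorem wJ_apply (x : JZero (M * q)) : wJ S x = SemilinearAut.ofAlgAut S.w • x := rfl

theorem isGaloisEquivariant_wJ : IsGaloisEquivariant (wJ S) := fun σ x => by
  rw [wJ_apply, wJ_apply, galois_smul_pic0_def, galois_smul_pic0_def, ← mul_smul, ← mul_smul]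
  exact congrArg (· • x) (commute_ofAlgAut_wq S.prime S.not_dvd σ)

theorem wJ_wJ (x : JZero (M * q)) : wJ S (wJ S x) = x := by
  rw [wJ_apply, wJ_apply, ← mul_smul, ← map_mul,
    show S.w * S.w = 1 from AlgEquiv.ext S.w_w, map_one, one_smul]

/-- Classes mapped by `w_q` to powers at `∞` are powers on the other component. -/
theorem mem_killed_one_of_wJ
    [IsFunctionField (ResidueField A) (modularFunctionFieldFullC (ResidueField A) M)] {n : ℕ} {x : JZero (M * q)}
    (h : wJ S x ∈ killed S.splitModel 0 n) : x ∈ killed S.splitModel 1 n := by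
  obtain ⟨u, hu, hu0, c, y, hy, hci, hcr⟩ := h
  have h1 := hu.smul (s := SemilinearAut.ofAlgAut S.w)
  rw [← wJ_apply, wJ_wJ, SemilinearAut.ofAlgAut_smul] at h1
  obtain ⟨hi, hr⟩ := S.red_w (i := 1) (f := c • u) hci
  refine ⟨S.w u, h1, (map_ne_zero S.w).mpr hu0, c, y, hy, ?_, ?_⟩
  · rw [← S.w_smul]; exact hi
  · rw [← S.w_smul]; exact hr.trans hcr

/-- A class killed on both components has a representative congruent to one. -/
theorem exists_rep_of_killed
    [IsFunctionField (ResidueField A) (modularFunctionFieldFullC (ResidueField A) M)] {n : ℕ} (hn : n ≠ 0) {x : JZero (M * q)}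
    (h0 : x ∈ killed S.splitModel 0 n) (h1 : x ∈ killed S.splitModel 1 n) :
    ∃ R : S.splitModel.Rep n, SplitModel.Rep.cls S.splitModel R = x := by
  have := isFunctionField_level (M * q)
  obtain ⟨u, hu, hu0, c₀, y₀, hy₀, hi₀, hr₀⟩ := h0
  obtain ⟨-, c₁, y₁, hy₁, hi₁, hr₁⟩ := (mem_killed_iff hu).mp h1
  obtain ⟨-, D, rfl, hD⟩ := hu
  have hc : ∀ {i : Fin 2} {c : Qbar} {y : modularFunctionFieldFullC (ResidueField A) M},
      y ≠ 0 → S.splitModel.red i (c • u) = y ^ n → c ≠ 0 := fun {i} {c} {y} hy hr e => by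
    rw [e, zero_smul, S.splitModel.red_zero] at hr
    exact pow_ne_zero n hy hr.symm
  refine S.splitModel.exists_rep hn hu0 D hD ![c₀, c₁] ![y₀, y₁] fun i => ?_
  obtain rfl | rfl : i = 0 ∨ i = 1 := by omega
  · exact ⟨hc hy₀ hr₀, hy₀, hi₀, hr₀⟩
  · exact ⟨hc hy₁ hr₁, hy₁, hi₁, hr₁⟩

section Torsion

variable {p k : ℕ} [Fact p.Prime]

theorem toHecke_rename {N N' : ℕ} (h : N ∣ N') (P : GoodHecke N') :
    toHecke (MvPolynomial.rename
      (fun r : {r : Nat.Primes // ¬ (r : ℕ) ∣ N'} =>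
        (⟨r.1, fun h' => r.2 (h'.trans h)⟩ : {r : Nat.Primes // ¬ (r : ℕ) ∣ N})) P) =
      toHecke P := by
  rw [toHecke, MvPolynomial.rename_rename]
  rfl

theorem wJ_heckePoly (P : GoodHecke (M * q * p)) :
    ∀ {x : JZero (M * q)}, p ^ k • x = 0 →
      wJ S (letI := heckeModuleBar (M * q); toHecke P • x) =
        (letI := heckeModuleBar (M * q); toHecke P • wJ S x) := by
  let := heckeModuleBar (M * q)
  induction P using MvPolynomial.induction_on with
  | C a =>
    intro x _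
    rw [toHecke, MvPolynomial.rename_C, heckeModuleBar_C_smul, heckeModuleBar_C_smul, map_zsmul]
  | add P Q hP hQ =>
    intro x hx
    have h : toHecke (P + Q) = toHecke P + toHecke Q := map_add _ _ _
    rw [h, add_smul, add_smul, map_add, hP hx, hQ hx]
  | mul_X P r hP =>
    intro x hx
    have : NeZero ((r.1 : Nat.Primes) : ℕ) := ⟨r.1.2.ne_zero⟩
    have h : toHecke (P * MvPolynomial.X r) = toHecke P * heckeGen r.1 := by
      rw [toHecke, map_mul, MvPolynomial.rename_X]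
      rfl
    rw [h, mul_smul, mul_smul,
      heckeModuleBar_heckeGen_smul (HeckeJ0.heckeOperatorsCommuteBar (M * q)),
      heckeModuleBar_heckeGen_smul (HeckeJ0.heckeOperatorsCommuteBar (M * q)),
      hP (by rw [← map_nsmul, hx, map_zero])]
    exact congrArg _ (map_heckeOperatorAlong (p := p) isGaloisEquivariant_wJ r.1.2 r.2 hx)

include S in
/-- **`φ = - q w_q` on `Q (T_ℓ - ℓ - 1) x`.** -/
theorem smul_add_of_killed {φ : Qbar ≃ₐ[ℚ] Qbar} (hφ : A.IsFrobeniusAt φ q) (hp : 5 ≤ p)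
    (hpq : p ≠ q) {x : JZero (M * q)} (hx : p ^ k • x = 0)
    (hfix : ∀ σ ∈ A.inertiaSubgroupIn ℚ, σ • x = x) {ℓ : ℕ} [NeZero ℓ] (hℓ : ℓ.Prime)
    (hℓN : ¬ ℓ ∣ M * q * p) (Q : GoodHecke (M * q * p))
    (hQ : ∀ ξ : JZero M, p ^ k • ξ = 0 → (letI := heckeModuleBar M; toHecke Q • ξ) = 0)
    {y : JZero (M * q)}
    (hy : y = (letI := heckeModuleBar (M * q);
      toHecke Q • (heckeOperatorAlong Qbar (M * q) ℓ x - (ℓ + 1) • x))) :
    φ • y + q • (SemilinearAut.ofAlgAut S.w • y) = 0 := by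
  have := isFunctionField_level (M * q)
  have := S.isFunctionField_C
  have : HasPrincipalDivisors (ResidueField A) (modularFunctionFieldFullC (ResidueField A) M) :=
    FunctionFieldRR.hasPrincipalDivisors
  have : CharP (modularFunctionFieldFullC (ResidueField A) M) q :=
    charP_of_injective_algebraMap (algebraMap (ResidueField A) _).injective q
  obtain ⟨U⟩ := nonempty_levelUnit S
  obtain ⟨hI, R, hR⟩ := exists_redMap_modL S
  have hp' : p.Prime := Fact.out
  have hn : p ^ k ≠ 0 := pow_ne_zero _ hp'.ne_zero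
  have hcop : ∀ z (hz : z ∈ S.splitModel.pairs), (p ^ k).Coprime (pairAt U hz).e := fun z hz =>
    Nat.Coprime.pow_left k (Nat.Coprime.coprime_dvd_right (pair_e_dvd U hz)
      ((hp'.coprime_iff_not_dvd).mpr fun h => by
        have := Nat.le_of_dvd (by norm_num) h
        interval_cases p <;> (revert hp' h; norm_num)))
  have hℓMq : ¬ ℓ ∣ M * q := fun h => hℓN (h.mul_right p)
  let := heckeModuleBar (M * q)
  have hk0 : ∀ {x : JZero (M * q)}, p ^ k • x = 0 →
      (∀ σ ∈ A.inertiaSubgroupIn ℚ, σ • x = x) →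
      toHecke Q • (heckeOperatorAlong Qbar (M * q) ℓ x - (ℓ + 1) • x) ∈
        killed S.splitModel 0 (p ^ k) := by
    intro x hx hfix
    obtain ⟨ξ₀, hξ₀⟩ := exists_lifted U R hn hcop hx hfix hℓ hℓMq
    obtain ⟨ξ, hξ0, hξ⟩ := hξ₀.exists_torsion (Fact.out : p.Prime) hpq hR
    have h1 := hξ.poly (MvPolynomial.rename
      (fun r : {r : Nat.Primes // ¬ (r : ℕ) ∣ M * q * p} =>
        (⟨r.1, fun h' => r.2 (h'.trans (dvd_mul_right _ p))⟩ :
          {r : Nat.Primes // ¬ (r : ℕ) ∣ M * q})) Q)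
    rw [toHecke_rename (dvd_mul_right _ p), hQ ξ hξ0] at h1
    exact h1.mem_killed hn
  have hwx : p ^ k • wJ S x = 0 := by rw [← map_nsmul, hx, map_zero]
  have hwfix : ∀ σ ∈ A.inertiaSubgroupIn ℚ, σ • wJ S x = wJ S x := fun σ hσ => by
    rw [← isGaloisEquivariant_wJ σ x, hfix σ hσ]
  have hw : wJ S y = toHecke Q • (heckeOperatorAlong Qbar (M * q) ℓ (wJ S x) - (ℓ + 1) • wJ S x) := by
    rw [hy, wJ_heckePoly (p := p) (k := k) Q ?_, map_sub, map_nsmul,
      map_heckeOperatorAlong (p := p) isGaloisEquivariant_wJ hℓ hℓN hx]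
    rw [nsmul_sub, ← map_nsmul, hx, map_zero, smul_comm, hx, smul_zero, sub_zero]
  obtain ⟨Rep, hRep⟩ := exists_rep_of_killed hn (hy ▸ hk0 hx hfix)
    (mem_killed_one_of_wJ (hw ▸ hk0 hwx hwfix))
  have hnk : ((p ^ k : ℕ) : ResidueField A) ≠ 0 := by
    rw [Ne, CharP.cast_eq_zero_iff (ResidueField A) q]
    exact fun h => hpq ((Nat.prime_dvd_prime_iff_eq Fact.out hp').mp
      ((Fact.out : q.Prime).dvd_of_dvd_pow h)).symm
  rw [← hRep]
  exact S.smul_cls_add hφ hnk Rep

end Torsion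

end Fermat.Agent.MazurPrinciple

end
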