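import Fermat.Agent.MazurPrinciple.Branch
import Fermat.Agent.MazurPrinciple.Divisible
import Mathlib.RingTheory.Norm.Transitivity
import Mathlib.FieldTheory.IsAlgClosed.AlgebraicClosure
import Mathlib.RingTheory.Adjoin.Tower

/-!
# The local law at a pair

With `a * b = p ^ e`, adjoin `s` with `s ^ e = a`. The ring over the local ring generated by `s`
and `t = p / s` is local with maximal ideal `(s, t)`, hence factorial. A function which is an
`n`-th power up to a unit at every horizontal valuation satisfies `e * go₀ ≡ gv₁ - gv₀` modulo `n`.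
-/

set_option autoImplicit false

noncomputable section

namespace Fermat.Agent.MazurPrinciple

open Fermat.Agent.LevelP IntermediateField

variable {p : ℕ} [Fact p.Prime] {F : Type*} [Field F] {k G : Type*} [Field k] [Field G]
  [Algebra k G] {D : GlueData p F k G} {W : Subring F} {P Q : DVPoint k G} {w : F} {kw : ℕ}
  (S : PairData D W P Q w kw) (hp : (p : F) ≠ 0)

local notation "Ω" => AlgebraicClosure F

/-- A root of `X ^ e - a`. -/
def rootS : Ω := (IsAlgClosed.exists_pow_nat_eq (algebraMap F Ω S.a) S.e_pos).choose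

omit [Fact p.Prime] in
theorem rootS_pow : rootS S ^ S.e = algebraMap F Ω S.a :=
  (IsAlgClosed.exists_pow_nat_eq (algebraMap F Ω S.a) S.e_pos).choose_spec

/-- The field `F(s)`. -/
abbrev NodeK : IntermediateField F Ω := F⟮rootS S⟯

/-- The root in `F(s)`. -/
def sK : NodeK S := ⟨rootS S, mem_adjoin_simple_self F _⟩

omit [Fact p.Prime] in
theorem sK_pow : sK S ^ S.e = algebraMap F (NodeK S) S.a := Subtype.ext (rootS_pow S)

omit [Fact p.Prime] in
include hp in
theorem a_ne : S.a ≠ 0 := fun h0 => by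
  have := S.a_mul_b
  rw [h0, zero_mul] at this
  exact pow_ne_zero _ hp this.symm

omit [Fact p.Prime] in
include hp in
theorem b_ne : S.b ≠ 0 := fun h0 => by
  have := S.a_mul_b
  rw [h0, mul_zero] at this
  exact pow_ne_zero _ hp this.symm

/-- The root `p / s`. -/
def tK : NodeK S := (p : NodeK S) / sK S

include hp in
theorem sK_ne : sK S ≠ 0 := fun h0 => by
  have h := sK_pow S
  rw [h0, zero_pow S.e_pos.ne', eq_comm, map_eq_zero] at h
  exact a_ne S hp h

include hp in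
theorem tK_pow : tK S ^ S.e = algebraMap F (NodeK S) S.b := by
  rw [tK, div_pow, sK_pow, ← map_natCast (algebraMap F (NodeK S)), ← map_pow, ← S.a_mul_b, map_mul,
    mul_div_cancel_left₀ _ ((map_ne_zero _).mpr (a_ne S hp))]

instance finite_nodeK : FiniteDimensional F (NodeK S) :=
  adjoin.finiteDimensional (Algebra.IsIntegral.isIntegral _)

omit [Fact p.Prime] in
theorem finrank_le : Module.finrank F (NodeK S) ≤ S.e := by
  rw [adjoin.finrank (Algebra.IsIntegral.isIntegral _)]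
  have hne : (Polynomial.X ^ S.e - Polynomial.C S.a : Polynomial F) ≠ 0 :=
    (Polynomial.monic_X_pow_sub_C S.a S.e_pos.ne').ne_zero
  refine (Polynomial.natDegree_le_of_dvd (minpoly.dvd F (rootS S) ?_) hne).trans
    (le_of_eq (Polynomial.natDegree_X_pow_sub_C))
  simp [rootS_pow]

/-- The invariants of an integral element and of its inverse, in `F(s)`. -/
theorem norm_unit (hp : (p : F) ≠ 0) {i : Fin 2} {R : DVPoint k G}
    (hreg : ∀ f ∈ S.A, D.redF i f ∈ R.O) {U V : NodeK S} (hU : IsIntegral S.A U)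
    (hV : IsIntegral S.A V) (hUV : U * V = 1) :
    gv D i (Algebra.norm F U) = 0 ∧ go D R i (Algebra.norm F U) = 0 := by
  have h1 : Algebra.norm F U * Algebra.norm F V = 1 := by rw [← map_mul, hUV, map_one]
  have hV' : Algebra.norm F V = (Algebra.norm F U)⁻¹ := eq_inv_of_mul_eq_one_right h1
  have hU0 : Algebra.norm F U ≠ 0 := left_ne_zero_of_mul_eq_one h1
  obtain ⟨a1, a2⟩ := nonneg_of_isIntegral D hp (S.le i) hreg hU0 (Algebra.isIntegral_norm F hU)
  obtain ⟨b1, b2⟩ := nonneg_of_isIntegral D hp (S.le i) hreg (inv_ne_zero hU0)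
    (hV' ▸ Algebra.isIntegral_norm F hV)
  rw [(gv_inv D hp hU0).1, go_inv D hp R hU0] at *
  have h0 : gv D i (Algebra.norm F U) = 0 := le_antisymm (by omega) a1
  exact ⟨h0, le_antisymm (by have := b2 (by rw [h0, neg_zero]); omega) (a2 h0)⟩

/-- The ring generated over the local ring by `s` and `t`. -/
def nodeR : Subalgebra S.A (NodeK S) := Algebra.adjoin S.A {sK S, tK S}

omit [Fact p.Prime] in
theorem s_memR : sK S ∈ nodeR S := Algebra.subset_adjoin (by simp)

omit [Fact p.Prime] in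
theorem t_memR : tK S ∈ nodeR S := Algebra.subset_adjoin (by simp)

omit [Fact p.Prime] in
theorem F_memR {f : F} (hf : f ∈ S.A) : algebraMap F (NodeK S) f ∈ nodeR S := by
  have h : algebraMap F (NodeK S) f = algebraMap S.A (NodeK S) ⟨f, hf⟩ := rfl
  rw [h]
  exact (nodeR S).algebraMap_mem _

include hp in
theorem isIntegral_nodeGens : ∀ x ∈ ({sK S, tK S} : Set (NodeK S)), IsIntegral S.A x := by
  rintro x (rfl | rfl)
  · refine IsIntegral.of_pow S.e_pos ?_
    rw [sK_pow]
    exact isIntegral_algebraMap (x := (⟨S.a, S.a_mem⟩ : S.A))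
  · refine IsIntegral.of_pow S.e_pos ?_
    rw [tK_pow S hp]
    exact isIntegral_algebraMap (x := (⟨S.b, S.b_mem⟩ : S.A))

include hp in
theorem finite_nodeR : Module.Finite S.A (nodeR S) :=
  Module.Finite.iff_fg.mpr
    (fg_adjoin_of_finite ((Set.finite_singleton _).insert _) (isIntegral_nodeGens S hp))

include hp in
theorem noetherian_nodeR : IsNoetherianRing (nodeR S).toSubring := by
  have := S.noetherian
  have := finite_nodeR S hp
  exact IsNoetherianRing.of_finite S.A (nodeR S)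

include hp in
theorem isIntegral_memR {x : NodeK S} (hx : x ∈ nodeR S) : IsIntegral S.A x := by
  have := finite_nodeR S hp
  have := (IsIntegral.of_finite S.A (⟨x, hx⟩ : nodeR S)).map (nodeR S).val
  exact this

/-- `s` in the node ring. -/
def sR : (nodeR S).toSubring := ⟨sK S, s_memR S⟩

/-- `t` in the node ring. -/
def tR : (nodeR S).toSubring := ⟨tK S, t_memR S⟩

/-- An element of the local ring in the node ring. -/
def toR (f : S.A) : (nodeR S).toSubring := ⟨algebraMap F (NodeK S) f, F_memR S f.2⟩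

/-- The ideal `(s, t)`. -/
def nodeI : Ideal (nodeR S).toSubring := Ideal.span {sR S, tR S}

include hp in
theorem toR_mem_nodeI {f : S.A} (h : P.evF (D.redF 0 (f : F)) = 0) : toR S f ∈ nodeI S := by
  obtain ⟨z0, hz0, hz0'⟩ := S.red0_a.exists_div (S.red0_mem f f.2) h
  obtain ⟨z1, hz1, hz1'⟩ := S.red1_b.exists_div (S.red1_mem f f.2) (by rw [← S.ev_eq f f.2, h])
  obtain ⟨g1, hg1, hg10, hg11⟩ := S.surj z0 hz0 (algebraMap k G (P.evF z0)) (Q.algebraMap_mem _)
    (Q.evF_algebraMap _).symm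
  obtain ⟨g2, hg2, hg20, hg21⟩ := S.surj (algebraMap k G (Q.evF z1)) (P.algebraMap_mem _) z1 hz1
    (P.evF_algebraMap _)
  set m := S.a * g1 + S.b * g2
  have hm : m ∈ S.A := add_mem (mul_mem S.a_mem hg1) (mul_mem S.b_mem hg2)
  have hred : ∀ i, D.redF i m = D.redF i S.a * D.redF i g1 + D.redF i S.b * D.redF i g2 := fun i =>
    by rw [D.redF_add (mul_mem (S.le i S.a_mem) (S.le i hg1)) (mul_mem (S.le i S.b_mem) (S.le i hg2)),
      D.redF_mul (S.le i S.a_mem) (S.le i hg1), D.redF_mul (S.le i S.b_mem) (S.le i hg2)]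
  have hsub : ∀ i, D.redF i ((f : F) - m) = D.redF i f - D.redF i m := fun i => by
    have h := D.redF_add (S.le i (sub_mem f.2 hm)) (S.le i hm)
    rw [sub_add_cancel] at h
    linear_combination -h
  obtain ⟨g3, hg3, hg3'⟩ := S.ker _ (sub_mem f.2 hm)
    (by rw [hsub, hred, hz0', hg10, S.red0_b]; ring)
    (by rw [hsub, hred, hz1', hg21, S.red1_a]; ring)
  have he : toR S f = sR S ^ S.e * toR S ⟨g1, hg1⟩ + tR S ^ S.e * toR S ⟨g2, hg2⟩ +
      sR S * tR S * toR S ⟨g3, hg3⟩ := Subtype.ext (by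
    show algebraMap F (NodeK S) f = sK S ^ S.e * algebraMap F (NodeK S) g1 +
      tK S ^ S.e * algebraMap F (NodeK S) g2 + sK S * tK S * algebraMap F (NodeK S) g3
    rw [sK_pow, tK_pow S hp, tK, mul_div_cancel₀ _ (sK_ne S hp),
      ← map_natCast (algebraMap F (NodeK S)), ← map_mul, ← map_mul, ← map_mul, ← map_add, ← map_add,
      show (f : F) = m + (p : F) * g3 by linear_combination hg3'])
  rw [he]
  have hsI : sR S ∈ nodeI S := Ideal.subset_span (by simp)
  have htI : tR S ∈ nodeI S := Ideal.subset_span (by simp)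
  exact add_mem (add_mem (Ideal.mul_mem_right _ _ (Ideal.pow_mem_of_mem _ hsI _ S.e_pos))
    (Ideal.mul_mem_right _ _ (Ideal.pow_mem_of_mem _ htI _ S.e_pos)))
    (Ideal.mul_mem_right _ _ (Ideal.mul_mem_right _ _ hsI))

omit [Fact p.Prime] in
theorem exists_toR_sub (x : (nodeR S).toSubring) : ∃ f : S.A, x - toR S f ∈ nodeI S := by
  obtain ⟨x, hx⟩ := x
  have hsI : sR S ∈ nodeI S := Ideal.subset_span (by simp)
  have htI : tR S ∈ nodeI S := Ideal.subset_span (by simp)
  induction hx using Algebra.adjoin_induction with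
  | mem x hx =>
    refine ⟨0, ?_⟩
    rw [show toR S 0 = 0 from Subtype.ext (map_zero _), sub_zero]
    rcases hx with rfl | rfl
    · exact hsI
    · exact htI
  | algebraMap r =>
    refine ⟨r, ?_⟩
    convert (nodeI S).zero_mem using 1
    exact sub_eq_zero.mpr (Subtype.ext rfl)
  | add x y hx hy ihx ihy =>
    obtain ⟨f, hf⟩ := ihx
    obtain ⟨g, hg⟩ := ihy
    refine ⟨f + g, ?_⟩
    convert (nodeI S).add_mem hf hg using 1
    exact Subtype.ext (by
      show x + y - algebraMap F (NodeK S) ((f : F) + g) = _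
      rw [map_add]; simp [toR]; ring)
  | mul x y hx hy ihx ihy =>
    obtain ⟨f, hf⟩ := ihx
    obtain ⟨g, hg⟩ := ihy
    refine ⟨f * g, ?_⟩
    convert (nodeI S).add_mem ((nodeI S).mul_mem_right ⟨y, hy⟩ hf)
      ((nodeI S).mul_mem_left (toR S f) hg) using 1
    exact Subtype.ext (by
      show x * y - algebraMap F (NodeK S) ((f : F) * g) = _
      rw [map_mul]; simp [toR]; ring)

include hp in
theorem nodeI_le {M : Ideal (nodeR S).toSubring} (hM : M.IsMaximal) : nodeI S ≤ M := by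
  have hval : ∀ f : S.A, P.evF (D.redF 0 (f : F)) ≠ 0 → IsUnit (toR S f) := fun f hf => by
    have hf0 : (f : F) ≠ 0 := fun h0 => hf (by rw [h0, D.redF_zero, P.evF_zero])
    exact IsUnit.of_mul_eq_one (toR S ⟨_, S.inv_mem f f.2 hf⟩) (Subtype.ext (by
      show algebraMap F (NodeK S) f * algebraMap F (NodeK S) (f : F)⁻¹ = 1
      rw [← map_mul, mul_inv_cancel₀ hf0, map_one]))
  -- the value is multiplicative and `a`, `b` have value zero
  have := finite_nodeR S hp
  let φ : S.A →+* (nodeR S).toSubring :=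
    { toFun := toR S
      map_one' := Subtype.ext (map_one _)
      map_mul' := fun f g => Subtype.ext (map_mul _ _ _)
      map_zero' := Subtype.ext (map_zero _)
      map_add' := fun f g => Subtype.ext (map_add _ _ _) }
  have hφ : φ.IsIntegral := fun x => by
    obtain ⟨q, hq, hx⟩ := isIntegral_memR S hp x.2
    refine ⟨q, hq, Subtype.ext ?_⟩
    refine Eq.trans ?_ hx
    exact Polynomial.hom_eval₂ q φ (nodeR S).toSubring.subtype x
  have hmax : (M.comap φ).IsMaximal := Ideal.isMaximal_comap_of_isIntegral_of_isMaximal' φ hφ M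
  have hab : ∀ f : S.A, P.evF (D.redF 0 (f : F)) = 0 → toR S f ∈ M := fun f hf => by
    by_contra hfM
    obtain ⟨g, i, hi, hgi⟩ := hmax.exists_inv (show f ∉ M.comap φ from hfM)
    have hi0 : P.evF (D.redF 0 (i : F)) = 0 := by
      by_contra h
      exact hM.ne_top (Ideal.eq_top_of_isUnit_mem _ hi (hval i h))
    have h1 := congrArg (fun z : S.A => P.evF (D.redF 0 (z : F))) hgi
    simp only [Subring.coe_add, Subring.coe_mul, Subring.coe_one] at h1
    have hgf := mul_mem (S.le 0 g.2) (S.le 0 f.2)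
    rw [D.redF_add hgf (S.le 0 i.2), D.redF_mul (S.le 0 g.2) (S.le 0 f.2), D.redF_one,
      P.evF_add (mul_mem (S.red0_mem _ g.2) (S.red0_mem _ f.2)) (S.red0_mem _ i.2),
      P.evF_mul (S.red0_mem _ g.2) (S.red0_mem _ f.2), P.evF_one, hf, hi0, mul_zero, add_zero] at h1
    exact zero_ne_one h1
  have hs : sR S ^ S.e ∈ M := by
    rw [show sR S ^ S.e = toR S ⟨S.a, S.a_mem⟩ from Subtype.ext (sK_pow S)]
    exact hab _ S.red0_a.evF_eq_zero
  have ht : tR S ^ S.e ∈ M := by
    rw [show tR S ^ S.e = toR S ⟨S.b, S.b_mem⟩ from Subtype.ext (tK_pow S hp)]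
    exact hab _ (by rw [show ((⟨S.b, S.b_mem⟩ : S.A) : F) = S.b from rfl, S.red0_b, P.evF_zero])
  rw [nodeI, Ideal.span_le]
  rintro x (rfl | rfl)
  · exact hM.isPrime.mem_of_pow_mem _ hs
  · exact hM.isPrime.mem_of_pow_mem _ ht

include hp in
theorem mem_nodeI_or_isUnit (x : (nodeR S).toSubring) : x ∈ nodeI S ∨ IsUnit x := by
  obtain ⟨f, hf⟩ := exists_toR_sub S x
  by_cases h : P.evF (D.redF 0 (f : F)) = 0
  · left
    simpa using (nodeI S).add_mem hf (toR_mem_nodeI S hp h)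
  · right
    by_contra hu
    obtain ⟨M, hM, hxM⟩ := exists_max_ideal_of_mem_nonunits hu
    have hfM : toR S f ∈ M := by simpa using M.sub_mem hxM (nodeI_le S hp hM hf)
    have hf0 : (f : F) ≠ 0 := fun h0 => h (by rw [h0, D.redF_zero, P.evF_zero])
    exact hM.ne_top (Ideal.eq_top_of_isUnit_mem _ hfM (IsUnit.of_mul_eq_one
      (toR S ⟨_, S.inv_mem f f.2 h⟩) (Subtype.ext (by
        show algebraMap F (NodeK S) f * algebraMap F (NodeK S) (f : F)⁻¹ = 1
        rw [← map_mul, mul_inv_cancel₀ hf0, map_one]))))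

include hp in
theorem nonunits_eq : ∀ x : (nodeR S).toSubring, x ∈ nonunits _ ↔ x ∈ nodeI S := fun x => by
  refine ⟨fun h => (mem_nodeI_or_isUnit S hp x).resolve_right h, fun h hu => ?_⟩
  obtain ⟨M, hM⟩ := Ideal.exists_maximal (nodeR S).toSubring
  exact hM.ne_top (Ideal.eq_top_of_isUnit_mem _ (nodeI_le S hp hM h) hu)

include hp in
theorem isLocalRing_nodeR : IsLocalRing (nodeR S).toSubring :=
  IsLocalRing.of_nonunits_add fun {a b} ha hb => (nonunits_eq S hp _).mpr
    ((nodeI S).add_mem ((nonunits_eq S hp a).mp ha) ((nonunits_eq S hp b).mp hb))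

include hp in
theorem maximalIdeal_nodeR :
    haveI := isLocalRing_nodeR S hp
    IsLocalRing.maximalIdeal (nodeR S).toSubring = Ideal.span {sR S, tR S} := by
  have := isLocalRing_nodeR S hp
  ext x
  exact nonunits_eq S hp x

omit [Fact p.Prime] in
include hp in
theorem exists_frac (x : NodeK S) :
    ∃ g h : (nodeR S).toSubring, h ≠ 0 ∧ x * (h : NodeK S) = g := by
  suffices h : ∀ y : Ω, ∀ hy : y ∈ F⟮rootS S⟯, ∃ g h : (nodeR S).toSubring,
      h ≠ 0 ∧ (⟨y, hy⟩ : NodeK S) * (h : NodeK S) = g from h x x.2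
  intro y hy
  induction hy using IntermediateField.adjoin_induction with
  | mem y hy =>
    rw [Set.mem_singleton_iff] at hy
    subst hy
    exact ⟨sR S, 1, one_ne_zero, by simp [sR, sK]⟩
  | algebraMap f =>
    obtain ⟨x, hx, z, hz, hz0, e⟩ := S.fraction f
    refine ⟨⟨_, F_memR S hx⟩, ⟨_, F_memR S hz⟩, fun h => hz0 ?_, ?_⟩
    · exact (map_eq_zero _).mp (congrArg Subtype.val h)
    · show algebraMap F (NodeK S) f * algebraMap F (NodeK S) z = algebraMap F (NodeK S) x
      rw [← map_mul, e]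
  | add x y hx hy ihx ihy =>
    obtain ⟨g, h, hh, e⟩ := ihx
    obtain ⟨g', h', hh', e'⟩ := ihy
    refine ⟨g * h' + g' * h, h * h', mul_ne_zero hh hh', ?_⟩
    push_cast
    rw [← e, ← e', show (⟨x + y, add_mem hx hy⟩ : NodeK S) = ⟨x, hx⟩ + ⟨y, hy⟩ from rfl]
    ring
  | inv x hx ih =>
    obtain ⟨g, h, hh, e⟩ := ih
    by_cases hg : g = 0
    · refine ⟨0, 1, one_ne_zero, ?_⟩
      rw [hg] at e
      rcases mul_eq_zero.mp e with h0 | h0
      · have hx0 : x = 0 := congrArg Subtype.val h0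
        exact Subtype.ext (by simp [hx0])
      · exact absurd (Subtype.ext h0) hh
    · refine ⟨h, g, hg, ?_⟩
      rw [show (⟨x⁻¹, inv_mem hx⟩ : NodeK S) = (⟨x, hx⟩ : NodeK S)⁻¹ from rfl, ← e,
        ← mul_assoc, inv_mul_cancel₀ (fun h0 => hg (Subtype.ext (by
          rw [← e, h0, zero_mul]; rfl))), one_mul]
  | mul x y hx hy ihx ihy =>
    obtain ⟨g, h, hh, e⟩ := ihx
    obtain ⟨g', h', hh', e'⟩ := ihy
    refine ⟨g * g', h * h', mul_ne_zero hh hh', ?_⟩
    push_cast
    rw [← e, ← e', show (⟨x * y, mul_mem hx hy⟩ : NodeK S) = ⟨x, hx⟩ * ⟨y, hy⟩ from rfl]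
    ring

include hp in
theorem invariants_ab : gv D 0 S.a = 0 ∧ go D P 0 S.a = 1 ∧ gv D 0 S.b = S.e ∧
    go D P 0 S.b = -1 ∧ gv D 1 S.b = 0 ∧ go D Q 1 S.b = 1 ∧ gv D 1 S.a = S.e ∧
    go D Q 1 S.a = -1 := by
  have ha := a_ne S hp
  have hb := b_ne S hp
  have key : ∀ (i : Fin 2) (R : DVPoint k G),
      gv D i S.a + gv D i S.b = S.e ∧ go D R i S.a + go D R i S.b = 0 := by
    intro i R
    have h1 := (gv_mul D hp (i := i) ha hb).1
    have h2 := go_mul D hp R (i := i) ha hb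
    rw [S.a_mul_b, (gv_pow D hp hp S.e).1, (gv_natCast D hp i).1] at h1
    rw [S.a_mul_b, go_pow D hp R hp, go_natCast D hp R i] at h2
    omega
  obtain ⟨a1, a2⟩ := gv_of_red_ne D hp (S.le 0 S.a_mem) S.red0_a.ne_zero
  obtain ⟨b1, b2⟩ := gv_of_red_ne D hp (S.le 1 S.b_mem) S.red1_b.ne_zero
  have a3 : go D P 0 S.a = 1 := by rw [go, a2]; exact S.red0_a.ord_eq_one
  have b3 : go D Q 1 S.b = 1 := by rw [go, b2]; exact S.red1_b.ord_eq_one
  obtain ⟨k1, k2⟩ := key 0 P
  obtain ⟨k3, k4⟩ := key 1 Q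
  omega

include hp in
theorem invariants_norm : Module.finrank F (NodeK S) = S.e ∧
    gv D 0 (Algebra.norm F (sK S)) = 0 ∧ go D P 0 (Algebra.norm F (sK S)) = 1 ∧
    gv D 1 (Algebra.norm F (sK S)) = S.e ∧ go D Q 1 (Algebra.norm F (sK S)) = -1 ∧
    gv D 0 (Algebra.norm F (tK S)) = S.e ∧ go D P 0 (Algebra.norm F (tK S)) = -1 ∧
    gv D 1 (Algebra.norm F (tK S)) = 0 ∧ go D Q 1 (Algebra.norm F (tK S)) = 1 := by
  set d := Module.finrank F (NodeK S) with hd
  set N := Algebra.norm F (sK S) with hN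
  have hN0 : N ≠ 0 := Algebra.norm_ne_zero_iff.mpr (sK_ne S hp)
  have hpow : N ^ S.e = S.a ^ d := by rw [hN, ← map_pow, sK_pow, Algebra.norm_algebraMap]
  obtain ⟨i1, i2, i3, i4, i5, i6, i7, i8⟩ := invariants_ab S hp
  have e1 := (gv_pow D hp (i := 0) hN0 S.e).1
  have e2 := go_pow D hp P (i := 0) hN0 S.e
  have e3 := (gv_pow D hp (i := 1) hN0 S.e).1
  have e4 := go_pow D hp Q (i := 1) hN0 S.e
  rw [hpow, (gv_pow D hp (a_ne S hp) d).1, i1] at e1
  rw [hpow, go_pow D hp P (a_ne S hp) d, i2] at e2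
  rw [hpow, (gv_pow D hp (a_ne S hp) d).1, i7] at e3
  rw [hpow, go_pow D hp Q (a_ne S hp) d, i8] at e4
  have hd0 : 0 < d := Module.finrank_pos
  have hde : d = S.e := by
    refine le_antisymm (finrank_le S) (Nat.le_of_dvd hd0 ?_)
    have : (S.e : ℤ) ∣ d := ⟨go D P 0 N, by rw [← e2, mul_one]⟩
    exact_mod_cast this
  have he : (S.e : ℤ) ≠ 0 := by exact_mod_cast S.e_pos.ne'
  rw [hde] at e1 e2 e3 e4
  have f1 : gv D 0 N = 0 := mul_left_cancel₀ he (by rw [mul_zero, ← e1, mul_zero])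
  have f2 : go D P 0 N = 1 := mul_left_cancel₀ he (by rw [← e2, mul_one])
  have f3 : gv D 1 N = S.e := mul_left_cancel₀ he (by rw [← e3])
  have f4 : go D Q 1 N = -1 := mul_left_cancel₀ he (by rw [← e4])
  set N' := Algebra.norm F (tK S) with hN'
  have hprod : N * N' = (p : F) ^ S.e := by
    rw [hN, hN', ← map_mul, tK, mul_div_cancel₀ _ (sK_ne S hp),
      ← map_natCast (algebraMap F (NodeK S)), Algebra.norm_algebraMap, ← hd, hde]
  have hN'0 : N' ≠ 0 := fun h0 => pow_ne_zero S.e hp (by rw [← hprod, h0, mul_zero])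
  have key : ∀ (i : Fin 2) (R : DVPoint k G),
      gv D i N + gv D i N' = S.e ∧ go D R i N + go D R i N' = 0 := by
    intro i R
    have h1 := (gv_mul D hp (i := i) hN0 hN'0).1
    have h2 := go_mul D hp R (i := i) hN0 hN'0
    rw [hprod, (gv_pow D hp hp S.e).1, (gv_natCast D hp i).1] at h1
    rw [hprod, go_pow D hp R hp, go_natCast D hp R i] at h2
    omega
  obtain ⟨g1, g2⟩ := key 0 P
  obtain ⟨g3, g4⟩ := key 1 Q
  refine ⟨hde, f1, f2, f3, f4, ?_, ?_, ?_, ?_⟩ <;> omega

include hp in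
theorem tR_not_nilpotent (N : ℕ) : tR S ^ N ∉ Ideal.span {sR S} := by
  rw [Ideal.mem_span_singleton]
  rintro ⟨r, hr⟩
  have hr' : tK S ^ N = sK S * (r : NodeK S) := congrArg Subtype.val hr
  have ht0 : tK S ≠ 0 := fun h0 => b_ne S hp ((map_eq_zero (algebraMap F (NodeK S))).mp
    (by rw [← tK_pow S hp, h0, zero_pow S.e_pos.ne']))
  have hr0 : (r : NodeK S) ≠ 0 := fun h0 => pow_ne_zero N ht0 (by rw [hr', h0, mul_zero])
  have hn0 : Algebra.norm F (r : NodeK S) ≠ 0 := Algebra.norm_ne_zero_iff.mpr hr0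
  obtain ⟨-, -, -, f3, -, -, -, f7, -⟩ := invariants_norm S hp
  have h1 := congrArg (fun x => gv D 1 (Algebra.norm F x)) hr'
  simp only [map_mul, map_pow] at h1
  rw [(gv_pow D hp (Algebra.norm_ne_zero_iff.mpr ht0) N).1, f7,
    (gv_mul D hp (Algebra.norm_ne_zero_iff.mpr (sK_ne S hp)) hn0).1, f3] at h1
  have h2 := (nonneg_of_isIntegral D hp (S.le 1) S.red1_mem hn0
    (Algebra.isIntegral_norm F (isIntegral_memR S hp r.2))).1
  have := S.e_pos
  omega

include hp in
theorem sR_not_nilpotent (N : ℕ) : sR S ^ N ∉ Ideal.span {tR S} := by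
  rw [Ideal.mem_span_singleton]
  rintro ⟨r, hr⟩
  have hr' : sK S ^ N = tK S * (r : NodeK S) := congrArg Subtype.val hr
  have hs0 := sK_ne S hp
  have ht0 : tK S ≠ 0 := fun h0 => pow_ne_zero N hs0 (by rw [hr', h0, zero_mul])
  have hr0 : (r : NodeK S) ≠ 0 := fun h0 => pow_ne_zero N hs0 (by rw [hr', h0, mul_zero])
  have hn0 : Algebra.norm F (r : NodeK S) ≠ 0 := Algebra.norm_ne_zero_iff.mpr hr0
  obtain ⟨-, f1, -, -, -, f5, -, -, -⟩ := invariants_norm S hp
  have h1 := congrArg (fun x => gv D 0 (Algebra.norm F x)) hr'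
  simp only [map_mul, map_pow] at h1
  rw [(gv_pow D hp (Algebra.norm_ne_zero_iff.mpr hs0) N).1, f1,
    (gv_mul D hp (Algebra.norm_ne_zero_iff.mpr ht0) hn0).1, f5] at h1
  have h2 := (nonneg_of_isIntegral D hp (S.le 0) S.red0_mem hn0
    (Algebra.isIntegral_norm F (isIntegral_memR S hp r.2))).1
  have := S.e_pos
  omega

include hp in
theorem irreducible_tR : Irreducible (tR S) := by
  have := noetherian_nodeR S hp
  have := isLocalRing_nodeR S hp
  have hm : IsLocalRing.maximalIdeal (nodeR S).toSubring = Ideal.span {tR S, sR S} := by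
    rw [maximalIdeal_nodeR S hp, Set.pair_comm]
  have h := (LevelP.isPrime_and_pid_of_not_nilpotent hm (sR_not_nilpotent S hp)).1
  have ht0 : tR S ≠ 0 := fun h0 => tR_not_nilpotent S hp 1 (by rw [pow_one, h0]; exact zero_mem _)
  exact ((Ideal.span_singleton_prime ht0).mp h).irreducible

/-- The local law at a pair. -/
theorem node_law (hp : (p : F) ≠ 0) {n : ℕ} (hn : 0 < n) (hne : n.Coprime S.e) {u : F}
    (hu : u ≠ 0)
    (hpow : HorizPow S.A p n u) :
    (n : ℤ) ∣ S.e * go D P 0 u - (gv D 1 u - gv D 0 u) ∧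
      (n : ℤ) ∣ go D P 0 u + go D Q 1 u := by
  have := noetherian_nodeR S hp
  have := isLocalRing_nodeR S hp
  obtain ⟨x, hx, y, hy, hy0, hxy⟩ := S.fraction u
  have hxA : x * y ^ (n - 1) ∈ S.A := mul_mem hx (pow_mem hy _)
  have hz : ((toR S ⟨_, hxA⟩ : (nodeR S).toSubring) : NodeK S) =
      algebraMap F (NodeK S) (u * y ^ n) := by
    show algebraMap F (NodeK S) (x * y ^ (n - 1)) = _
    congr 1
    rw [← hxy, ← Nat.sub_add_cancel hn, pow_succ, Nat.add_sub_cancel]; ring
  have hs0 : sR S ≠ 0 := fun h0 => sK_ne S hp (congrArg Subtype.val h0)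
  obtain ⟨i, j, H, U, hzf, -⟩ := exists_factorisation (algebraMap F (NodeK S))
    (maximalIdeal_nodeR S hp) (tR_not_nilpotent S hp) hs0 (irreducible_tR S hp)
    (exists_frac S hp) (fun f hf => F_memR S hf) (p := p) hn (fun ϖ hϖ h1 h2 hd => by
      have hst : (p : (nodeR S).toSubring) = sR S * tR S := Subtype.ext (by
        show ((p : (nodeR S).toSubring) : NodeK S) = sK S * tK S
        rw [tK, mul_div_cancel₀ _ (sK_ne S hp)]; push_cast; rfl)
      rw [hst] at hd
      have hsI : Prime (sR S) := (Ideal.span_singleton_prime hs0).mp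
        (LevelP.isPrime_and_pid_of_not_nilpotent (maximalIdeal_nodeR S hp)
          (tR_not_nilpotent S hp)).1
      rcases hϖ.dvd_or_dvd hd with hd | hd
      · exact h1 (hϖ.irreducible.associated_of_dvd hsI.irreducible hd)
      · exact h2 (hϖ.irreducible.associated_of_dvd (irreducible_tR S hp) hd))
    hu hy0 hpow hz
  obtain ⟨hd, f1, f2, f3, f4, f5, f6, f7, f8⟩ := invariants_norm S hp
  have hUV : ((U : (nodeR S).toSubring) : NodeK S) * ((U⁻¹ : _) : (nodeR S).toSubring) = 1 :=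
    congrArg Subtype.val U.mul_inv
  have hU := norm_unit S (i := 0) (R := P) hp S.red0_mem (isIntegral_memR S hp U.1.2)
    (isIntegral_memR S hp (U⁻¹).1.2) hUV
  have hU' := norm_unit S (i := 1) (R := Q) hp S.red1_mem (isIntegral_memR S hp U.1.2)
    (isIntegral_memR S hp (U⁻¹).1.2) hUV
  have hN := congrArg (fun z : (nodeR S).toSubring => Algebra.norm F (z : NodeK S)) hzf
  beta_reduce at hN
  rw [hz, Algebra.norm_algebraMap, hd] at hN
  simp only [Subring.coe_mul, SubmonoidClass.coe_pow, map_mul (Algebra.norm F),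
    map_pow (Algebra.norm F)] at hN
  set Ns := Algebra.norm F (sK S)
  set Nt := Algebra.norm F (tK S)
  set NH := Algebra.norm F (H : NodeK S)
  set NU := Algebra.norm F ((U : (nodeR S).toSubring) : NodeK S)
  change (u * y ^ n) ^ S.e = Ns ^ i * Nt ^ j * NH ^ n * NU at hN
  have hl : u * y ^ n ≠ 0 := mul_ne_zero hu (pow_ne_zero _ hy0)
  have hR : Ns ^ i * Nt ^ j * NH ^ n * NU ≠ 0 := hN ▸ pow_ne_zero _ hl
  have n1 : Ns ^ i ≠ 0 := left_ne_zero_of_mul (left_ne_zero_of_mul (left_ne_zero_of_mul hR))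
  have n2 : Nt ^ j ≠ 0 := right_ne_zero_of_mul (left_ne_zero_of_mul (left_ne_zero_of_mul hR))
  have n3 : NH ^ n ≠ 0 := right_ne_zero_of_mul (left_ne_zero_of_mul hR)
  have n4 : NU ≠ 0 := right_ne_zero_of_mul hR
  have n1' : Ns ≠ 0 := Algebra.norm_ne_zero_iff.mpr (sK_ne S hp)
  have n2' : Nt ≠ 0 := fun h0 => by
    rw [h0] at f7 f8
    simp [gv, go, gred, D.redF_zero, DVPoint.ord_zero] at f8
  have n3' : NH ≠ 0 := fun h0 => n3 (by rw [h0, zero_pow hn.ne'])
  have key : ∀ (ib : Fin 2) (R : DVPoint k G),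
      (S.e : ℤ) * (gv D ib u + n * gv D ib y) =
        i * gv D ib Ns + j * gv D ib Nt + n * gv D ib NH + gv D ib NU ∧
      (S.e : ℤ) * (go D R ib u + n * go D R ib y) =
        i * go D R ib Ns + j * go D R ib Nt + n * go D R ib NH + go D R ib NU := by
    intro ib R
    have h1 := congrArg (gv D ib) hN
    have h2 := congrArg (go D R ib) hN
    rw [(gv_pow D hp hl _).1, (gv_mul D hp hu (pow_ne_zero _ hy0)).1, (gv_pow D hp hy0 _).1,
      (gv_mul D hp (mul_ne_zero (mul_ne_zero n1 n2) n3) n4).1,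
      (gv_mul D hp (mul_ne_zero n1 n2) n3).1, (gv_mul D hp n1 n2).1, (gv_pow D hp n1' _).1,
      (gv_pow D hp n2' _).1, (gv_pow D hp n3' _).1] at h1
    rw [go_pow D hp R hl, go_mul D hp R hu (pow_ne_zero _ hy0), go_pow D hp R hy0,
      go_mul D hp R (mul_ne_zero (mul_ne_zero n1 n2) n3) n4,
      go_mul D hp R (mul_ne_zero n1 n2) n3, go_mul D hp R n1 n2, go_pow D hp R n1',
      go_pow D hp R n2', go_pow D hp R n3'] at h2
    exact ⟨h1, h2⟩
  obtain ⟨k1, k2⟩ := key 0 P
  obtain ⟨k3, k4⟩ := key 1 Q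
  rw [f1, f5, hU.1] at k1
  rw [f2, f6, hU.2] at k2
  rw [f3, f7, hU'.1] at k3
  rw [f4, f8, hU'.2] at k4
  have hcop : IsCoprime (n : ℤ) (S.e : ℤ) := Nat.isCoprime_iff_coprime.mpr hne
  constructor
  · refine hcop.dvd_of_dvd_mul_left ⟨-((S.e : ℤ) * S.e * go D P 0 y) +
      S.e * (gv D 1 y - gv D 0 y) + S.e * go D P 0 NH - gv D 1 NH + gv D 0 NH, ?_⟩
    linear_combination (S.e : ℤ) * k2 - k3 + k1
  · refine hcop.dvd_of_dvd_mul_left ⟨-((S.e : ℤ) * (go D P 0 y + go D Q 1 y)) + go D P 0 NH +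
      go D Q 1 NH, ?_⟩
    linear_combination k2 + k4

end Fermat.Agent.MazurPrinciple

end
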